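import Fermat.Agent.JAC.Frame.GoodTwist65

/-!
# Programme JAC, chapter Frame: invariance of Cech cohomology and of the Euler characteristic

* `h0Congr`, `h1Congr`: an isomorphism of Cech pairs induces isomorphisms on `H⁰` and `H¹`.
* `chiPair ρ₀ ρ₁`: the Euler characteristic `h⁰ - h¹` of a Cech pair over a field;
  `chi ρ₀ ρ₁ K = chiPair (ρ₀.baseChange K) (ρ₁.baseChange K)` (`chi_eq_chiPair`);
  `chiPair_congr`: invariance under isomorphism of pairs.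
* `chiPair_of_isBaseChange`: if a Cech pair `(ρ₀', ρ₁')` over a field `K` is *a* base change of the
  pair `(ρ₀, ρ₁)` over `B` (three maps `f₀ f₁ f` which are `IsBaseChange K` and commute with the
  `ρ`'s), then `chiPair ρ₀' ρ₁' = chi ρ₀ ρ₁ K`.  Combined with `GoodTwist.chi_baseChange` this
  computes the Euler characteristic of any model of the fibre as `rk (K ⊗ P) - rk (K ⊗ Q)`.
-/

set_option autoImplicit false

namespace Fermat.Agent.JAC.Frame.ChiCongr65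

open Fermat.Agent.JAC.Cech Fermat.Agent.JAC.Frame.GoodTwist65 TensorProduct

universe u

section Congr

variable {B : Type u} [CommRing B]
  {M₀ M₁ N M₀' M₁' N' : Type u} [AddCommGroup M₀] [AddCommGroup M₁] [AddCommGroup N]
  [AddCommGroup M₀'] [AddCommGroup M₁'] [AddCommGroup N'] [Module B M₀] [Module B M₁] [Module B N]
  [Module B M₀'] [Module B M₁'] [Module B N']
  {ρ₀ : M₀ →ₗ[B] N} {ρ₁ : M₁ →ₗ[B] N} {ρ₀' : M₀' →ₗ[B] N'} {ρ₁' : M₁' →ₗ[B] N'}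
  (e₀ : M₀ ≃ₗ[B] M₀') (e₁ : M₁ ≃ₗ[B] M₁') (e : N ≃ₗ[B] N')
  (h₀ : ∀ x, e (ρ₀ x) = ρ₀' (e₀ x)) (h₁ : ∀ y, e (ρ₁ y) = ρ₁' (e₁ y))

include h₀ h₁ in
theorem cechD_congr (z : M₀ × M₁) :
    cechD ρ₀' ρ₁' (e₀ z.1, e₁ z.2) = e (cechD ρ₀ ρ₁ z) := by
  rw [cechD_apply, cechD_apply, map_sub, h₀, h₁]

/-- An isomorphism of Cech pairs induces an isomorphism on `H⁰`. -/
noncomputable def h0Congr : H0 ρ₀ ρ₁ ≃ₗ[B] H0 ρ₀' ρ₁' :=
  LinearEquiv.ofLinearMap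
    ((LinearMap.prodMap (e₀ : M₀ →ₗ[B] M₀') (e₁ : M₁ →ₗ[B] M₁')).restrict
      (p := H0 ρ₀ ρ₁) (q := H0 ρ₀' ρ₁') (by
        intro z hz
        rw [mem_H0] at hz ⊢
        simp only [LinearMap.prodMap_apply, LinearEquiv.coe_coe]
        rw [← h₀, ← h₁, hz]))
    ((LinearMap.prodMap (e₀.symm : M₀' →ₗ[B] M₀) (e₁.symm : M₁' →ₗ[B] M₁)).restrict
      (p := H0 ρ₀' ρ₁') (q := H0 ρ₀ ρ₁) (by
        intro z hz
        rw [mem_H0] at hz ⊢
        simp only [LinearMap.prodMap_apply, LinearEquiv.coe_coe]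
        apply e.injective
        rw [h₀, h₁, LinearEquiv.apply_symm_apply, LinearEquiv.apply_symm_apply, hz]))
    (by
      ext z : 1
      apply Subtype.ext
      simp [LinearMap.restrict_apply])
    (by
      ext z : 1
      apply Subtype.ext
      simp [LinearMap.restrict_apply])

include h₀ h₁ in
theorem map_range_cechD :
    (LinearMap.range (cechD ρ₀ ρ₁)).map (e : N →ₗ[B] N') = LinearMap.range (cechD ρ₀' ρ₁') := by
  apply le_antisymm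
  · rintro _ ⟨_, ⟨z, rfl⟩, rfl⟩
    exact ⟨(e₀ z.1, e₁ z.2), cechD_congr e₀ e₁ e h₀ h₁ z⟩
  · rintro _ ⟨z, rfl⟩
    refine ⟨cechD ρ₀ ρ₁ (e₀.symm z.1, e₁.symm z.2), ⟨_, rfl⟩, ?_⟩
    rw [LinearEquiv.coe_coe, ← cechD_congr e₀ e₁ e h₀ h₁]
    simp

/-- An isomorphism of Cech pairs induces an isomorphism on `H¹`. -/
noncomputable def h1Congr : H1 ρ₀ ρ₁ ≃ₗ[B] H1 ρ₀' ρ₁' :=
  Submodule.Quotient.equiv _ _ e (map_range_cechD e₀ e₁ e h₀ h₁)

end Congr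

section Chi

variable {K : Type u} [Field K]
  {V₀ V₁ W V₀' V₁' W' : Type u} [AddCommGroup V₀] [AddCommGroup V₁] [AddCommGroup W]
  [AddCommGroup V₀'] [AddCommGroup V₁'] [AddCommGroup W'] [Module K V₀] [Module K V₁] [Module K W]
  [Module K V₀'] [Module K V₁'] [Module K W']

/-- The Euler characteristic `h⁰ - h¹` of a Cech pair over a field. -/
noncomputable def chiPair (ρ₀ : V₀ →ₗ[K] W) (ρ₁ : V₁ →ₗ[K] W) : ℤ :=
  (Module.finrank K (H0 ρ₀ ρ₁) : ℤ) - Module.finrank K (H1 ρ₀ ρ₁)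

theorem chiPair_congr {ρ₀ : V₀ →ₗ[K] W} {ρ₁ : V₁ →ₗ[K] W} {ρ₀' : V₀' →ₗ[K] W'}
    {ρ₁' : V₁' →ₗ[K] W'} (e₀ : V₀ ≃ₗ[K] V₀') (e₁ : V₁ ≃ₗ[K] V₁') (e : W ≃ₗ[K] W')
    (h₀ : ∀ x, e (ρ₀ x) = ρ₀' (e₀ x)) (h₁ : ∀ y, e (ρ₁ y) = ρ₁' (e₁ y)) :
    chiPair ρ₀ ρ₁ = chiPair ρ₀' ρ₁' := by
  unfold chiPair
  rw [(h0Congr e₀ e₁ e h₀ h₁).finrank_eq, (h1Congr e₀ e₁ e h₀ h₁).finrank_eq]

end Chi

section BaseChange

variable {B : Type u} [CommRing B] {M₀ M₁ N : Type u} [AddCommGroup M₀] [AddCommGroup M₁]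
  [AddCommGroup N] [Module B M₀] [Module B M₁] [Module B N]
  (ρ₀ : M₀ →ₗ[B] N) (ρ₁ : M₁ →ₗ[B] N)

theorem chi_eq_chiPair (K : Type u) [Field K] [Algebra B K] :
    chi ρ₀ ρ₁ K = chiPair (ρ₀.baseChange K) (ρ₁.baseChange K) := rfl

variable {K : Type u} [Field K] [Algebra B K]
  {V₀ V₁ W : Type u} [AddCommGroup V₀] [AddCommGroup V₁] [AddCommGroup W]
  [Module K V₀] [Module K V₁] [Module K W] [Module B V₀] [Module B V₁] [Module B W]
  [IsScalarTower B K V₀] [IsScalarTower B K V₁] [IsScalarTower B K W]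

/-- **Any model of the fibre computes the Euler characteristic**: a Cech pair over `K` which is a
base change of `(ρ₀, ρ₁)` in the sense of `IsBaseChange` has Euler characteristic `chi ρ₀ ρ₁ K`. -/
theorem chiPair_of_isBaseChange {ρ₀ : M₀ →ₗ[B] N} {ρ₁ : M₁ →ₗ[B] N}
    {ρ₀' : V₀ →ₗ[K] W} {ρ₁' : V₁ →ₗ[K] W}
    {f₀ : M₀ →ₗ[B] V₀} {f₁ : M₁ →ₗ[B] V₁} {f : N →ₗ[B] W}
    (hf₀ : IsBaseChange K f₀) (hf₁ : IsBaseChange K f₁) (hf : IsBaseChange K f)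
    (h₀ : ∀ x, ρ₀' (f₀ x) = f (ρ₀ x)) (h₁ : ∀ y, ρ₁' (f₁ y) = f (ρ₁ y)) :
    chiPair ρ₀' ρ₁' = chi ρ₀ ρ₁ K := by
  rw [chi_eq_chiPair]
  symm
  refine chiPair_congr hf₀.equiv hf₁.equiv hf.equiv ?_ ?_
  · intro x
    induction x using TensorProduct.induction_on with
    | zero => simp
    | tmul c x =>
      rw [LinearMap.baseChange_tmul, IsBaseChange.equiv_tmul, IsBaseChange.equiv_tmul, map_smul,
        h₀]
    | add x y hx hy => rw [map_add, map_add, hx, hy, map_add, map_add]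
  · intro y
    induction y using TensorProduct.induction_on with
    | zero => simp
    | tmul c y =>
      rw [LinearMap.baseChange_tmul, IsBaseChange.equiv_tmul, IsBaseChange.equiv_tmul, map_smul,
        h₁]
    | add x y hx hy => rw [map_add, map_add, hx, hy, map_add, map_add]

end BaseChange

end Fermat.Agent.JAC.Frame.ChiCongr65
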