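import Fermat.Agent.JAC.Frame.PolyChart65

/-!
# Programme JAC, chapter Frame: freeness over the coordinate ring is stable under base change

If a `k`-algebra `A` is free over `k[t]` with basis `a : Fin n → A` (stated as bijectivity of
`p ↦ ∑ j, p j (t) * a j`), then for every `k`-algebra `B` the `B`-algebra `B ⊗[k] A` is free over
`B[1 ⊗ t]` with basis `1 ⊗ a j`, in the same form (`bijective_baseChange`).  This feeds the
hypotheses `hb0`, `hb1` of `Diagram65.exists_forall_twist` for the constant family `B ⊗[k] A_i`.
`exists_bijective_of_free` derives the bijective form from `Module.Free` + `Module.Finite`.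
-/

set_option autoImplicit false

namespace Fermat.Agent.JAC.Frame.BaseChange65

open Fermat.Agent.JAC.Frame.PolyChart65 Polynomial TensorProduct

universe u v w

variable {k : Type u} [CommRing k] {A : Type v} [CommRing A] [Algebra k A] (t : A) {n : ℕ}
  (a : Fin n → A) (B : Type w) [CommRing B] [Algebra k B]

/-- Coefficientwise base change of polynomial vectors. -/
noncomputable def mapPoly (n : ℕ) : (Fin n → k[X]) →ₗ[k] (Fin n → B[X]) :=
  ((Polynomial.mapAlg k B).toLinearMap).compLeft (Fin n)

theorem mapPoly_apply (p : Fin n → k[X]) (j : Fin n) :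
    mapPoly (k := k) B n p j = (p j).map (algebraMap k B) := by
  simp [mapPoly, Polynomial.mapAlg_eq_map]

theorem coordMap_mapPoly (p : Fin n → k[X]) :
    coordMap (B := B) ((1 : B) ⊗ₜ[k] t) (fun j => (1 : B) ⊗ₜ[k] a j) (mapPoly B n p) =
      (1 : B) ⊗ₜ[k] (coordMap (B := k) t a p) := by
  rw [coordMap_apply, coordMap_apply, TensorProduct.tmul_sum]
  refine Finset.sum_congr rfl fun j _ => ?_
  rw [mapPoly_apply, Polynomial.aeval_map_algebraMap]
  have h : (1 : B) ⊗ₜ[k] t = (Algebra.TensorProduct.includeRight : A →ₐ[k] B ⊗[k] A) t := rfl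
  rw [h, Polynomial.aeval_algHom_apply, Algebra.TensorProduct.includeRight_apply,
    Algebra.TensorProduct.tmul_mul_tmul, one_mul]

variable {a t}

/-- **Base change of freeness over the coordinate ring.** -/
theorem bijective_baseChange
    (ha : Function.Bijective (fun p : Fin n → k[X] => ∑ j, Polynomial.aeval t (p j) * a j)) :
    Function.Bijective (fun p : Fin n → B[X] =>
      ∑ j, Polynomial.aeval ((1 : B) ⊗ₜ[k] t) (p j) * ((1 : B) ⊗ₜ[k] a j)) := by
  have ha' : Function.Bijective (coordMap (B := k) t a) := by
    have : (coordMap (B := k) t a : (Fin n → k[X]) → A) =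
        fun p : Fin n → k[X] => ∑ j, Polynomial.aeval t (p j) * a j := by
      funext p
      exact coordMap_apply t a p
    rw [this]
    exact ha
  set E : (Fin n → k[X]) ≃ₗ[k] A := LinearEquiv.ofBijective (coordMap (B := k) t a) ha' with hE
  set Φ : (Fin n → B[X]) →ₗ[B] B ⊗[k] A :=
    coordMap (B := B) ((1 : B) ⊗ₜ[k] t) (fun j => (1 : B) ⊗ₜ[k] a j) with hΦ
  set Ψ : B ⊗[k] A →ₗ[B] (Fin n → B[X]) :=
    LinearMap.liftBaseChange B (mapPoly B n ∘ₗ (E.symm : A →ₗ[k] (Fin n → k[X]))) with hΨ
  have h1 : ∀ z, Φ (Ψ z) = z := by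
    intro z
    induction z using TensorProduct.induction_on with
    | zero => simp
    | add x y hx hy => rw [map_add, map_add, hx, hy]
    | tmul c x =>
      rw [hΨ, LinearMap.liftBaseChange_tmul, map_smul, LinearMap.comp_apply, hΦ,
        LinearEquiv.coe_coe, coordMap_mapPoly]
      have : coordMap (B := k) t a (E.symm x) = x := E.apply_symm_apply x
      rw [this, TensorProduct.smul_tmul', smul_eq_mul, mul_one]
  have h2 : Ψ ∘ₗ Φ = LinearMap.id := by
    apply LinearMap.pi_ext'
    intro j
    apply Polynomial.lhom_ext'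
    intro d
    apply LinearMap.ext_ring
    simp only [LinearMap.comp_apply, LinearMap.id_apply, LinearMap.coe_single]
    have hm : (Pi.single j (Polynomial.monomial d (1 : B)) : Fin n → B[X]) =
        mapPoly B n (Pi.single j (Polynomial.monomial d (1 : k))) := by
      funext l
      rw [mapPoly_apply]
      by_cases hl : l = j
      · subst hl
        simp
      · simp [Pi.single_eq_of_ne hl]
    rw [hm, hΦ, coordMap_mapPoly, hΨ, LinearMap.liftBaseChange_tmul, one_smul,
      LinearMap.comp_apply, LinearEquiv.coe_coe]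
    have : E.symm (coordMap (B := k) t a (Pi.single j (Polynomial.monomial d (1 : k)))) =
        Pi.single j (Polynomial.monomial d (1 : k)) := E.symm_apply_apply _
    rw [this]
  have hbij : Function.Bijective Φ := by
    refine ⟨?_, fun z => ⟨Ψ z, h1 z⟩⟩
    intro p q hpq
    have hp := LinearMap.congr_fun h2 p
    have hq := LinearMap.congr_fun h2 q
    simp only [LinearMap.comp_apply, LinearMap.id_apply] at hp hq
    rw [← hp, ← hq, hpq]
  have : (fun p : Fin n → B[X] =>
      ∑ j, Polynomial.aeval ((1 : B) ⊗ₜ[k] t) (p j) * ((1 : B) ⊗ₜ[k] a j)) = Φ := by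
    funext p
    exact (coordMap_apply _ _ p).symm
  rw [this]
  exact hbij

/-- The bijective-coordinates form of freeness follows from Mathlib's `Module.Free` and
`Module.Finite` for an `Algebra k[X] A` structure given by `aeval t`. -/
theorem exists_bijective_of_free (t : A) [Algebra k[X] A]
    (h : ∀ p : k[X], algebraMap k[X] A p = Polynomial.aeval t p) [Module.Finite k[X] A]
    [Module.Free k[X] A] :
    ∃ (n : ℕ) (a : Fin n → A),
      Function.Bijective (fun p : Fin n → k[X] => ∑ j, Polynomial.aeval t (p j) * a j) := by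
  classical
  let b := (Module.Free.chooseBasis k[X] A).reindex (Fintype.equivFin _)
  refine ⟨_, b, ?_⟩
  have : (fun p : Fin _ → k[X] => ∑ j, Polynomial.aeval t (p j) * b j) = b.equivFun.symm := by
    funext p
    rw [Module.Basis.equivFun_symm_apply]
    refine Finset.sum_congr rfl fun j _ => ?_
    rw [Algebra.smul_def, h]
  rw [this]
  exact b.equivFun.symm.bijective

end Fermat.Agent.JAC.Frame.BaseChange65
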