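import Fermat.Agent.JAC.Frame.ChiCongr65

/-!
# Programme JAC, chapter Frame: the Euler characteristic at arbitrary field-valued points

For a Cech pair with a good twist over `B` and any field `K` over `B`, the Euler characteristic
of the fibre over `K` is the difference of the ranks of the two terms of the universal complex at
the point of `Spec B` below `Spec K` (`GoodTwist.chi_eq_rankAtStalk`).  Hence it only depends on
that point (`GoodTwist.chi_eq_chi_residueField`), and it is constant on an open neighbourhood of
any given point, for all field-valued points landing there (`GoodTwist.exists_open_chi_eq`).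
-/

set_option autoImplicit false

namespace Fermat.Agent.JAC.Frame.ChiRank65

open Fermat.Agent.JAC.Cech Fermat.Agent.JAC.Frame.GoodTwist65 TensorProduct

universe u

variable {B : Type u} [CommRing B]
variable {M₀ M₁ M₁' N : Type u} [AddCommGroup M₀] [AddCommGroup M₁] [AddCommGroup M₁']
  [AddCommGroup N] [Module B M₀] [Module B M₁] [Module B M₁'] [Module B N]
  {ρ₀ : M₀ →ₗ[B] N} {ρ₁ : M₁ →ₗ[B] N} {ι : M₁ →ₗ[B] M₁'} {ρ₁' : M₁' →ₗ[B] N}

theorem finrank_tensor_eq_rankAtStalk (P : Type u) [AddCommGroup P] [Module B P]
    [Module.Finite B P] [Module.Flat B P] (K : Type u) [Field K] [Algebra B K]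
    (q : PrimeSpectrum K) :
    Module.finrank K (K ⊗[B] P) = Module.rankAtStalk P (q.comap (algebraMap B K)) := by
  rw [← Module.rankAtStalk_baseChange (S := K) q, Module.rankAtStalk_eq_finrank_of_free]
  rfl

variable (h : GoodTwist ρ₀ ρ₁ ι ρ₁')

include h in
/-- **The Euler characteristic of the fibre over any field `K`** in terms of ranks at the point of
`Spec B` below `Spec K`. -/
theorem GoodTwist.chi_eq_rankAtStalk (K : Type u) [Field K] [Algebra B K] (q : PrimeSpectrum K) :
    chi ρ₀ ρ₁ K =
      (Module.rankAtStalk (H0 ρ₀ ρ₁') (q.comap (algebraMap B K)) : ℤ) -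
        Module.rankAtStalk (M₁' ⧸ LinearMap.range ι) (q.comap (algebraMap B K)) := by
  have := h.finite_h0
  have := h.projective_h0
  have := h.finite_quot
  have := h.projective_quot
  rw [h.chi_baseChange, finrank_tensor_eq_rankAtStalk _ K q, finrank_tensor_eq_rankAtStalk _ K q]

include h in
/-- The Euler characteristic of the fibre over `K` only depends on the point below. -/
theorem GoodTwist.chi_eq_chi_residueField (K : Type u) [Field K] [Algebra B K]
    (q : PrimeSpectrum K) :
    chi ρ₀ ρ₁ K = chi ρ₀ ρ₁ (q.comap (algebraMap B K)).asIdeal.ResidueField := by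
  rw [GoodTwist.chi_eq_rankAtStalk h K q, h.chi_residueField]

include h in
/-- **Local constancy for all field-valued points**: every point of `Spec B` has an open
neighbourhood `U` such that all fibres over fields whose point lies in `U` have the same Euler
characteristic. -/
theorem GoodTwist.exists_open_chi_eq (p₀ : PrimeSpectrum B) :
    ∃ U : Set (PrimeSpectrum B), IsOpen U ∧ p₀ ∈ U ∧
      ∀ (K : Type u) [Field K] [Algebra B K] (q : PrimeSpectrum K),
        q.comap (algebraMap B K) ∈ U → chi ρ₀ ρ₁ K = chi ρ₀ ρ₁ p₀.asIdeal.ResidueField := by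
  obtain ⟨U, hU, hp, hconst⟩ := (IsLocallyConstant.iff_exists_open _).1 h.isLocallyConstant_chi p₀
  refine ⟨U, hU, hp, fun K _ _ q hq => ?_⟩
  rw [GoodTwist.chi_eq_chi_residueField h K q]
  exact hconst _ hq

end Fermat.Agent.JAC.Frame.ChiRank65
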