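import Fermat.Agent.JAC.Frame.ChiCongr65

/-!
# Programme JAC, chapter Frame: base change along a pushout square

If `R' = B' ⊗[B] R` (pushout of rings) and an `R`-linear map `f : M → M'` exhibits the `R'`-module
`M'` as the base change `R' ⊗[R] M`, then `f`, viewed as a `B`-linear map, exhibits `M'` as the base
change `B' ⊗[B] M` (`isBaseChange_restrictScalars_of_isPushout`).

This is the bridge from "the diagram over the family `B' ⊗[B] R_i` is the base change of the
diagram over `R_i`" (vertexwise over the three rings `R0, R1, R01`) to the Cech-pair base change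
used in `GoodTwist65`, `ChiCongr65` (`chiPair_of_isBaseChange`).
-/

set_option autoImplicit false

namespace Fermat.Agent.JAC.Frame.Pushout65

open TensorProduct

universe u v w x y z

variable (B : Type u) (B' : Type v) (R : Type w) (R' : Type x)
  [CommRing B] [CommRing B'] [CommRing R] [CommRing R']
  [Algebra B B'] [Algebra B R] [Algebra B R'] [Algebra R R'] [Algebra B' R']
  [IsScalarTower B R R'] [IsScalarTower B B' R'] [Algebra.IsPushout B B' R R']
  {M : Type y} {M' : Type z} [AddCommGroup M] [AddCommGroup M']
  [Module B M] [Module R M] [IsScalarTower B R M]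
  [Module B M'] [Module R M'] [Module R' M'] [Module B' M']
  [IsScalarTower R R' M'] [IsScalarTower B' R' M'] [IsScalarTower B B' M'] [IsScalarTower B R M']

/-- **Base change along a pushout square.** -/
theorem isBaseChange_restrictScalars_of_isPushout {f : M →ₗ[R] M'} (hf : IsBaseChange R' f) :
    IsBaseChange B' (f.restrictScalars B) := by
  let e₁ : B' ⊗[B] M ≃ₗ[B'] R' ⊗[R] M := (Algebra.IsPushout.cancelBaseChange B B' R R' M).symm
  let e₂ : R' ⊗[R] M ≃ₗ[B'] M' := hf.equiv.restrictScalars B'
  refine IsBaseChange.of_equiv (e₁.trans e₂) fun x => ?_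
  simp only [LinearEquiv.trans_apply, e₁, e₂]
  rw [Algebra.IsPushout.cancelBaseChange_symm_tmul, map_one, LinearEquiv.restrictScalars_apply,
    IsBaseChange.equiv_tmul, one_smul]
  rfl

end Fermat.Agent.JAC.Frame.Pushout65
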