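import Mathlib
import Fermat.Agent.JAC.Core.AlgAtlas36
import Fermat.Agent.JAC.Grp.Cart33
import Fermat.Agent.JAC.Zar.BcFunct39
import Fermat.Agent.JAC.Frame.ChiRank65
import Fermat.Agent.JAC.Frame.Pushout65
import Fermat.Agent.JAC.Frame.BaseChange65

/-!
# Programme JAC, chapter Frame: the degree is locally constant in families

Bridge from the bundled line diagrams of `Core/Defs36`, `Core/Cart36`, `Core/Degree36`,
`Core/AlgAtlas36` to the Cech-pair Euler characteristic of `Frame/GoodTwist65`, `ChiCongr65`,
`ChiRank65`, and the resulting local constancy of `Degree36.degClass` in families.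

* `exists_isBaseChange_of_isBaseChangeHom` (vertex lemma): a base change of modules along
  `φ : R → R'` with `R' = K ⊗[B] R` is a base change along `B → K`.
* `chiAt B N K`, `degAt B N K`: Euler characteristic and degree of the fibre of a line diagram `N`
  over a family over `B` at a field-valued point `B → K` (`chiAt_self`: for `B = K` this is
  `Degree36.chi K N`).
* `IsPushoutSquare B K φ`: instance-free pushout condition; `isPushoutSquare_tensor` for the
  constant family.
* `chi_eq_chiAt_of_cartHom`: for ANY cartesian morphism `c : CartHom ψ N N'` over `B → K` with the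
  three ring squares pushouts, `Degree36.chi K N' = chiAt B N K`.
  `familyHomOfAlgebra`, `cartHomOfAlgebra`, `chi_baseChange_eq_chiAt`, `deg_baseChange_eq_degAt`:
  the instantiation for the typeclass-form `BaseChange33.baseChange`.
* `isLocallyConstant_chiAt`, `isLocallyConstant_degAt`, `chiAt_eq_residueField`,
  `degAt_eq_residueField` (DIAGRAM hypotheses of `GoodTwist65.exists_goodTwist`).
* Constant family of `AlgAtlas36` (`hts`, coordinate freeness of `A0` over `k[t]`, `A1` over
  `k[s]`): `degClass_bc`, `degFun ξ : PrimeSpectrum B → ℤ`, `degClass_bc_eq_degFun`,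
  `isLocallyConstant_degFun`, `exists_locallyConstant_deg`, `isClopen_degZero`, `isDegZero_iff`,
  `isDegZero_iff_residue`, `isDegZero_field_iff`, `degFun_bc`, `degClass_bc_field`,
  `isDegZero_iff_of_jointly_surjective`, `isDegZero_iff_of_comap_surjective`,
  `isDegZero_iff_of_preconnected`.
-/

set_option autoImplicit false
set_option linter.style.haveILetI false
set_option linter.unusedSectionVars false

namespace Fermat.Agent.JAC.Frame.DegFamily65

open Fermat.Agent.JAC.Core.Defs36 Fermat.Agent.JAC.Core.Cart36 Fermat.Agent.JAC.Grp.Cart33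
  Fermat.Agent.JAC.Frame.Pushout65 TensorProduct

universe u

section Vertex

variable {B K : Type u} [CommRing B] [CommRing K] [Algebra B K]
  {R R' : Type u} [CommRing R] [CommRing R'] [Algebra B R] [Algebra K R']
  {φ : R →+* R'} (θ : R →ₛₗ[algebraMap B K] R') (hθ : ∀ x, θ x = φ x) (cartθ : IsBaseChangeHom θ)
  {P P' : Type u} [AddCommGroup P] [Module R P] [AddCommGroup P'] [Module R' P']
  (f : P →ₛₗ[φ] P') (cartf : IsBaseChangeHom f)

include hθ cartθ cartf in
/-- **Vertex lemma**: a base change of modules along `φ : R → R'`, where `R' = K ⊗[B] R` is itself a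
base change of rings, is a base change along `B → K`. -/
theorem exists_isBaseChange_of_isBaseChangeHom :
    letI : Module B P := Module.compHom P (algebraMap B R)
    letI : Module K P' := Module.compHom P' (algebraMap K R')
    letI : Module B P' := Module.compHom P' (algebraMap B K)
    haveI : IsScalarTower B K P' := IsScalarTower.of_algebraMap_smul fun _ _ => rfl
    ∃ fB : P →ₗ[B] P', (∀ x, fB x = f x) ∧ IsBaseChange K fB := by
  letI : Algebra R R' := φ.toAlgebra
  letI : Algebra B R' := ((algebraMap K R').comp (algebraMap B K)).toAlgebra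
  haveI : IsScalarTower B K R' := IsScalarTower.of_algebraMap_eq fun _ => rfl
  have hφ : ∀ b : B, φ (algebraMap B R b) = algebraMap K R' (algebraMap B K b) := by
    intro b
    have h1 : θ (b • (1 : R)) = algebraMap B K b • θ 1 := θ.map_smulₛₗ b 1
    rw [hθ, hθ, map_one, Algebra.smul_def, mul_one, Algebra.smul_def, mul_one] at h1
    exact h1
  haveI : IsScalarTower B R R' := IsScalarTower.of_algebraMap_eq fun b => (hφ b).symm
  letI : Module R P' := Module.compHom P' φ
  haveI : IsScalarTower R R' P' := IsScalarTower.of_algebraMap_smul fun _ _ => rfl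
  letI : Module B P := Module.compHom P (algebraMap B R)
  haveI : IsScalarTower B R P := IsScalarTower.of_algebraMap_smul fun _ _ => rfl
  letI : Module K P' := Module.compHom P' (algebraMap K R')
  haveI : IsScalarTower K R' P' := IsScalarTower.of_algebraMap_smul fun _ _ => rfl
  letI : Module B P' := Module.compHom P' (algebraMap B K)
  haveI : IsScalarTower B K P' := IsScalarTower.of_algebraMap_smul fun _ _ => rfl
  haveI : IsScalarTower B R P' := IsScalarTower.of_algebraMap_smul fun b x => by
    change φ (algebraMap B R b) • x = algebraMap K R' (algebraMap B K b) • x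
    rw [hφ]
  let fR : P →ₗ[R] P' :=
    { toFun := f
      map_add' := f.map_add
      map_smul' := fun r x => f.map_smulₛₗ r x }
  have hfR : IsBaseChange R' fR := by
    apply isBaseChange_of_isBaseChangeHom fR
    exact cartf
  haveI : Algebra.IsPushout B K R R' := by
    refine ⟨isBaseChange_of_isBaseChangeHom _ ?_⟩
    have : toSemilinear K (IsScalarTower.toAlgHom B R R').toLinearMap = θ :=
      LinearMap.ext fun x => (hθ x).symm
    rw [this]
    exact cartθ
  exact ⟨fR.restrictScalars B, fun _ => rfl,
    isBaseChange_restrictScalars_of_isPushout B K R R' hfR⟩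

end Vertex


section General

open Fermat.Agent.JAC.Cech Fermat.Agent.JAC.Frame.GoodTwist65 Fermat.Agent.JAC.Frame.ChiCongr65
  Fermat.Agent.JAC.Frame.ChiRank65 Fermat.Agent.JAC.Core.Degree36

variable (B : Type u) [CommRing B] {R0 R1 R01 : Type u} [CommRing R0] [CommRing R1] [CommRing R01]
  [Algebra B R0] [Algebra B R1] [Algebra B R01] [Algebra R0 R01] [Algebra R1 R01]
  [IsScalarTower B R0 R01] [IsScalarTower B R1 R01] {t : R0} {s : R1}

section Structures

variable (N : LineDiag t s R01)

/-- The `B`-module structure on `M0` (through `B → R0`). -/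
@[reducible] def moduleB0 : Module B N.M0 := Module.compHom N.M0 (algebraMap B R0)

/-- The `B`-module structure on `M1` (through `B → R1`). -/
@[reducible] def moduleB1 : Module B N.M1 := Module.compHom N.M1 (algebraMap B R1)

/-- The `B`-module structure on `M01` (through `B → R01`). -/
@[reducible] def moduleB01 : Module B N.M01 := Module.compHom N.M01 (algebraMap B R01)

omit [Algebra B R1] [Algebra B R01] [IsScalarTower B R0 R01] [IsScalarTower B R1 R01] in
theorem tower0 : letI := moduleB0 B N; IsScalarTower B R0 N.M0 :=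
  letI := moduleB0 B N
  IsScalarTower.of_algebraMap_smul fun _ _ => rfl

omit [Algebra B R0] [Algebra B R01] [IsScalarTower B R0 R01] [IsScalarTower B R1 R01] in
theorem tower1 : letI := moduleB1 B N; IsScalarTower B R1 N.M1 :=
  letI := moduleB1 B N
  IsScalarTower.of_algebraMap_smul fun _ _ => rfl

omit [Algebra B R1] [IsScalarTower B R1 R01] in
theorem tower01_0 : letI := moduleB01 B N; IsScalarTower B R0 N.M01 :=
  letI := moduleB01 B N
  IsScalarTower.of_algebraMap_smul fun b x => by
    change algebraMap B R0 b • x = algebraMap B R01 b • x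
    rw [IsScalarTower.algebraMap_apply B R0 R01, algebraMap_smul R01 (algebraMap B R0 b) x]

omit [Algebra B R0] [IsScalarTower B R0 R01] in
theorem tower01_1 : letI := moduleB01 B N; IsScalarTower B R1 N.M01 :=
  letI := moduleB01 B N
  IsScalarTower.of_algebraMap_smul fun b x => by
    change algebraMap B R1 b • x = algebraMap B R01 b • x
    rw [IsScalarTower.algebraMap_apply B R1 R01, algebraMap_smul R01 (algebraMap B R1 b) x]

/-- `rho0` as a `B`-linear map. -/
def rho0B : letI := moduleB0 B N; letI := moduleB01 B N; N.M0 →ₗ[B] N.M01 :=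
  letI := moduleB0 B N; letI := moduleB01 B N
  haveI := tower0 B N; haveI := tower01_0 B N
  N.rho0.restrictScalars B

/-- `rho1` as a `B`-linear map. -/
def rho1B : letI := moduleB1 B N; letI := moduleB01 B N; N.M1 →ₗ[B] N.M01 :=
  letI := moduleB1 B N; letI := moduleB01 B N
  haveI := tower1 B N; haveI := tower01_1 B N
  N.rho1.restrictScalars B

@[simp] theorem rho0B_apply (x : N.M0) : rho0B B N x = N.rho0 x := rfl

@[simp] theorem rho1B_apply (y : N.M1) : rho1B B N y = N.rho1 y := rfl

/-- The Euler characteristic of the fibre of a line diagram over a family over `B` at a field-valued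
point `B → K`. -/
noncomputable def chiAt (K : Type u) [Field K] [Algebra B K] : ℤ :=
  letI := moduleB0 B N; letI := moduleB1 B N; letI := moduleB01 B N
  GoodTwist65.chi (rho0B B N) (rho1B B N) K

end Structures

/-- Over a field, `chiAt` at the identity point is the Euler characteristic of `Degree36`. -/
theorem chiAt_self (K : Type u) [Field K] {R0 R1 R01 : Type u} [CommRing R0] [CommRing R1]
    [CommRing R01] [Algebra K R0] [Algebra K R1] [Algebra K R01] [Algebra R0 R01] [Algebra R1 R01]
    [IsScalarTower K R0 R01] [IsScalarTower K R1 R01] {t : R0} {s : R1} (N : LineDiag t s R01) :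
    chiAt K N K = Core.Degree36.chi K N := by
  letI := moduleB0 K N; letI := moduleB1 K N; letI := moduleB01 K N
  unfold Core.Degree36.chi chiAt
  symm
  have hid : ∀ (M : Type u) [AddCommGroup M] [Module K M],
      IsBaseChange K (LinearMap.id : M →ₗ[K] M) := fun M _ _ =>
    IsBaseChange.of_equiv (TensorProduct.lid K M) (fun x => by simp)
  exact chiPair_of_isBaseChange (ρ₀ := rho0B K N) (ρ₁ := rho1B K N) (hid _) (hid _) (hid _)
    (fun x => rfl) (fun y => rfl)

section CartHom

variable {B}
variable {K : Type u} [Field K] [Algebra B K]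
  {R0' R1' R01' : Type u} [CommRing R0'] [CommRing R1'] [CommRing R01']
  [Algebra K R0'] [Algebra K R1'] [Algebra K R01'] [Algebra R0' R01'] [Algebra R1' R01']
  [IsScalarTower K R0' R01'] [IsScalarTower K R1' R01'] {t' : R0'} {s' : R1'}

/-- The commutative square of rings `B → R`, `K → R'`, `B → K`, `φ : R → R'` is a pushout, in
instance-free form. -/
def IsPushoutSquare (B K : Type u) [CommRing B] [CommRing K] [Algebra B K] {R R' : Type u}
    [CommRing R] [CommRing R'] [Algebra B R] [Algebra K R'] (φ : R →+* R') : Prop :=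
  ∃ θ : R →ₛₗ[algebraMap B K] R', (∀ x, θ x = φ x) ∧ IsBaseChangeHom θ

/-- **The Euler characteristic of any model of the fibre**: if `N'` is a base change of `N` along a
morphism of families `ψ` lying over `B → K` with `K` a field, and the three ring squares are
pushouts, then `Core.Degree36.chi K N' = chiAt B N K`. -/
theorem chi_eq_chiAt_of_cartHom (ψ : FamilyHom t s t' s' R01 R01') {N : LineDiag t s R01}
    {N' : LineDiag t' s' R01'} (c : LineDiag.CartHom ψ N N')
    (h0 : IsPushoutSquare B K ψ.ψ0) (h1 : IsPushoutSquare B K ψ.ψ1)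
    (h01 : IsPushoutSquare B K ψ.ψ01) :
    Core.Degree36.chi K N' = chiAt B N K := by
  obtain ⟨θ0, hθ0, cart0⟩ := h0
  obtain ⟨θ1, hθ1, cart1⟩ := h1
  obtain ⟨θ01, hθ01, cart01⟩ := h01
  letI := moduleB0 B N; letI := moduleB1 B N; letI := moduleB01 B N
  letI := module0 K N'; letI := module1 K N'; letI := module01 K N'
  letI : Module B N'.M0 := Module.compHom N'.M0 (algebraMap B K)
  letI : Module B N'.M1 := Module.compHom N'.M1 (algebraMap B K)
  letI : Module B N'.M01 := Module.compHom N'.M01 (algebraMap B K)
  haveI : IsScalarTower B K N'.M0 := IsScalarTower.of_algebraMap_smul fun _ _ => rfl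
  haveI : IsScalarTower B K N'.M1 := IsScalarTower.of_algebraMap_smul fun _ _ => rfl
  haveI : IsScalarTower B K N'.M01 := IsScalarTower.of_algebraMap_smul fun _ _ => rfl
  obtain ⟨f₀, hf₀, hb₀⟩ := exists_isBaseChange_of_isBaseChangeHom θ0 hθ0 cart0 c.f0 c.cart0
  obtain ⟨f₁, hf₁, hb₁⟩ := exists_isBaseChange_of_isBaseChangeHom θ1 hθ1 cart1 c.f1 c.cart1
  obtain ⟨f, hf, hb⟩ := exists_isBaseChange_of_isBaseChangeHom θ01 hθ01 cart01 c.f01 c.cart01
  unfold Core.Degree36.chi chiAt
  exact chiPair_of_isBaseChange (ρ₀ := rho0B B N) (ρ₁ := rho1B B N) hb₀ hb₁ hb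
    (fun x => by rw [rho0K_apply, hf₀, rho0B_apply, hf, c.comm0])
    (fun y => by rw [rho1K_apply, hf₁, rho1B_apply, hf, c.comm1])

end CartHom

variable [IsLocalization.Away t R01] [IsLocalization.Away s R01]

/-- The degree of the fibre of a line diagram over a family over `B` at a field-valued point. -/
noncomputable def degAt (N : LineDiag t s R01) (K : Type u) [Field K] [Algebra B K] : ℤ :=
  chiAt B N K - chiAt B (LineDiag.unit t s R01) K


section LocallyConstant

open Polynomial

variable {B}
variable (hts : algebraMap R0 R01 t * algebraMap R1 R01 s = 1)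
  {n0 n1 : ℕ} (b0 : Fin n0 → R0)
  (hb0 : Function.Bijective (fun p : Fin n0 → B[X] => ∑ j, Polynomial.aeval t (p j) * b0 j))
  (b1 : Fin n1 → R1)
  (hb1 : Function.Bijective (fun p : Fin n1 → B[X] => ∑ j, Polynomial.aeval s (p j) * b1 j))

include hts hb0 hb1 in
/-- The Euler characteristic of the fibres of a line diagram is locally constant on `Spec B`. -/
theorem isLocallyConstant_chiAt (N : LineDiag t s R01) :
    IsLocallyConstant (fun p : PrimeSpectrum B => chiAt B N p.asIdeal.ResidueField) := by
  letI := moduleB0 B N; letI := moduleB1 B N; letI := moduleB01 B N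
  haveI := tower0 B N; haveI := tower1 B N; haveI := tower01_0 B N; haveI := tower01_1 B N
  obtain ⟨m0, h⟩ := exists_goodTwist (B := B) t s hts b0 hb0 b1 hb1 N.rho0 N.rho1
  exact (h m0 le_rfl).isLocallyConstant_chi

include hts hb0 hb1 in
/-- The Euler characteristic of the fibre at a field-valued point only depends on the point of
`Spec B` below it. -/
theorem chiAt_eq_residueField (N : LineDiag t s R01) (K : Type u) [Field K] [Algebra B K]
    (q : PrimeSpectrum K) :
    chiAt B N K = chiAt B N (q.comap (algebraMap B K)).asIdeal.ResidueField := by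
  letI := moduleB0 B N; letI := moduleB1 B N; letI := moduleB01 B N
  haveI := tower0 B N; haveI := tower1 B N; haveI := tower01_0 B N; haveI := tower01_1 B N
  obtain ⟨m0, h⟩ := exists_goodTwist (B := B) t s hts b0 hb0 b1 hb1 N.rho0 N.rho1
  exact ChiRank65.GoodTwist.chi_eq_chi_residueField (h m0 le_rfl) K q

include hts hb0 hb1 in
/-- **The degree of the fibres of a line diagram is locally constant on `Spec B`.** -/
theorem isLocallyConstant_degAt (N : LineDiag t s R01) :
    IsLocallyConstant (fun p : PrimeSpectrum B => degAt B N p.asIdeal.ResidueField) :=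
  (isLocallyConstant_chiAt hts b0 hb0 b1 hb1 N).sub
    (isLocallyConstant_chiAt hts b0 hb0 b1 hb1 (LineDiag.unit t s R01))

include hts hb0 hb1 in
/-- The degree of the fibre at a field-valued point only depends on the point of `Spec B` below. -/
theorem degAt_eq_residueField (N : LineDiag t s R01) (K : Type u) [Field K] [Algebra B K]
    (q : PrimeSpectrum K) :
    degAt B N K = degAt B N (q.comap (algebraMap B K)).asIdeal.ResidueField := by
  unfold degAt
  rw [chiAt_eq_residueField hts b0 hb0 b1 hb1 N K q,
    chiAt_eq_residueField hts b0 hb0 b1 hb1 (LineDiag.unit t s R01) K q]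

end LocallyConstant

end General


section TypeclassForm

open Fermat.Agent.JAC.Grp.BaseChange33 Fermat.Agent.JAC.Core.Degree36

variable {R0 R1 R01 : Type u} [CommRing R0] [CommRing R1] [CommRing R01]
  [Algebra R0 R01] [Algebra R1 R01] {t : R0} {s : R1}
variable {R0' R1' R01' : Type u} [CommRing R0'] [CommRing R1'] [CommRing R01']
  [Algebra R0' R01'] [Algebra R1' R01']
  [Algebra R0 R0'] [Algebra R1 R1'] [Algebra R01 R01'] [Algebra R0 R01'] [Algebra R1 R01']
  [IsScalarTower R0 R01 R01'] [IsScalarTower R0 R0' R01']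
  [IsScalarTower R1 R01 R01'] [IsScalarTower R1 R1' R01']
  (t' : R0') (s' : R1') (ht : algebraMap R0 R0' t = t') (hs : algebraMap R1 R1' s = s')

/-- A morphism of families given in typeclass form (as in `Grp/BaseChange33`), as a `FamilyHom`. -/
def familyHomOfAlgebra : FamilyHom t s t' s' R01 R01' where
  ψ0 := algebraMap R0 R0'
  ψ1 := algebraMap R1 R1'
  ψ01 := algebraMap R01 R01'
  comm0 r := by
    rw [← IsScalarTower.algebraMap_apply R0 R01 R01', ← IsScalarTower.algebraMap_apply R0 R0' R01']
  comm1 r := by
    rw [← IsScalarTower.algebraMap_apply R1 R01 R01', ← IsScalarTower.algebraMap_apply R1 R1' R01']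
  map_t := ht
  map_s := hs

variable [IsLocalization.Away t R01] [IsLocalization.Away s R01]
  [IsLocalization.Away t' R01'] [IsLocalization.Away s' R01']

/-- The canonical cartesian morphism from a line diagram to its typeclass-form base change
`Grp.BaseChange33.baseChange`. -/
noncomputable def cartHomOfAlgebra (N : LineDiag t s R01) :
    LineDiag.CartHom (familyHomOfAlgebra t' s' ht hs) N
      (Grp.BaseChange33.baseChange R01' t' s' N) where
  f0 := (toSemilinear R0' (TensorProduct.mk R0 R0' N.M0 1) :
      N.M0 →ₛₗ[algebraMap R0 R0'] R0' ⊗[R0] N.M0)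
  f1 := (toSemilinear R1' (TensorProduct.mk R1 R1' N.M1 1) :
      N.M1 →ₛₗ[algebraMap R1 R1'] R1' ⊗[R1] N.M1)
  f01 := (toSemilinear R01' (TensorProduct.mk R01 R01' N.M01 1) :
      N.M01 →ₛₗ[algebraMap R01 R01'] R01' ⊗[R01] N.M01)
  comm0 := fun x => by
    show (1 : R01') ⊗ₜ[R01] N.rho0 x = Grp.BaseChange33.baseChangeMap N.rho0 ((1 : R0') ⊗ₜ[R0] x)
    rw [Grp.BaseChange33.baseChangeMap_tmul, map_one]
  comm1 := fun x => by
    show (1 : R01') ⊗ₜ[R01] N.rho1 x = Grp.BaseChange33.baseChangeMap N.rho1 ((1 : R1') ⊗ₜ[R1] x)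
    rw [Grp.BaseChange33.baseChangeMap_tmul, map_one]
  cart0 := isBaseChangeHom_mk R0 R0' N.M0
  cart1 := isBaseChangeHom_mk R1 R1' N.M1
  cart01 := isBaseChangeHom_mk R01 R01' N.M01

variable (B : Type u) [CommRing B] [Algebra B R0] [Algebra B R1] [Algebra B R01]
  [IsScalarTower B R0 R01] [IsScalarTower B R1 R01]
  (K : Type u) [Field K] [Algebra B K]
  [Algebra K R0'] [Algebra K R1'] [Algebra K R01']
  [IsScalarTower K R0' R01'] [IsScalarTower K R1' R01']

include ht hs in
/-- The Euler characteristic of the typeclass-form base change to a family over a field. -/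
theorem chi_baseChange_eq_chiAt (h0 : IsPushoutSquare B K (algebraMap R0 R0'))
    (h1 : IsPushoutSquare B K (algebraMap R1 R1'))
    (h01 : IsPushoutSquare B K (algebraMap R01 R01')) (N : LineDiag t s R01) :
    Core.Degree36.chi K (Grp.BaseChange33.baseChange R01' t' s' N) = chiAt B N K :=
  chi_eq_chiAt_of_cartHom (familyHomOfAlgebra t' s' ht hs) (cartHomOfAlgebra t' s' ht hs N) h0 h1 h01

include ht hs in
/-- The degree of the typeclass-form base change to a family over a field. -/
theorem deg_baseChange_eq_degAt (h0 : IsPushoutSquare B K (algebraMap R0 R0'))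
    (h1 : IsPushoutSquare B K (algebraMap R1 R1'))
    (h01 : IsPushoutSquare B K (algebraMap R01 R01')) (N : LineDiag t s R01) :
    Core.Degree36.deg K (Grp.BaseChange33.baseChange R01' t' s' N) = degAt B N K := by
  unfold Core.Degree36.deg degAt
  rw [chi_baseChange_eq_chiAt t' s' ht hs B K h0 h1 h01 N,
    ← chi_congr K (Grp.BaseChange33.baseChangeUnit (R01 := R01) (t := t) (s := s) R01' t' s'),
    chi_baseChange_eq_chiAt t' s' ht hs B K h0 h1 h01 (LineDiag.unit t s R01)]

end TypeclassForm


section ConstSquare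

variable {k : Type u} [CommRing k] {B K : Type u} [CommRing B] [CommRing K] [Algebra k B]
  [Algebra k K] [Algebra B K] [IsScalarTower k B K] (A : Type u) [CommRing A] [Algebra k A]

/-- The square `B → B ⊗[k] A`, `K → K ⊗[k] A` is a pushout, for any ring map `φ` which is
`b ⊗ a ↦ b ⊗ a` on pure tensors. -/
theorem isPushoutSquare_tensor (φ : B ⊗[k] A →+* K ⊗[k] A)
    (hφ : ∀ (b : B) (a : A), φ (b ⊗ₜ a) = algebraMap B K b ⊗ₜ a) : IsPushoutSquare B K φ := by
  let f : B ⊗[k] A →ₗ[B] K ⊗[k] A :=
    { toFun := φ
      map_add' := map_add φ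
      map_smul' := fun b x => by
        simp only [RingHom.id_apply]
        rw [Algebra.smul_def, map_mul, Algebra.TensorProduct.algebraMap_apply,
          Algebra.algebraMap_self_apply, hφ, Algebra.smul_def (R := B) (A := K ⊗[k] A),
          IsScalarTower.algebraMap_apply B K (K ⊗[k] A),
          Algebra.TensorProduct.algebraMap_apply, Algebra.algebraMap_self_apply] }
  have hf : IsBaseChange K f := by
    refine IsBaseChange.of_equiv
      (TensorProduct.AlgebraTensorModule.cancelBaseChange k B K K A) (fun x => ?_)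
    induction x using TensorProduct.induction_on with
    | zero => simp
    | tmul b a =>
      rw [TensorProduct.AlgebraTensorModule.cancelBaseChange_tmul]
      change _ = φ (b ⊗ₜ a)
      rw [hφ, Algebra.smul_def, mul_one]
    | add x y hx hy => rw [TensorProduct.tmul_add, map_add, hx, hy, map_add]
  exact ⟨toSemilinear K f, fun _ => rfl, isBaseChangeHom_of_isBaseChange f hf⟩

end ConstSquare


section ConstFamily

open scoped Fermat.Agent.JAC.Core.ConstFamily36
open Fermat.Agent.JAC.Core.ConstFamily36 Fermat.Agent.JAC.Core.AlgAtlas36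
  Fermat.Agent.JAC.Core.Degree36 Fermat.Agent.JAC.Grp.Diag33 Polynomial

variable {k : Type u} [Field k] {A0 A1 A01 : Type u} [CommRing A0] [CommRing A1] [CommRing A01]
  [Algebra k A0] [Algebra k A1] [Algebra k A01] [Algebra A0 A01] [Algebra A1 A01]
  [IsScalarTower k A0 A01] [IsScalarTower k A1 A01] {t : A0} {s : A1}
  [IsLocalization.Away t A01] [IsLocalization.Away s A01]

/-- **The degree of a fibre of a family of line diagrams over the constant family**: for
`ψ : B →ₐ[k] K` with `K` a field, `degClass K (bc ψ [N]) = degAt B N K`. -/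
theorem degClass_bc {B : Type u} [CommRing B] [Algebra k B] {K : Type u} [Field K] [Algebra k K]
    (ψ : B →ₐ[k] K)
    (N : LineDiag ((1 : B) ⊗ₜ[k] t) ((1 : B) ⊗ₜ[k] s) (B ⊗[k] A01)) :
    letI : Algebra B K := ψ.toRingHom.toAlgebra
    degClass K (bc ψ (cls N)) = degAt B N K := by
  letI : Algebra B K := ψ.toRingHom.toAlgebra
  haveI : IsScalarTower k B K := IsScalarTower.of_algebraMap_eq fun c => (ψ.commutes c).symm
  letI : Algebra (B ⊗[k] A0) (K ⊗[k] A0) := (bcMap ψ A0 A0).toAlgebra
  letI : Algebra (B ⊗[k] A1) (K ⊗[k] A1) := (bcMap ψ A1 A1).toAlgebra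
  letI : Algebra (B ⊗[k] A01) (K ⊗[k] A01) := (bcMap ψ A01 A01).toAlgebra
  letI : Algebra (B ⊗[k] A0) (K ⊗[k] A01) := (bcMap ψ A0 A01).toAlgebra
  letI : Algebra (B ⊗[k] A1) (K ⊗[k] A01) := (bcMap ψ A1 A01).toAlgebra
  haveI : IsScalarTower (B ⊗[k] A0) (B ⊗[k] A01) (K ⊗[k] A01) :=
    IsScalarTower.of_algebraMap_eq (fun x => by
      induction x using TensorProduct.induction_on with
      | zero => simp
      | tmul b a => rfl
      | add x y hx hy => simp only [map_add, hx, hy])
  haveI : IsScalarTower (B ⊗[k] A0) (K ⊗[k] A0) (K ⊗[k] A01) :=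
    IsScalarTower.of_algebraMap_eq (fun x => by
      induction x using TensorProduct.induction_on with
      | zero => simp
      | tmul b a => rfl
      | add x y hx hy => simp only [map_add, hx, hy])
  haveI : IsScalarTower (B ⊗[k] A1) (B ⊗[k] A01) (K ⊗[k] A01) :=
    IsScalarTower.of_algebraMap_eq (fun x => by
      induction x using TensorProduct.induction_on with
      | zero => simp
      | tmul b a => rfl
      | add x y hx hy => simp only [map_add, hx, hy])
  haveI : IsScalarTower (B ⊗[k] A1) (K ⊗[k] A1) (K ⊗[k] A01) :=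
    IsScalarTower.of_algebraMap_eq (fun x => by
      induction x using TensorProduct.induction_on with
      | zero => simp
      | tmul b a => rfl
      | add x y hx hy => simp only [map_add, hx, hy])
  show Core.Degree36.deg K (Grp.BaseChange33.baseChange (K ⊗[k] A01) ((1 : K) ⊗ₜ[k] t)
    ((1 : K) ⊗ₜ[k] s) N) = degAt B N K
  refine deg_baseChange_eq_degAt ((1 : K) ⊗ₜ[k] t) ((1 : K) ⊗ₜ[k] s) ?_ ?_ B K ?_ ?_ ?_ N
  · change bcMap ψ A0 A0 ((1 : B) ⊗ₜ[k] t) = _
    rw [bcMap_tmul, map_one]
    rfl
  · change bcMap ψ A1 A1 ((1 : B) ⊗ₜ[k] s) = _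
    rw [bcMap_tmul, map_one]
    rfl
  · exact isPushoutSquare_tensor A0 _ (fun b a => rfl)
  · exact isPushoutSquare_tensor A1 _ (fun b a => rfl)
  · exact isPushoutSquare_tensor A01 _ (fun b a => rfl)


section Main

variable (hts : algebraMap A0 A01 t * algebraMap A1 A01 s = 1)
  {n0 n1 : ℕ} (a0 : Fin n0 → A0)
  (ha0 : Function.Bijective (fun p : Fin n0 → k[X] => ∑ j, Polynomial.aeval t (p j) * a0 j))
  (a1 : Fin n1 → A1)
  (ha1 : Function.Bijective (fun p : Fin n1 → k[X] => ∑ j, Polynomial.aeval s (p j) * a1 j))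

omit [IsLocalization.Away t A01] [IsLocalization.Away s A01] in
include hts in
theorem hts_tensor (B : Type u) [CommRing B] [Algebra k B] :
    algebraMap (B ⊗[k] A0) (B ⊗[k] A01) ((1 : B) ⊗ₜ[k] t) *
      algebraMap (B ⊗[k] A1) (B ⊗[k] A01) ((1 : B) ⊗ₜ[k] s) = 1 := by
  rw [algebraMap_tensor_tmul, algebraMap_tensor_tmul, Algebra.TensorProduct.tmul_mul_tmul, hts,
    mul_one]
  rfl

/-- The degree function of a class over `B`: the degree of the fibre at the residue field of each
point of `Spec B`. -/
noncomputable def degFun {B : Type u} [CommRing B] [Algebra k B] (ξ : Cl k A0 A1 A01 t s B) :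
    PrimeSpectrum B → ℤ :=
  fun p => degClass p.asIdeal.ResidueField (bc (toResidue B p) ξ)

omit [IsLocalization.Away t A01] [IsLocalization.Away s A01] in
theorem toResidue_toAlgebra {B : Type u} [CommRing B] [Algebra k B] (p : PrimeSpectrum B) :
    (toResidue (k := k) B p).toRingHom.toAlgebra =
      (inferInstance : Algebra B p.asIdeal.ResidueField) :=
  Algebra.algebra_ext _ _ (fun _ => rfl)

theorem degFun_cls {B : Type u} [CommRing B] [Algebra k B]
    (N : LineDiag ((1 : B) ⊗ₜ[k] t) ((1 : B) ⊗ₜ[k] s) (B ⊗[k] A01)) (p : PrimeSpectrum B) :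
    degFun (cls N) p = degAt B N p.asIdeal.ResidueField := by
  unfold degFun
  rw [degClass_bc (toResidue B p) N, toResidue_toAlgebra p]

include hts ha0 ha1 in
/-- **The degree of the fibre at any field-valued point** `ψ : B →ₐ[k] K` is the value of `degFun`
at the point `ker ψ` of `Spec B`. -/
theorem degClass_bc_eq_degFun {B : Type u} [CommRing B] [Algebra k B]
    (ξ : Cl k A0 A1 A01 t s B) (K : Type u) [Field K] [Algebra k K] (ψ : B →ₐ[k] K) :
    degClass K (bc ψ ξ) = degFun ξ ⟨RingHom.ker ψ, RingHom.ker_isPrime ψ⟩ := by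
  induction ξ using Quotient.inductionOn with
  | _ N =>
    change degClass K (bc ψ (cls N)) = degFun (cls N) _
    rw [degClass_bc ψ N, degFun_cls]
    letI : Algebra B K := ψ.toRingHom.toAlgebra
    have hb0 := BaseChange65.bijective_baseChange B ha0
    have hb1 := BaseChange65.bijective_baseChange B ha1
    have key := degAt_eq_residueField (B := B) (hts_tensor hts B) _ hb0 _ hb1 N K ⊥
    have hp : (⊥ : PrimeSpectrum K).comap (algebraMap B K) =
        ⟨RingHom.ker ψ, RingHom.ker_isPrime ψ⟩ := by
      apply PrimeSpectrum.ext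
      rfl
    rw [hp] at key
    exact key

include hts ha0 ha1 in
/-- **The degree is locally constant in families.** -/
theorem isLocallyConstant_degFun {B : Type u} [CommRing B] [Algebra k B]
    (ξ : Cl k A0 A1 A01 t s B) : IsLocallyConstant (degFun ξ) := by
  induction ξ using Quotient.inductionOn with
  | _ N =>
    have hb0 := BaseChange65.bijective_baseChange B ha0
    have hb1 := BaseChange65.bijective_baseChange B ha1
    have key := isLocallyConstant_degAt (B := B) (hts_tensor hts B) _ hb0 _ hb1 N
    have : degFun (cls N) = fun p : PrimeSpectrum B => degAt B N p.asIdeal.ResidueField :=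
      funext fun p => degFun_cls N p
    change IsLocallyConstant (degFun (cls N))
    rw [this]
    exact key

include hts ha0 ha1 in
/-- Existential packaging: the degree of the fibres of a class over `B` is given by a locally
constant function on `Spec B`. -/
theorem exists_locallyConstant_deg {B : Type u} [CommRing B] [Algebra k B]
    (ξ : Cl k A0 A1 A01 t s B) :
    ∃ d : PrimeSpectrum B → ℤ, IsLocallyConstant d ∧
      ∀ (K : Type u) [Field K] [Algebra k K] (ψ : B →ₐ[k] K),
        degClass K (bc ψ ξ) = d ⟨RingHom.ker ψ, RingHom.ker_isPrime ψ⟩ :=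
  ⟨degFun ξ, isLocallyConstant_degFun hts a0 ha0 a1 ha1 ξ,
    fun K _ _ ψ => degClass_bc_eq_degFun hts a0 ha0 a1 ha1 ξ K ψ⟩

include hts ha0 ha1 in
/-- The locus of `Spec B` where the degree vanishes is open and closed. -/
theorem isClopen_degZero {B : Type u} [CommRing B] [Algebra k B] (ξ : Cl k A0 A1 A01 t s B) :
    IsClopen {p : PrimeSpectrum B | degFun ξ p = 0} :=
  (isLocallyConstant_degFun hts a0 ha0 a1 ha1 ξ).isClopen_fiber 0

include hts ha0 ha1 in
/-- **`IsDegZero` is a pointwise condition on `Spec B`.** -/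
theorem isDegZero_iff {B : Type u} [CommRing B] [Algebra k B] (ξ : Cl k A0 A1 A01 t s B) :
    IsDegZero B ξ ↔ ∀ p : PrimeSpectrum B, degFun ξ p = 0 := by
  constructor
  · intro h p
    let L := AlgebraicClosure p.asIdeal.ResidueField
    let ψ : B →ₐ[k] L := (IsScalarTower.toAlgHom k p.asIdeal.ResidueField L).comp (toResidue B p)
    have h1 := h L ψ
    rw [degClass_bc_eq_degFun hts a0 ha0 a1 ha1 ξ L ψ] at h1
    have hp : (⟨RingHom.ker ψ, RingHom.ker_isPrime ψ⟩ : PrimeSpectrum B) = p := by
      apply PrimeSpectrum.ext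
      ext b
      change ψ b = 0 ↔ b ∈ p.asIdeal
      change algebraMap p.asIdeal.ResidueField L (algebraMap B p.asIdeal.ResidueField b) = 0 ↔ _
      rw [map_eq_zero_iff _ (algebraMap p.asIdeal.ResidueField L).injective,
        Ideal.algebraMap_residueField_eq_zero]
    rw [hp] at h1
    exact h1
  · intro h K _ _ _ ψ
    rw [degClass_bc_eq_degFun hts a0 ha0 a1 ha1 ξ K ψ]
    exact h _

include hts ha0 ha1 in
/-- The degree function is compatible with base change. -/
theorem degFun_bc {B B' : Type u} [CommRing B] [CommRing B'] [Algebra k B] [Algebra k B']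
    (φ : B →ₐ[k] B') (ξ : Cl k A0 A1 A01 t s B) (p' : PrimeSpectrum B') :
    degFun (bc φ ξ) p' = degFun ξ (p'.comap φ.toRingHom) := by
  unfold degFun
  rw [← Zar.BcFunct39.bc_comp_apply,
    degClass_bc_eq_degFun hts a0 ha0 a1 ha1 ξ _ ((toResidue B' p').comp φ),
    degClass_bc_eq_degFun hts a0 ha0 a1 ha1 ξ _ (toResidue B (p'.comap φ.toRingHom))]
  congr 1
  apply PrimeSpectrum.ext
  ext b
  change algebraMap B' p'.asIdeal.ResidueField (φ b) = 0 ↔
    algebraMap B (p'.comap φ.toRingHom).asIdeal.ResidueField b = 0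
  rw [Ideal.algebraMap_residueField_eq_zero, Ideal.algebraMap_residueField_eq_zero]
  rfl

include hts ha0 ha1 in
/-- **The degree is invariant under extension of the base field.** -/
theorem degClass_bc_field {K L : Type u} [Field K] [Field L] [Algebra k K] [Algebra k L]
    (ψ : K →ₐ[k] L) (ξ : Cl k A0 A1 A01 t s K) : degClass L (bc ψ ξ) = degClass K ξ := by
  have h1 := degClass_bc_eq_degFun hts a0 ha0 a1 ha1 ξ L ψ
  have h2 := degClass_bc_eq_degFun hts a0 ha0 a1 ha1 ξ K (AlgHom.id k K)
  rw [Zar.BcFunct39.bc_id_apply] at h2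
  rw [h1, h2]
  congr 1
  exact Subsingleton.elim _ _

include hts ha0 ha1 in
/-- `IsDegZero` in terms of the residue fields of the points of `Spec B`. -/
theorem isDegZero_iff_residue {B : Type u} [CommRing B] [Algebra k B]
    (ξ : Cl k A0 A1 A01 t s B) :
    IsDegZero B ξ ↔
      ∀ p : PrimeSpectrum B, degClass p.asIdeal.ResidueField (bc (toResidue B p) ξ) = 0 :=
  isDegZero_iff hts a0 ha0 a1 ha1 ξ

include hts ha0 ha1 in
/-- Over a field, `IsDegZero` means that the degree vanishes. -/
theorem isDegZero_field_iff {K : Type u} [Field K] [Algebra k K] (ξ : Cl k A0 A1 A01 t s K) :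
    IsDegZero K ξ ↔ degClass K ξ = 0 := by
  constructor
  · intro h
    have h1 := (isDegZero_iff hts a0 ha0 a1 ha1 ξ).1 h ⊥
    unfold degFun at h1
    rwa [degClass_bc_field hts a0 ha0 a1 ha1] at h1
  · intro h L _ _ _ ψ
    rw [degClass_bc_field hts a0 ha0 a1 ha1, h]

include hts ha0 ha1 in
/-- **`IsDegZero` can be checked on any family of base changes which is jointly surjective on
spectra** (Zariski covers, nilpotent thickenings, faithfully flat covers, residue fields...). -/
theorem isDegZero_iff_of_jointly_surjective {B : Type u} [CommRing B] [Algebra k B]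
    (ξ : Cl k A0 A1 A01 t s B) {ι : Type*} (B' : ι → Type u) [∀ i, CommRing (B' i)]
    [∀ i, Algebra k (B' i)] (φ : ∀ i, B →ₐ[k] B' i)
    (hφ : ∀ p : PrimeSpectrum B, ∃ (i : ι) (p' : PrimeSpectrum (B' i)),
      p'.comap (φ i).toRingHom = p) :
    IsDegZero B ξ ↔ ∀ i, IsDegZero (B' i) (bc (φ i) ξ) := by
  constructor
  · intro h i
    exact Zar.BcFunct39.isDegZero_bc (φ i) ξ h
  · intro h
    rw [isDegZero_iff hts a0 ha0 a1 ha1]
    intro p
    obtain ⟨i, p', rfl⟩ := hφ p
    rw [← degFun_bc hts a0 ha0 a1 ha1]
    exact (isDegZero_iff hts a0 ha0 a1 ha1 _).1 (h i) p'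

include hts ha0 ha1 in
/-- `IsDegZero` descends along a map which is surjective on spectra (e.g. the quotient by a
nilpotent ideal). -/
theorem isDegZero_iff_of_comap_surjective {B B' : Type u} [CommRing B] [CommRing B']
    [Algebra k B] [Algebra k B'] (φ : B →ₐ[k] B')
    (hφ : Function.Surjective (PrimeSpectrum.comap φ.toRingHom)) (ξ : Cl k A0 A1 A01 t s B) :
    IsDegZero B ξ ↔ IsDegZero B' (bc φ ξ) := by
  rw [isDegZero_iff_of_jointly_surjective hts a0 ha0 a1 ha1 ξ (ι := Unit) (fun _ => B')
    (fun _ => φ) (fun p => by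
      obtain ⟨p', hp'⟩ := hφ p
      exact ⟨(), p', hp'⟩)]
  exact ⟨fun h => h (), fun h _ => h⟩

include hts ha0 ha1 in
/-- On a connected base, `IsDegZero` can be checked at a single point. -/
theorem isDegZero_iff_of_preconnected {B : Type u} [CommRing B] [Algebra k B]
    [PreconnectedSpace (PrimeSpectrum B)] (ξ : Cl k A0 A1 A01 t s B) (p₀ : PrimeSpectrum B) :
    IsDegZero B ξ ↔ degFun ξ p₀ = 0 := by
  rw [isDegZero_iff hts a0 ha0 a1 ha1]
  constructor
  · intro h
    exact h p₀
  · intro h p
    rw [(isLocallyConstant_degFun hts a0 ha0 a1 ha1 ξ).apply_eq_of_preconnectedSpace p p₀, h]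

end Main

end ConstFamily

end Fermat.Agent.JAC.Frame.DegFamily65
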