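import Fermat.Agent.JAC.Frame.PolyChart65

/-!
# Programme JAC, chapter Frame: cohomology of large twists of a two-chart diagram

The consumer-level theorems of the chapter.

* `exists_forall_twist_core`: frame language.  `P₀ -ρ₀-> N <-ρ₁- P₁`, `N` with an automorphism `T`
  (inverse `T'`), `P₀` with a polynomial frame for `τ₀` (compatible with `T`), `P₁` with a
  polynomial frame for `τ₁` (compatible with `T'`), `ρ₀, ρ₁` injective and exhaustive.  Then there
  is `d ≥ 0` such that for all `m ≥ d - 1` the Cech pair `(ρ₀, T ^ m ∘ ρ₁)` has vanishing `H¹`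
  (every `z` is `ρ₀ x + T ^ m (ρ₁ y)`) and finite projective `H⁰`
  (`ker (ρ₀.coprod (-(T ^ m ∘ ρ₁)))`).
* `exists_forall_twist`: the same for a diagram `M0 -rho0-> M01 <-rho1- M1` of modules over
  `R0 → R01 ← R1`, `rho0` the localisation at `t : R0`, `rho1` the localisation at `s : R1`,
  `t s = 1` in `R01`, `R0` free of finite rank over `B[t]`, `R1` free of finite rank over `B[s]`,
  `M0`, `M1` finite projective over `R0`, `R1`:  for `m ≥ m0` the twisted pair
  `(rho0, t ^ m • rho1)` has vanishing `H¹` and finite projective `H⁰` over `B`.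
-/

set_option autoImplicit false

namespace Fermat.Agent.JAC.Frame.Diagram65

open Fermat.Agent.JAC.Frame.BiFil65 Fermat.Agent.JAC.Frame.Pair65 Fermat.Agent.JAC.Frame.Lz65
  Fermat.Agent.JAC.Frame.Main65 Fermat.Agent.JAC.Frame.NatChart65
  Fermat.Agent.JAC.Frame.PolyChart65 Polynomial

universe u v₀ v₁ w₀ w₁ x y₀ y₁ y

section Core

variable {B : Type u} [CommRing B]
  {P₀ : Type w₀} [AddCommGroup P₀] [Module B P₀] {P₁ : Type w₁} [AddCommGroup P₁] [Module B P₁]
  {N : Type x} [AddCommGroup N] [Module B N]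

/-- `H⁰` of a Cech pair of injective maps is the intersection of the two images. -/
noncomputable def kerCoprodEquiv (ρ₀ : P₀ →ₗ[B] N) (ρ₁ : P₁ →ₗ[B] N)
    (h₀ : Function.Injective ρ₀) (h₁ : Function.Injective ρ₁) :
    ↥(LinearMap.ker (ρ₀.coprod (-ρ₁))) ≃ₗ[B] ↥(LinearMap.range ρ₀ ⊓ LinearMap.range ρ₁) :=
  LinearEquiv.ofBijective
    (LinearMap.codRestrict (LinearMap.range ρ₀ ⊓ LinearMap.range ρ₁)
      (ρ₀ ∘ₗ LinearMap.fst B P₀ P₁ ∘ₗ (LinearMap.ker (ρ₀.coprod (-ρ₁))).subtype)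
      (fun z => by
        have hz := z.2
        rw [LinearMap.mem_ker, LinearMap.coprod_apply, LinearMap.neg_apply, ← sub_eq_add_neg,
          sub_eq_zero] at hz
        refine ⟨⟨z.1.1, rfl⟩, ⟨z.1.2, ?_⟩⟩
        simp only [LinearMap.comp_apply, Submodule.subtype_apply, LinearMap.fst_apply]
        exact hz.symm))
    ⟨by
      rw [← LinearMap.ker_eq_bot, LinearMap.ker_eq_bot']
      intro z hz
      have hz' := z.2
      rw [LinearMap.mem_ker, LinearMap.coprod_apply, LinearMap.neg_apply, ← sub_eq_add_neg,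
        sub_eq_zero] at hz'
      have h1 : ρ₀ z.1.1 = 0 := congrArg Subtype.val hz
      have h2 : z.1.1 = 0 := h₀ (by rw [h1, map_zero])
      have h3 : z.1.2 = 0 := h₁ (by rw [← hz', h1, map_zero])
      exact Subtype.ext (Prod.ext h2 h3),
     by
      rintro ⟨z, ⟨x, hx⟩, ⟨y, hy⟩⟩
      refine ⟨⟨(x, y), ?_⟩, Subtype.ext hx⟩
      rw [LinearMap.mem_ker, LinearMap.coprod_apply, LinearMap.neg_apply, hx, hy, add_neg_cancel]⟩

variable {τ₀ : P₀ →ₗ[B] P₀} {τ₁ : P₁ →ₗ[B] P₁}
  {V₀ : Type v₀} [AddCommGroup V₀] [Module B V₀] {V₁ : Type v₁} [AddCommGroup V₁] [Module B V₁]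

/-- **Cohomology of large twists, frame language.** -/
theorem exists_forall_twist_core [Module.Finite B V₀] [Module.Free B V₀] [Module.Finite B V₁]
    [Module.Free B V₁] (C₀ : NatChart τ₀ V₀) (C₁ : NatChart τ₁ V₁)
    (T T' : N ≃ₗ[B] N) (hTT' : ∀ z, T' (T z) = z) (ρ₀ : P₀ →ₗ[B] N) (ρ₁ : P₁ →ₗ[B] N)
    (h₀τ : ∀ x, ρ₀ (τ₀ x) = T (ρ₀ x)) (h₁τ : ∀ y, ρ₁ (τ₁ y) = T' (ρ₁ y))
    (h₀inj : Function.Injective ρ₀) (h₁inj : Function.Injective ρ₁)
    (h₀surj : ∀ z : N, ∃ (k : ℕ) (x : P₀), (T ^ (k : ℤ)) z = ρ₀ x)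
    (h₁surj : ∀ z : N, ∃ (k : ℕ) (y : P₁), (T' ^ (k : ℤ)) z = ρ₁ y) :
    ∃ d : ℤ, 0 ≤ d ∧ ∀ m : ℤ, d - 1 ≤ m →
      (∀ z : N, ∃ (x : P₀) (y : P₁), ρ₀ x + (T ^ m) (ρ₁ y) = z) ∧
      Module.Finite B
        ↥(LinearMap.ker (ρ₀.coprod (-(((T ^ m : N ≃ₗ[B] N) : N →ₗ[B] N) ∘ₗ ρ₁)))) ∧
      Module.Projective B
        ↥(LinearMap.ker (ρ₀.coprod (-(((T ^ m : N ≃ₗ[B] N) : N →ₗ[B] N) ∘ₗ ρ₁)))) := by
  have D₀ : ChartData T (LinearMap.range ρ₀) V₀ ((lzFil B V₀).gt (-1)) :=
    C₀.toChartData h₀τ h₀inj h₀surj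
  have D₁ : ChartData T (LinearMap.range ρ₁) V₁ ((lzFil B V₁).le 0) :=
    reflectChartData hTT' (C₁.toChartData h₁τ h₁inj h₁surj)
  obtain ⟨d, hd, h⟩ := exists_forall_finite_projective D₀ D₁
  refine ⟨d, hd, fun m hm => ?_⟩
  obtain ⟨hsup, hfin, hproj⟩ := h m hm
  have htw : twist T (LinearMap.range ρ₁) m =
      LinearMap.range (((T ^ m : N ≃ₗ[B] N) : N →ₗ[B] N) ∘ₗ ρ₁) := by
    rw [twist, LinearMap.range_comp]
  have hinj : Function.Injective (((T ^ m : N ≃ₗ[B] N) : N →ₗ[B] N) ∘ₗ ρ₁) := by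
    rw [LinearMap.coe_comp]
    exact (T ^ m).injective.comp h₁inj
  refine ⟨fun z => ?_, ?_, ?_⟩
  · have hz : z ∈ LinearMap.range ρ₀ ⊔ twist T (LinearMap.range ρ₁) m := by
      rw [hsup]; exact Submodule.mem_top
    obtain ⟨a, ⟨x, rfl⟩, b, ⟨_, ⟨y, rfl⟩, rfl⟩, hab⟩ := Submodule.mem_sup.1 hz
    exact ⟨x, y, hab⟩
  · rw [htw] at hfin
    exact Module.Finite.equiv (kerCoprodEquiv ρ₀ _ h₀inj hinj).symm
  · rw [htw] at hproj
    exact Module.Projective.of_equiv (kerCoprodEquiv ρ₀ _ h₀inj hinj).symm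

end Core

section Diagram

variable {B : Type u} [CommRing B] {R0 : Type w₀} {R1 : Type w₁} {R01 : Type x}
  [CommRing R0] [CommRing R1] [CommRing R01] [Algebra B R0] [Algebra B R1]
  [Algebra R0 R01] [Algebra R1 R01]
  {M0 : Type y₀} {M1 : Type y₁} {M01 : Type y} [AddCommGroup M0] [AddCommGroup M1]
  [AddCommGroup M01] [Module R0 M0] [Module R1 M1] [Module R01 M01] [Module R0 M01] [Module R1 M01]
  [IsScalarTower R0 R01 M01] [IsScalarTower R1 R01 M01]
  [Module B M0] [Module B M1] [Module B M01] [IsScalarTower B R0 M0] [IsScalarTower B R1 M1]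
  [IsScalarTower B R0 M01] [IsScalarTower B R1 M01]

/-- Multiplication by `t : R0` on `M01`, as an automorphism, given an inverse `s : R1`. -/
def smulEquiv (M01 : Type y) [AddCommGroup M01] [Module R01 M01] [Module R0 M01] [Module R1 M01]
    [IsScalarTower R0 R01 M01] [IsScalarTower R1 R01 M01] [Module B M01] [IsScalarTower B R0 M01]
    [IsScalarTower B R1 M01] (t : R0) (s : R1)
    (hts : algebraMap R0 R01 t * algebraMap R1 R01 s = 1) : M01 ≃ₗ[B] M01 :=
  LinearEquiv.ofLinearMap (smulEnd (B := B) M01 t) (smulEnd (B := B) M01 s)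
    (by
      ext z
      simp only [LinearMap.comp_apply, smulEnd_apply, LinearMap.id_apply]
      rw [← algebraMap_smul R01 t, ← algebraMap_smul R01 s, smul_smul, hts, one_smul])
    (by
      ext z
      simp only [LinearMap.comp_apply, smulEnd_apply, LinearMap.id_apply]
      rw [← algebraMap_smul R01 s, ← algebraMap_smul R01 t, smul_smul, mul_comm, hts, one_smul])

@[simp] theorem smulEquiv_apply (t : R0) (s : R1)
    (hts : algebraMap R0 R01 t * algebraMap R1 R01 s = 1) (z : M01) :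
    smulEquiv (B := B) M01 t s hts z = t • z := rfl

theorem smulEquiv_zpow_natCast (t : R0) (s : R1)
    (hts : algebraMap R0 R01 t * algebraMap R1 R01 s = 1) (k : ℕ) (z : M01) :
    ((smulEquiv (B := B) M01 t s hts) ^ (k : ℤ)) z = t ^ k • z := by
  rw [zpow_natCast]
  induction k generalizing z with
  | zero => simp
  | succ k ih => rw [pow_succ, LinearEquiv.mul_apply, ih, smulEquiv_apply, smul_smul, pow_succ]

theorem smulEnd_pow_apply {R : Type w₀} [CommRing R] [Algebra B R] {M : Type y} [AddCommGroup M]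
    [Module R M] [Module B M] [IsScalarTower B R M] (t : R) (k : ℕ) (x : M) :
    ((smulEnd (B := B) M t) ^ k) x = t ^ k • x := by
  induction k generalizing x with
  | zero => simp
  | succ k ih => rw [pow_succ, Module.End.mul_apply, smulEnd_apply, ih, smul_smul, pow_succ]

/-- Localisation maps out of modules with a polynomial frame are injective. -/
theorem injective_of_natChart {R : Type w₀} [CommRing R] [Algebra B R] {M : Type y₀}
    [AddCommGroup M] [Module R M] [Module B M] [IsScalarTower B R M] {M' : Type y}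
    [AddCommGroup M'] [Module R M'] (t : R) (rho : M →ₗ[R] M')
    [IsLocalizedModule (Submonoid.powers t) rho]
    {V : Type v₀} [AddCommGroup V] [Module B V] (C : NatChart (smulEnd (B := B) M t) V) :
    Function.Injective rho := by
  rw [← LinearMap.ker_eq_bot, LinearMap.ker_eq_bot']
  intro x hx
  obtain ⟨⟨c, k, rfl⟩, hc⟩ := (IsLocalizedModule.eq_zero_iff (Submonoid.powers t) rho).1 hx
  have h1 : ((smulEnd (B := B) M t) ^ k) x = 0 := by
    rw [smulEnd_pow_apply]
    exact hc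
  have hinj : Function.Injective ((smulEnd (B := B) M t) ^ k) := by
    rw [Module.End.coe_pow]
    exact (natChart_τ_injective C).iterate k
  exact hinj (by rw [h1, map_zero])

/-- **Cohomology of large twists of a two-chart diagram**: vanishing of `H¹` and finite
projectivity of `H⁰` of the twisted Cech pair `(rho0, t ^ m • rho1)` for all `m ≥ m0`. -/
theorem exists_forall_twist (t : R0) (s : R1)
    (hts : algebraMap R0 R01 t * algebraMap R1 R01 s = 1)
    {n0 n1 : ℕ} (b0 : Fin n0 → R0)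
    (hb0 : Function.Bijective (fun p : Fin n0 → B[X] => ∑ j, Polynomial.aeval t (p j) * b0 j))
    (b1 : Fin n1 → R1)
    (hb1 : Function.Bijective (fun p : Fin n1 → B[X] => ∑ j, Polynomial.aeval s (p j) * b1 j))
    [Module.Finite R0 M0] [Module.Projective R0 M0] [Module.Finite R1 M1] [Module.Projective R1 M1]
    (rho0 : M0 →ₗ[R0] M01) (rho1 : M1 →ₗ[R1] M01)
    [IsLocalizedModule (Submonoid.powers t) rho0] [IsLocalizedModule (Submonoid.powers s) rho1] :
    ∃ m0 : ℕ, ∀ m : ℕ, m0 ≤ m →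
      (∀ z : M01, ∃ (x : M0) (y : M1), rho0 x + t ^ m • rho1 y = z) ∧
      Module.Finite B ↥(LinearMap.ker ((rho0.restrictScalars B).coprod
        (-(smulEnd (B := B) M01 (t ^ m) ∘ₗ rho1.restrictScalars B)))) ∧
      Module.Projective B ↥(LinearMap.ker ((rho0.restrictScalars B).coprod
        (-(smulEnd (B := B) M01 (t ^ m) ∘ₗ rho1.restrictScalars B)))) := by
  obtain ⟨m₀, ⟨C₀⟩⟩ := exists_natChart_of_finite_projective (B := B) (M := M0) t
    (natChartOfBasis t b0 hb0)
  obtain ⟨m₁, ⟨C₁⟩⟩ := exists_natChart_of_finite_projective (B := B) (M := M1) s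
    (natChartOfBasis s b1 hb1)
  have hst : algebraMap R1 R01 s * algebraMap R0 R01 t = 1 := by rw [mul_comm]; exact hts
  obtain ⟨d, hd, h⟩ := exists_forall_twist_core C₀ C₁
    (smulEquiv (B := B) M01 t s hts) (smulEquiv (B := B) M01 s t hst)
    (fun z => by
      simp only [smulEquiv_apply]
      rw [← algebraMap_smul R01 s, ← algebraMap_smul R01 t, smul_smul, hst, one_smul])
    (rho0.restrictScalars B) (rho1.restrictScalars B)
    (fun x => by simp)
    (fun y => by simp)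
    (injective_of_natChart t rho0 C₀) (injective_of_natChart s rho1 C₁)
    (fun z => by
      obtain ⟨⟨x, ⟨c, k, rfl⟩⟩, hx⟩ := IsLocalizedModule.surj (Submonoid.powers t) rho0 z
      refine ⟨k, x, ?_⟩
      rw [smulEquiv_zpow_natCast]
      exact hx)
    (fun z => by
      obtain ⟨⟨y, ⟨c, k, rfl⟩⟩, hy⟩ := IsLocalizedModule.surj (Submonoid.powers s) rho1 z
      refine ⟨k, y, ?_⟩
      rw [smulEquiv_zpow_natCast]
      exact hy)
  refine ⟨(d - 1).toNat, fun m hm => ?_⟩
  have hm' : d - 1 ≤ (m : ℤ) := by omega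
  obtain ⟨h1, h2, h3⟩ := h m hm'
  have hmap : ((((smulEquiv (B := B) M01 t s hts) ^ (m : ℤ) : M01 ≃ₗ[B] M01) : M01 →ₗ[B] M01)) ∘ₗ
      rho1.restrictScalars B = smulEnd (B := B) M01 (t ^ m) ∘ₗ rho1.restrictScalars B := by
    ext y
    simp only [LinearMap.comp_apply, LinearEquiv.coe_coe, smulEquiv_zpow_natCast, smulEnd_apply]
  rw [hmap] at h2 h3
  refine ⟨fun z => ?_, h2, h3⟩
  obtain ⟨x, y, hxy⟩ := h1 z
  refine ⟨x, y, ?_⟩
  rw [smulEquiv_zpow_natCast] at hxy
  exact hxy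

end Diagram

end Fermat.Agent.JAC.Frame.Diagram65
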