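import Fermat.Agent.JAC.Frame.BaseChange65

/-!
# Programme JAC, chapter Frame: the coordinate-form freeness hypothesis for curve charts

The hypotheses `hb0`, `hb1` of `Diagram65.exists_forall_twist` / `GoodTwist65.exists_goodTwist`
(freeness of the chart ring over the coordinate ring in coordinate form) hold for the charts of a
curve: a domain `A` which is finite over `k[t]` with `k[t] → A` injective is free over `k[t]`
(finitely generated torsion-free over a PID), and this is stable under every base change
`B ⊗[k] A`.

* `exists_coords_of_ringHom`: from a finite injective ring hom `φ : k[X] →+* A` with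
  `φ ∘ C = algebraMap`, `φ X = t` (the shape of `B2.TwoChart37.TwoChartData.finite₀/injective₀`);
* `exists_coords_baseChange`: the same after base change to any `k`-algebra `B`.
-/

set_option autoImplicit false

namespace Fermat.Agent.JAC.Frame.CurveInput65

open Fermat.Agent.JAC.Frame.BaseChange65 Polynomial TensorProduct

universe u v w

variable {k : Type u} [Field k] {A : Type v} [CommRing A] [IsDomain A] [Algebra k A] (t : A)

/-- **Freeness of a curve chart over its coordinate ring**, coordinate form. -/
theorem exists_coords_of_ringHom (φ : k[X] →+* A) (hC : ∀ c : k, φ (C c) = algebraMap k A c)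
    (hX : φ X = t) (hfin : φ.Finite) (hinj : Function.Injective φ) :
    ∃ (n : ℕ) (a : Fin n → A),
      Function.Bijective (fun p : Fin n → k[X] => ∑ j, Polynomial.aeval t (p j) * a j) := by
  have hφ : φ = (Polynomial.aeval t : k[X] →ₐ[k] A).toRingHom := by
    apply Polynomial.ringHom_ext
    · intro c
      simp [hC]
    · simp [hX]
  let _ : Algebra k[X] A := φ.toAlgebra
  have hfin' : Module.Finite k[X] A := hfin
  have htf : Module.IsTorsionFree k[X] A := by
    rw [Module.isTorsionFree_iff_algebraMap_injective]
    exact hinj
  have hfree : Module.Free k[X] A := inferInstance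
  refine exists_bijective_of_free t (fun p => ?_)
  change φ p = _
  rw [hφ]
  rfl

/-- The same after base change to any `k`-algebra `B`. -/
theorem exists_coords_baseChange (φ : k[X] →+* A) (hC : ∀ c : k, φ (C c) = algebraMap k A c)
    (hX : φ X = t) (hfin : φ.Finite) (hinj : Function.Injective φ)
    (B : Type w) [CommRing B] [Algebra k B] :
    ∃ (n : ℕ) (b : Fin n → B ⊗[k] A),
      Function.Bijective (fun p : Fin n → B[X] =>
        ∑ j, Polynomial.aeval ((1 : B) ⊗ₜ[k] t) (p j) * b j) := by
  obtain ⟨n, a, ha⟩ := exists_coords_of_ringHom t φ hC hX hfin hinj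
  exact ⟨n, fun j => (1 : B) ⊗ₜ[k] a j, bijective_baseChange B ha⟩

end Fermat.Agent.JAC.Frame.CurveInput65
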