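import Fermat.Agent.JAC.Frame.Shrink65
import Fermat.Agent.JAC.Hilb.BasisLocus24

/-!
# Programme JAC, chapter Frame: spreading out a generating section (helper50)

Cech-pair language of `Frame`.  For a Cech pair `(ρ₀, ρ₁)` over `B` and a global section
`z ∈ H⁰(ρ₀, ρ₁)`:

* `UnivGen ρ₀ ρ₁ z`: `H¹ = 0` and `H⁰` is free of rank one on `z`;
* `univGen_congr`: invariance under isomorphisms of Cech pairs;
* `UnivGen.baseChange`: if `N` is flat, `UnivGen` is stable under every base change `B → B'`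
  (with generator `1 ⊗ z`);
* `univGen_trans`: compatibility with iterated base change;
* `GoodTwist.exists_away_univGen`: **spreading out**: if `H¹` of the fibre at a prime `p`
  vanishes and `H⁰` of the fibre at `p` has dimension one, then there are `f ∉ p` and a GLOBAL
  section `z` such that for every `B`-algebra `B'` in which `f` is invertible the base change to
  `B'` satisfies `UnivGen` with generator `1 ⊗ z`.
-/

set_option autoImplicit false
set_option linter.style.haveILetI false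

namespace Fermat.Agent.JAC.Frame.GenSpread50

open Fermat.Agent.JAC.Cech Fermat.Agent.JAC.Frame.GoodTwist65 Fermat.Agent.JAC.Frame.ChiCongr65
  Fermat.Agent.JAC.Frame.Shrink65 Fermat.Agent.JAC.Hilb.BasisLocus24 TensorProduct

universe u

section Def

variable {B : Type u} [CommRing B]
variable {M₀ M₁ N : Type u} [AddCommGroup M₀] [AddCommGroup M₁] [AddCommGroup N]
  [Module B M₀] [Module B M₁] [Module B N]

/-- `H¹ = 0` and `H⁰` is free of rank one on the section `z`. -/
def UnivGen (ρ₀ : M₀ →ₗ[B] N) (ρ₁ : M₁ →ₗ[B] N) (z : H0 ρ₀ ρ₁) : Prop :=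
  Function.Surjective (cechD ρ₀ ρ₁) ∧ Function.Bijective (fun b : B => b • z)

variable {ρ₀ : M₀ →ₗ[B] N} {ρ₁ : M₁ →ₗ[B] N}

theorem UnivGen.smul_of_isUnit {z : H0 ρ₀ ρ₁} (hz : UnivGen ρ₀ ρ₁ z) {u : B} (hu : IsUnit u) :
    UnivGen ρ₀ ρ₁ (u • z) := by
  refine ⟨hz.1, ?_⟩
  have h : (fun b : B => b • (u • z)) = (fun b : B => b • z) ∘ (fun b : B => b * u) := by
    funext b
    simp [mul_smul]
  rw [h]
  obtain ⟨v, rfl⟩ := hu
  exact hz.2.comp v.mulRight_bijective

theorem UnivGen.of_smul_of_isUnit {z : H0 ρ₀ ρ₁} {u : B} (hu : IsUnit u)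
    (hz : UnivGen ρ₀ ρ₁ (u • z)) : UnivGen ρ₀ ρ₁ z := by
  obtain ⟨v, rfl⟩ := hu
  have h := hz.smul_of_isUnit (u := ((v⁻¹ : Bˣ) : B)) (Units.isUnit _)
  rwa [smul_smul, Units.inv_mul, one_smul] at h

/-- A generator in the sense of `UnivGen` is a one-element basis. -/
theorem UnivGen.bijective_linearCombination {z : H0 ρ₀ ρ₁} (hz : UnivGen ρ₀ ρ₁ z) :
    Function.Bijective (Fintype.linearCombination B (fun _ : Unit => z)) := by
  have h : (Fintype.linearCombination B (fun _ : Unit => z) : (Unit → B) → H0 ρ₀ ρ₁) =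
      (fun b : B => b • z) ∘ (Equiv.funUnique Unit B) := by
    funext c
    simp [Fintype.linearCombination_apply]
  rw [h]
  exact hz.2.comp (Equiv.bijective _)

end Def

section Congr

variable {B : Type u} [CommRing B]
  {M₀ M₁ N M₀' M₁' N' : Type u} [AddCommGroup M₀] [AddCommGroup M₁] [AddCommGroup N]
  [AddCommGroup M₀'] [AddCommGroup M₁'] [AddCommGroup N'] [Module B M₀] [Module B M₁] [Module B N]
  [Module B M₀'] [Module B M₁'] [Module B N']
  {ρ₀ : M₀ →ₗ[B] N} {ρ₁ : M₁ →ₗ[B] N} {ρ₀' : M₀' →ₗ[B] N'} {ρ₁' : M₁' →ₗ[B] N'}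
  (e₀ : M₀ ≃ₗ[B] M₀') (e₁ : M₁ ≃ₗ[B] M₁') (e : N ≃ₗ[B] N')
  (h₀ : ∀ x, e (ρ₀ x) = ρ₀' (e₀ x)) (h₁ : ∀ y, e (ρ₁ y) = ρ₁' (e₁ y))

include h₀ h₁ in
theorem cechD_surjective_congr :
    Function.Surjective (cechD ρ₀' ρ₁') ↔ Function.Surjective (cechD ρ₀ ρ₁) := by
  constructor
  · intro h n
    obtain ⟨w, hw⟩ := h (e n)
    refine ⟨(e₀.symm w.1, e₁.symm w.2), e.injective ?_⟩
    rw [← cechD_congr e₀ e₁ e h₀ h₁, ← hw]
    simp
  · intro h n'
    obtain ⟨z, hz⟩ := h (e.symm n')
    refine ⟨(e₀ z.1, e₁ z.2), ?_⟩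
    rw [cechD_congr e₀ e₁ e h₀ h₁, hz, LinearEquiv.apply_symm_apply]

theorem coe_h0Congr (z : H0 ρ₀ ρ₁) :
    ((h0Congr e₀ e₁ e h₀ h₁ z : H0 ρ₀' ρ₁') : M₀' × M₁') = (e₀ z.1.1, e₁ z.1.2) := rfl

/-- `UnivGen` is invariant under isomorphisms of Cech pairs. -/
theorem univGen_congr (z : H0 ρ₀ ρ₁) :
    UnivGen ρ₀' ρ₁' (h0Congr e₀ e₁ e h₀ h₁ z) ↔ UnivGen ρ₀ ρ₁ z := by
  unfold UnivGen
  rw [cechD_surjective_congr e₀ e₁ e h₀ h₁]
  have h : (fun b : B => b • h0Congr e₀ e₁ e h₀ h₁ z) =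
      (h0Congr e₀ e₁ e h₀ h₁) ∘ (fun b : B => b • z) := by
    funext b
    simp
  rw [h, Function.Bijective.of_comp_iff' (LinearEquiv.bijective _)]

end Congr

section BaseChange

variable {B : Type u} [CommRing B]
variable {M₀ M₁ N : Type u} [AddCommGroup M₀] [AddCommGroup M₁] [AddCommGroup N]
  [Module B M₀] [Module B M₁] [Module B N]
variable (ρ₀ : M₀ →ₗ[B] N) (ρ₁ : M₁ →ₗ[B] N)

/-- If `H¹ = 0`, `N` is flat and `1 ⊗ z` is a basis of `B' ⊗ H⁰`, then `1 ⊗ z` generates the
base change to `B'` in the sense of `UnivGen`. -/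
theorem univGen_baseChange_of_isBasisAt [Module.Flat B N]
    (h1 : Function.Surjective (cechD ρ₀ ρ₁)) (z : H0 ρ₀ ρ₁)
    (B' : Type u) [CommRing B'] [Algebra B B'] (hb : IsBasisAt B (fun _ : Unit => z) B') :
    UnivGen (ρ₀.baseChange B') (ρ₁.baseChange B') (h0ToBaseChange ρ₀ ρ₁ B' z) := by
  refine ⟨cechD_surjective_baseChange B' ρ₀ ρ₁ h1, ?_⟩
  have hbij := h0BaseChangeMap_bijective ρ₀ ρ₁ B' h1
  have h : (fun b : B' => b • h0ToBaseChange ρ₀ ρ₁ B' z) =
      (h0BaseChangeMap ρ₀ ρ₁ B') ∘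
        (Fintype.linearCombination B' (fun _ : Unit => (1 : B') ⊗ₜ[B] z)) ∘
          (Equiv.funUnique Unit B').symm := by
    funext b
    simp [Fintype.linearCombination_apply, h0BaseChangeMap]
  rw [h]
  exact hbij.comp (hb.comp (Equiv.bijective _))

variable {ρ₀ ρ₁}

/-- **`UnivGen` is stable under arbitrary base change** (for flat `N`). -/
theorem UnivGen.baseChange [Module.Flat B N] {z : H0 ρ₀ ρ₁} (hz : UnivGen ρ₀ ρ₁ z)
    (B' : Type u) [CommRing B'] [Algebra B B'] :
    UnivGen (ρ₀.baseChange B') (ρ₁.baseChange B') (h0ToBaseChange ρ₀ ρ₁ B' z) :=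
  univGen_baseChange_of_isBasisAt ρ₀ ρ₁ hz.1 z B'
    (isBasisAt_of_bijective _ hz.bijective_linearCombination B')

variable (ρ₀ ρ₁)

/-- Compatibility of `UnivGen` with iterated base change `B → B' → B''`. -/
theorem univGen_trans (B' B'' : Type u) [CommRing B'] [CommRing B''] [Algebra B B']
    [Algebra B' B''] [Algebra B B''] [IsScalarTower B B' B''] (z : H0 ρ₀ ρ₁) :
    UnivGen ((ρ₀.baseChange B').baseChange B'') ((ρ₁.baseChange B').baseChange B'')
        (h0ToBaseChange (ρ₀.baseChange B') (ρ₁.baseChange B') B'' (h0ToBaseChange ρ₀ ρ₁ B' z)) ↔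
      UnivGen (ρ₀.baseChange B'') (ρ₁.baseChange B'') (h0ToBaseChange ρ₀ ρ₁ B'' z) := by
  have key : h0BaseChangeTrans B' B'' ρ₀ ρ₁
      (h0ToBaseChange (ρ₀.baseChange B') (ρ₁.baseChange B') B'' (h0ToBaseChange ρ₀ ρ₁ B' z)) =
      h0ToBaseChange ρ₀ ρ₁ B'' z := by
    apply Subtype.ext
    rw [h0BaseChangeTrans, coe_h0Congr]
    simp [h0ToBaseChange, baseChangeTransEquiv_tmul]
  rw [← key]
  exact (univGen_congr _ _ _ _ _ _).symm

/-- Assembly along a tower `B → B₁ → B₂ → B'`: a generator over `B₂` which is, up to a unit of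
`B₁`, the restriction of a global section `z`, gives `UnivGen` over every `B₂`-algebra `B'` with
generator `1 ⊗ z`. -/
theorem univGen_of_tower [Module.Flat B N] (B₁ B₂ : Type u) [CommRing B₁] [CommRing B₂]
    [Algebra B B₁] [Algebra B₁ B₂] (z : H0 ρ₀ ρ₁)
    (z₁ : H0 (ρ₀.baseChange B₁) (ρ₁.baseChange B₁)) (u : B₁) (hu : IsUnit u)
    (hz : h0ToBaseChange ρ₀ ρ₁ B₁ z = u • z₁)
    (hz₁ : UnivGen ((ρ₀.baseChange B₁).baseChange B₂) ((ρ₁.baseChange B₁).baseChange B₂)
      (h0ToBaseChange (ρ₀.baseChange B₁) (ρ₁.baseChange B₁) B₂ z₁))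
    (B' : Type u) [CommRing B'] [Algebra B B'] [Algebra B₁ B'] [Algebra B₂ B']
    [IsScalarTower B B₁ B'] [IsScalarTower B₁ B₂ B'] :
    UnivGen (ρ₀.baseChange B') (ρ₁.baseChange B') (h0ToBaseChange ρ₀ ρ₁ B' z) := by
  have hz₂ : UnivGen ((ρ₀.baseChange B₁).baseChange B₂) ((ρ₁.baseChange B₁).baseChange B₂)
      (h0ToBaseChange (ρ₀.baseChange B₁) (ρ₁.baseChange B₁) B₂
        (h0ToBaseChange ρ₀ ρ₁ B₁ z)) := by
    rw [hz, map_smul, ← algebraMap_smul B₂]
    exact hz₁.smul_of_isUnit (hu.map _)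
  have hz₃ := hz₂.baseChange B'
  have hz₄ := (univGen_trans (ρ₀.baseChange B₁) (ρ₁.baseChange B₁) B₂ B'
    (h0ToBaseChange ρ₀ ρ₁ B₁ z)).1 hz₃
  exact (univGen_trans ρ₀ ρ₁ B₁ B' z).1 hz₄

end BaseChange

section Descent

variable {B : Type u} [CommRing B]
variable {M₀ M₁ N : Type u} [AddCommGroup M₀] [AddCommGroup M₁] [AddCommGroup N]
  [Module B M₀] [Module B M₁] [Module B N]
variable (ρ₀ : M₀ →ₗ[B] N) (ρ₁ : M₁ →ₗ[B] N)

/-- Every section over `B_f` is, up to a power of `f`, the restriction of a global section. -/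
theorem exists_pow_smul_eq_h0ToBaseChange (f : B)
    (w : H0 (ρ₀.baseChange (Localization.Away f)) (ρ₁.baseChange (Localization.Away f))) :
    ∃ (n : ℕ) (z : H0 ρ₀ ρ₁), h0ToBaseChange ρ₀ ρ₁ (Localization.Away f) z =
      algebraMap B (Localization.Away f) (f ^ n) • w := by
  classical
  set A := Localization.Away f with hA
  obtain ⟨⟨x, ⟨_, a, rfl⟩⟩, hx⟩ :=
    IsLocalizedModule.surj (Submonoid.powers f) (TensorProduct.mk B A M₀ 1) w.1.1
  obtain ⟨⟨y, ⟨_, b, rfl⟩⟩, hy⟩ :=
    IsLocalizedModule.surj (Submonoid.powers f) (TensorProduct.mk B A M₁ 1) w.1.2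
  have hx' : (f ^ a) • w.1.1 = (1 : A) ⊗ₜ[B] x := hx
  have hy' : (f ^ b) • w.1.2 = (1 : A) ⊗ₜ[B] y := hy
  have hw : (ρ₀.baseChange A) w.1.1 = (ρ₁.baseChange A) w.1.2 := (mem_H0 _ _ _).1 w.2
  -- common denominator
  have hx'' : (f ^ (a + b)) • w.1.1 = (1 : A) ⊗ₜ[B] (f ^ b • x) := by
    rw [pow_add, mul_comm, mul_smul, hx', TensorProduct.tmul_smul]
  have hy'' : (f ^ (a + b)) • w.1.2 = (1 : A) ⊗ₜ[B] (f ^ a • y) := by
    rw [pow_add, mul_smul, hy', TensorProduct.tmul_smul]
  have heq : TensorProduct.mk B A N 1 (ρ₀ (f ^ b • x)) = TensorProduct.mk B A N 1 (ρ₁ (f ^ a • y)) := by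
    change (1 : A) ⊗ₜ[B] ρ₀ (f ^ b • x) = (1 : A) ⊗ₜ[B] ρ₁ (f ^ a • y)
    rw [← LinearMap.baseChange_tmul, ← LinearMap.baseChange_tmul, ← hx'', ← hy'',
      LinearMap.map_smul_of_tower, LinearMap.map_smul_of_tower, hw]
  obtain ⟨⟨_, m, rfl⟩, hm⟩ :=
    (IsLocalizedModule.eq_iff_exists (Submonoid.powers f) (TensorProduct.mk B A N 1)).1 heq
  have hm' : (f ^ m) • ρ₀ (f ^ b • x) = (f ^ m) • ρ₁ (f ^ a • y) := hm
  refine ⟨m + (a + b), ⟨(f ^ m • (f ^ b • x), f ^ m • (f ^ a • y)), ?_⟩, ?_⟩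
  · rw [mem_H0, map_smul, map_smul (f := ρ₁), hm']
  · apply Subtype.ext
    change ((1 : A) ⊗ₜ[B] (f ^ m • (f ^ b • x)), (1 : A) ⊗ₜ[B] (f ^ m • (f ^ a • y))) =
      algebraMap B A (f ^ (m + (a + b))) • ((w : (A ⊗[B] M₀) × (A ⊗[B] M₁)))
    refine Prod.ext ?_ ?_
    · change (1 : A) ⊗ₜ[B] (f ^ m • (f ^ b • x)) =
        algebraMap B A (f ^ (m + (a + b))) • (w : (A ⊗[B] M₀) × (A ⊗[B] M₁)).1
      rw [algebraMap_smul, pow_add, mul_smul, hx'', TensorProduct.tmul_smul]
    · change (1 : A) ⊗ₜ[B] (f ^ m • (f ^ a • y)) =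
        algebraMap B A (f ^ (m + (a + b))) • (w : (A ⊗[B] M₀) × (A ⊗[B] M₁)).2
      rw [algebraMap_smul, pow_add, mul_smul, hy'', TensorProduct.tmul_smul]

end Descent

section Field

variable {B : Type u} [CommRing B]

/-- A nonzero base change to a field contains a nonzero pure tensor `1 ⊗ z`. -/
theorem exists_one_tmul_ne_zero (K : Type u) [Field K] [Algebra B K] (P : Type u)
    [AddCommGroup P] [Module B P] [Nontrivial (K ⊗[B] P)] : ∃ z : P, (1 : K) ⊗ₜ[B] z ≠ 0 := by
  by_contra hcon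
  push Not at hcon
  have h0 : ∀ x : K ⊗[B] P, x = 0 := by
    intro x
    induction x using TensorProduct.induction_on with
    | zero => rfl
    | tmul c z =>
      have h : c ⊗ₜ[B] z = c • ((1 : K) ⊗ₜ[B] z) := by
        rw [TensorProduct.smul_tmul', smul_eq_mul, mul_one]
      rw [h, hcon z, smul_zero]
    | add x y hx hy => rw [hx, hy, add_zero]
  obtain ⟨x, y, hxy⟩ := exists_pair_ne (K ⊗[B] P)
  exact hxy (by rw [h0 x, h0 y])

/-- In a one-dimensional fibre, any nonzero `1 ⊗ z` is a basis. -/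
theorem isBasisAt_unit_of_finrank_eq_one (K : Type u) [Field K] [Algebra B K] {P : Type u}
    [AddCommGroup P] [Module B P] (hr : Module.finrank K (K ⊗[B] P) = 1) (z : P)
    (hz : (1 : K) ⊗ₜ[B] z ≠ 0) : IsBasisAt B (fun _ : Unit => z) K := by
  have : Module.Finite K (K ⊗[B] P) := Module.finite_of_finrank_pos (by omega)
  unfold IsBasisAt
  set L := Fintype.linearCombination K (fun _ : Unit => (1 : K) ⊗ₜ[B] z) with hL
  have hinj : Function.Injective L := by
    rw [injective_iff_map_eq_zero]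
    intro c hc
    have hc' : c () • ((1 : K) ⊗ₜ[B] z) = 0 := by
      simpa [hL, Fintype.linearCombination_apply] using hc
    rcases smul_eq_zero.1 hc' with h | h
    · funext i
      cases i
      exact h
    · exact absurd h hz
  have hdim : Module.finrank K (Unit → K) = Module.finrank K (K ⊗[B] P) := by
    rw [hr]
    simp
  exact ⟨hinj, (LinearMap.injective_iff_surjective_of_finrank_eq_finrank hdim).1 hinj⟩

/-- A module over a field which is free on one element is one-dimensional. -/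
theorem finrank_eq_one_of_bijective_smul {K : Type*} [Field K] {V : Type*} [AddCommGroup V]
    [Module K V] (z : V) (hz : Function.Bijective (fun c : K => c • z)) :
    Module.finrank K V = 1 := by
  let e : K ≃ₗ[K] V := LinearEquiv.ofBijective (LinearMap.toSpanSingleton K V z) (by
    have h : (LinearMap.toSpanSingleton K V z : K → V) = fun c : K => c • z := by
      funext c
      simp [LinearMap.toSpanSingleton_apply]
    rw [h]
    exact hz)
  rw [← e.finrank_eq, Module.finrank_self]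

/-- A one-dimensional vector space is free on some element. -/
theorem exists_bijective_smul_of_finrank_eq_one {K : Type*} [Field K] {V : Type*} [AddCommGroup V]
    [Module K V] (h : Module.finrank K V = 1) : ∃ z : V, Function.Bijective (fun c : K => c • z) := by
  obtain ⟨v, hv, hspan⟩ := finrank_eq_one_iff'.1 h
  refine ⟨v, ?_, fun w => hspan w⟩
  intro a b hab
  exact smul_left_injective K hv hab

end Field

section Spread

variable {B : Type u} [CommRing B]
variable {M₀ M₁ M₁' N : Type u} [AddCommGroup M₀] [AddCommGroup M₁] [AddCommGroup M₁']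
  [AddCommGroup N] [Module B M₀] [Module B M₁] [Module B M₁'] [Module B N]
variable {ρ₀ : M₀ →ₗ[B] N} {ρ₁ : M₁ →ₗ[B] N} {ι : M₁ →ₗ[B] M₁'} {ρ₁' : M₁' →ₗ[B] N}
  (h : GoodTwist ρ₀ ρ₁ ι ρ₁')

include h in
/-- Spreading out a generator when `H¹` already vanishes over `B`: if the fibre of `H⁰` at a
field-valued point `B → K` is one-dimensional, there are `g` with nonzero image in `K` and a global
section `z` generating over `B_g`. -/
theorem GoodTwist.exists_away_univGen_of_surjective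
    (h1 : Function.Surjective (cechD ρ₀ ρ₁)) (K : Type u) [Field K] [Algebra B K]
    (hrank : Module.finrank K (H0 (ρ₀.baseChange K) (ρ₁.baseChange K)) = 1) :
    ∃ g : B, algebraMap B K g ≠ 0 ∧ ∃ z : H0 ρ₀ ρ₁,
      UnivGen (ρ₀.baseChange (Localization.Away g)) (ρ₁.baseChange (Localization.Away g))
        (h0ToBaseChange ρ₀ ρ₁ (Localization.Away g) z) := by
  have := h.finite_h0_of_surjective h1
  have := h.projective_h0_of_surjective h1
  have := h.flat
  let eK : (K ⊗[B] H0 ρ₀ ρ₁) ≃ₗ[K] H0 (ρ₀.baseChange K) (ρ₁.baseChange K) :=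
    LinearEquiv.ofBijective (h0BaseChangeMap ρ₀ ρ₁ K) (h0BaseChangeMap_bijective ρ₀ ρ₁ K h1)
  have hr : Module.finrank K (K ⊗[B] H0 ρ₀ ρ₁) = 1 := by rw [eK.finrank_eq, hrank]
  have : Nontrivial (K ⊗[B] H0 ρ₀ ρ₁) :=
    Module.nontrivial_of_finrank_pos (R := K) (by omega)
  obtain ⟨z, hz⟩ := exists_one_tmul_ne_zero (B := B) K (H0 ρ₀ ρ₁)
  have hK : IsBasisAt B (fun _ : Unit => z) K := isBasisAt_unit_of_finrank_eq_one K hr z hz
  -- the prime below `K`
  let q : Ideal B := RingHom.ker (algebraMap B K)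
  haveI : q.IsPrime := RingHom.ker_isPrime _
  have hq2 : q.primeCompl ≤ (IsUnit.submonoid K).comap (algebraMap B K) := by
    intro x hx
    rw [Submonoid.mem_comap, IsUnit.mem_submonoid_iff, isUnit_iff_ne_zero]
    exact fun h0 => hx (RingHom.mem_ker.2 h0)
  letI : Algebra q.ResidueField K :=
    (Ideal.ResidueField.lift q (algebraMap B K) le_rfl hq2).toAlgebra
  haveI : IsScalarTower B q.ResidueField K := IsScalarTower.of_algebraMap_eq fun b =>
    (Ideal.ResidueField.lift_algebraMap q (algebraMap B K) le_rfl hq2 b).symm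
  have hq : IsBasisAt B (fun _ : Unit => z) q.ResidueField :=
    (isBasisAt_field_ext _ q.ResidueField K).1 hK
  obtain ⟨g, hgq, hg⟩ := exists_away_isBasisAt (fun _ : Unit => z) q hq
  exact ⟨g, fun h0 => hgq (RingHom.mem_ker.2 h0), z,
    univGen_baseChange_of_isBasisAt ρ₀ ρ₁ h1 z _ hg⟩

include h in
/-- **Spreading out the generating section.**  If `H¹` of the fibre at `p` vanishes and `H⁰` of
the fibre at `p` is one-dimensional, there are `f ∉ p` and a global section `z` such that for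
every `B`-algebra `B'` in which `f` is invertible, `H¹` of the base change to `B'` vanishes and
`H⁰` of the base change to `B'` is free of rank one on `1 ⊗ z`. -/
theorem GoodTwist.exists_away_univGen (p : PrimeSpectrum B)
    (hp : Function.Surjective (cechD (ρ₀.baseChange p.asIdeal.ResidueField)
      (ρ₁.baseChange p.asIdeal.ResidueField)))
    (hrank : Module.finrank p.asIdeal.ResidueField
      (H0 (ρ₀.baseChange p.asIdeal.ResidueField) (ρ₁.baseChange p.asIdeal.ResidueField)) = 1) :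
    ∃ f : B, f ∉ p.asIdeal ∧ ∃ z : H0 ρ₀ ρ₁,
      ∀ (B' : Type u) [CommRing B'] [Algebra B B'], IsUnit (algebraMap B B' f) →
        UnivGen (ρ₀.baseChange B') (ρ₁.baseChange B') (h0ToBaseChange ρ₀ ρ₁ B' z) := by
  obtain ⟨f₁, hf₁, hs₁⟩ := Shrink65.GoodTwist.exists_away_surjective h p hp
  have hu₁ : IsUnit (algebraMap B p.asIdeal.ResidueField f₁) := by
    rw [isUnit_iff_ne_zero]
    intro h0
    exact hf₁ ((Ideal.algebraMap_residueField_eq_zero).1 h0)
  letI : Algebra (Localization.Away f₁) p.asIdeal.ResidueField :=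
    (IsLocalization.Away.lift f₁ hu₁).toAlgebra
  haveI : IsScalarTower B (Localization.Away f₁) p.asIdeal.ResidueField :=
    IsScalarTower.of_algebraMap_eq fun b => (IsLocalization.Away.lift_eq f₁ hu₁ b).symm
  have h₁ := h.baseChange (Localization.Away f₁)
  have hrank₁ : Module.finrank p.asIdeal.ResidueField
      (H0 ((ρ₀.baseChange (Localization.Away f₁)).baseChange p.asIdeal.ResidueField)
        ((ρ₁.baseChange (Localization.Away f₁)).baseChange p.asIdeal.ResidueField)) = 1 := by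
    rw [(h0BaseChangeTrans (Localization.Away f₁) p.asIdeal.ResidueField ρ₀ ρ₁).finrank_eq]
    exact hrank
  obtain ⟨g, hg, z₁, hz₁⟩ :=
    GoodTwist.exists_away_univGen_of_surjective h₁ hs₁ p.asIdeal.ResidueField hrank₁
  obtain ⟨n, z, hz⟩ := exists_pow_smul_eq_h0ToBaseChange ρ₀ ρ₁ f₁ z₁
  obtain ⟨⟨g', s⟩, hgs⟩ := IsLocalization.surj (Submonoid.powers f₁) g
  have hgs' : g * algebraMap B (Localization.Away f₁) (s : B) =
      algebraMap B (Localization.Away f₁) g' := hgs
  refine ⟨f₁ * g', ?_, z, ?_⟩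
  · intro hmem
    rcases p.2.mem_or_mem hmem with h' | h'
    · exact hf₁ h'
    · apply hg
      have h0 : algebraMap B p.asIdeal.ResidueField g' = 0 :=
        (Ideal.algebraMap_residueField_eq_zero).2 h'
      have h2 : algebraMap (Localization.Away f₁) p.asIdeal.ResidueField g *
          algebraMap (Localization.Away f₁) p.asIdeal.ResidueField
            (algebraMap B (Localization.Away f₁) (s : B)) = 0 := by
        rw [← map_mul, hgs', ← IsScalarTower.algebraMap_apply, h0]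
      rcases mul_eq_zero.1 h2 with h3 | h3
      · exact h3
      · exfalso
        rw [← IsScalarTower.algebraMap_apply] at h3
        obtain ⟨_, k, rfl⟩ := s
        rw [map_pow] at h3
        exact (hu₁.pow k).ne_zero h3
  · intro B' _ _ hu
    rw [map_mul] at hu
    have hu1 : IsUnit (algebraMap B B' f₁) := isUnit_of_mul_isUnit_left hu
    have hu2 : IsUnit (algebraMap B B' g') := isUnit_of_mul_isUnit_right hu
    letI : Algebra (Localization.Away f₁) B' := (IsLocalization.Away.lift f₁ hu1).toAlgebra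
    haveI : IsScalarTower B (Localization.Away f₁) B' :=
      IsScalarTower.of_algebraMap_eq fun b => (IsLocalization.Away.lift_eq f₁ hu1 b).symm
    have hug : IsUnit (algebraMap (Localization.Away f₁) B' g) := by
      have h2 : algebraMap (Localization.Away f₁) B' g *
          algebraMap (Localization.Away f₁) B' (algebraMap B (Localization.Away f₁) (s : B)) =
          algebraMap B B' g' := by
        rw [← map_mul, hgs', ← IsScalarTower.algebraMap_apply]
      exact isUnit_of_mul_isUnit_left (h2 ▸ hu2)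
    letI : Algebra (Localization.Away g) B' := (IsLocalization.Away.lift g hug).toAlgebra
    haveI : @IsScalarTower (Localization.Away f₁) (Localization.Away g) B' Algebra.toSMul
        Algebra.toSMul Algebra.toSMul :=
      IsScalarTower.of_algebraMap_eq fun b => (IsLocalization.Away.lift_eq g hug b).symm
    haveI := h.flat
    exact univGen_of_tower ρ₀ ρ₁ (Localization.Away f₁) (Localization.Away g) z z₁
      (algebraMap B (Localization.Away f₁) (f₁ ^ n))
      (by rw [map_pow]; exact (IsLocalization.Away.algebraMap_isUnit f₁).pow n) hz hz₁ B'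

end Spread

end Fermat.Agent.JAC.Frame.GenSpread50
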