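import Fermat.Agent.JAC.Frame.Diagram65

/-!
# Programme JAC, chapter Frame: the second term of the universal two-term complex

For a module `P` with an endomorphism `τ` and a polynomial frame (`NatChart τ V`, i.e. "`P` is a
direct summand of `V[t]` as a `B[t]`-module") the quotient `P ⧸ τ ^ m P` is a retract of
`Fin m → V`, hence finite projective over `B` when `V` is finite free
(`finite_quot_of_natChart`, `projective_quot_of_natChart`).  Also: `P` itself and (for chart
data) the ambient module are projective over `B`.

Diagram form (`finite_quot`, `projective_quot`, `projective_left`, ...): for `M1` finite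
projective over `R1`, `R1` free of finite rank over `B[s]`, the `B`-module `M1 ⧸ s ^ m M1` is
finite projective.  With `ι = s ^ m • ·` and `ρ₁' = t ^ m • rho1` one has `ρ₁' ∘ ι = rho1`
(`twist_comp_smul`), so the sandwich sequence
`0 → H⁰(N) → H⁰(N(m)) → M1 ⧸ s ^ m M1 → H¹(N) → H¹(N(m)) = 0` presents the cohomology of `N` by
the two-term complex of finite projective `B`-modules `H⁰(N(m)) → M1 ⧸ s ^ m M1` for `m ≥ m0`.
-/

set_option autoImplicit false

namespace Fermat.Agent.JAC.Frame.TwoTerm65

open Fermat.Agent.JAC.Frame.BiFil65 Fermat.Agent.JAC.Frame.Pair65 Fermat.Agent.JAC.Frame.Lz65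
  Fermat.Agent.JAC.Frame.Main65 Fermat.Agent.JAC.Frame.NatChart65
  Fermat.Agent.JAC.Frame.PolyChart65 Fermat.Agent.JAC.Frame.Diagram65 Polynomial

universe u v w₀ w₁ x y₀ y₁ y

section Trunc

variable (B : Type u) [CommRing B] (V : Type v) [AddCommGroup V] [Module B V]

/-- The first `m` coefficients of a polynomial vector. -/
noncomputable def truncMap (m : ℕ) : (ℕ →₀ V) →ₗ[B] (Fin m → V) :=
  LinearMap.pi fun j => Finsupp.lapply (j : ℕ)

/-- The polynomial vector with given first `m` coefficients. -/
noncomputable def extMap (m : ℕ) : (Fin m → V) →ₗ[B] (ℕ →₀ V) :=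
  ∑ j : Fin m, Finsupp.lsingle (j : ℕ) ∘ₗ (LinearMap.proj j : (Fin m → V) →ₗ[B] V)

@[simp] theorem truncMap_apply (m : ℕ) (f : ℕ →₀ V) (j : Fin m) : truncMap B V m f j = f j := rfl

theorem extMap_apply (m : ℕ) (w : Fin m → V) :
    extMap B V m w = ∑ j : Fin m, Finsupp.single (j : ℕ) (w j) := by
  simp [extMap, LinearMap.sum_apply]

theorem truncMap_extMap (m : ℕ) (w : Fin m → V) : truncMap B V m (extMap B V m w) = w := by
  funext l
  rw [truncMap_apply, extMap_apply, Finsupp.finsetSum_apply]
  rw [Finset.sum_eq_single l]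
  · simp
  · intro j _ hj
    rw [Finsupp.single_apply, if_neg]
    exact fun h => hj (Fin.ext h)
  · intro h
    exact absurd (Finset.mem_univ l) h

theorem natShift_pow_single (m k : ℕ) (v : V) :
    ((natShift B V) ^ m) (Finsupp.single k v) = Finsupp.single (k + m) v := by
  induction m with
  | zero => simp
  | succ m ih => rw [pow_succ', Module.End.mul_apply, ih, natShift_single, add_assoc]

theorem truncMap_natShift_pow (m : ℕ) (f : ℕ →₀ V) :
    truncMap B V m (((natShift B V) ^ m) f) = 0 := by
  induction f using Finsupp.induction_linear with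
  | zero => simp
  | add f g hf hg => rw [map_add, map_add, hf, hg, add_zero]
  | single k v =>
    funext l
    rw [natShift_pow_single, truncMap_apply, Pi.zero_apply, Finsupp.single_apply, if_neg]
    have := l.2
    omega

theorem sub_extMap_truncMap_mem (m : ℕ) (f : ℕ →₀ V) :
    f - extMap B V m (truncMap B V m f) ∈ LinearMap.range ((natShift B V) ^ m) := by
  induction f using Finsupp.induction_linear with
  | zero => simp
  | add f g hf hg =>
    have : f + g - extMap B V m (truncMap B V m (f + g)) =
        (f - extMap B V m (truncMap B V m f)) + (g - extMap B V m (truncMap B V m g)) := by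
      rw [map_add, map_add]; abel
    rw [this]
    exact Submodule.add_mem _ hf hg
  | single k v =>
    by_cases hk : k < m
    · have : extMap B V m (truncMap B V m (Finsupp.single k v)) = Finsupp.single k v := by
        rw [extMap_apply, Finset.sum_eq_single (⟨k, hk⟩ : Fin m)]
        · simp
        · intro j _ hj
          rw [truncMap_apply, Finsupp.single_apply, if_neg, Finsupp.single_zero]
          exact fun h => hj (Fin.ext h.symm)
        · intro h
          exact absurd (Finset.mem_univ _) h
      rw [this, sub_self]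
      exact Submodule.zero_mem _
    · have : truncMap B V m (Finsupp.single k v) = 0 := by
        funext l
        rw [truncMap_apply, Pi.zero_apply, Finsupp.single_apply, if_neg]
        have := l.2
        omega
      rw [this, map_zero, sub_zero]
      refine ⟨Finsupp.single (k - m) v, ?_⟩
      rw [natShift_pow_single]
      congr 1
      omega

end Trunc

section NatQuot

variable {B : Type u} [CommRing B] {P : Type x} [AddCommGroup P] [Module B P] {τ : P →ₗ[B] P}
  {V : Type v} [AddCommGroup V] [Module B V] (C : NatChart τ V)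

include C in
theorem i_pow (m : ℕ) (x : P) : C.i ((τ ^ m) x) = ((natShift B V) ^ m) (C.i x) := by
  induction m generalizing x with
  | zero => simp
  | succ m ih => rw [pow_succ, Module.End.mul_apply, ih, C.i_τ, pow_succ, Module.End.mul_apply]

include C in
theorem r_pow (m : ℕ) (f : ℕ →₀ V) : C.r (((natShift B V) ^ m) f) = (τ ^ m) (C.r f) := by
  induction m generalizing f with
  | zero => simp
  | succ m ih => rw [pow_succ, Module.End.mul_apply, ih, C.r_σ, pow_succ, Module.End.mul_apply]

/-- `P ⧸ τ ^ m P → Fin m → V`. -/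
noncomputable def quotI (m : ℕ) : (P ⧸ LinearMap.range (τ ^ m)) →ₗ[B] (Fin m → V) :=
  (LinearMap.range (τ ^ m)).liftQ (truncMap B V m ∘ₗ C.i) (by
    rintro _ ⟨x, rfl⟩
    rw [LinearMap.mem_ker, LinearMap.comp_apply, i_pow C, truncMap_natShift_pow])

/-- `Fin m → V → P ⧸ τ ^ m P`. -/
noncomputable def quotR (m : ℕ) : (Fin m → V) →ₗ[B] (P ⧸ LinearMap.range (τ ^ m)) :=
  (LinearMap.range (τ ^ m)).mkQ ∘ₗ C.r ∘ₗ extMap B V m

theorem quotR_quotI (m : ℕ) : quotR C m ∘ₗ quotI C m = LinearMap.id := by
  apply Submodule.linearMap_qext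
  ext x
  simp only [LinearMap.comp_apply, Submodule.mkQ_apply, LinearMap.id_apply, quotI, quotR,
    Submodule.liftQ_apply]
  rw [eq_comm, Submodule.Quotient.eq]
  obtain ⟨h, hh⟩ := sub_extMap_truncMap_mem B V m (C.i x)
  refine ⟨C.r h, ?_⟩
  rw [← r_pow C, hh, map_sub, C.r_i]

include C in
/-- `P ⧸ τ ^ m P` is a finite `B`-module. -/
theorem finite_quot_of_natChart [Module.Finite B V] (m : ℕ) :
    Module.Finite B (P ⧸ LinearMap.range (τ ^ m)) := by
  refine Module.Finite.of_surjective (quotR C m) fun y => ⟨quotI C m y, ?_⟩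
  exact LinearMap.congr_fun (quotR_quotI C m) y

include C in
/-- `P ⧸ τ ^ m P` is a projective `B`-module. -/
theorem projective_quot_of_natChart [Module.Free B V] (m : ℕ) :
    Module.Projective B (P ⧸ LinearMap.range (τ ^ m)) :=
  Module.Projective.of_split (quotI C m) (quotR C m) (quotR_quotI C m)

include C in
/-- A module with a polynomial frame with projective coefficients is projective. -/
theorem projective_of_natChart [Module.Free B V] : Module.Projective B P :=
  Module.Projective.of_split C.i C.r (LinearMap.ext C.r_i)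

/-- The ambient module of chart data with projective coefficients is projective. -/
theorem projective_of_chartData {M : Type x} [AddCommGroup M] [Module B M] {T : M ≃ₗ[B] M}
    {L : Submodule B M} {S : Submodule B (ℤ →₀ V)} (D : ChartData T L V S)
    [Module.Free B V] : Module.Projective B M :=
  Module.Projective.of_split D.ι D.ρ (LinearMap.ext D.ρ_ι)

end NatQuot

section Diagram

variable {B : Type u} [CommRing B] {R0 : Type w₀} {R1 : Type w₁} {R01 : Type x}
  [CommRing R0] [CommRing R1] [CommRing R01] [Algebra B R0] [Algebra B R1]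
  [Algebra R0 R01] [Algebra R1 R01]
  {M0 : Type y₀} {M1 : Type y₁} {M01 : Type y} [AddCommGroup M0] [AddCommGroup M1]
  [AddCommGroup M01] [Module R0 M0] [Module R1 M1] [Module R01 M01] [Module R0 M01] [Module R1 M01]
  [IsScalarTower R0 R01 M01] [IsScalarTower R1 R01 M01]
  [Module B M0] [Module B M1] [Module B M01] [IsScalarTower B R0 M0] [IsScalarTower B R1 M1]
  [IsScalarTower B R0 M01] [IsScalarTower B R1 M01]

theorem smulEnd_pow {R : Type w₀} [CommRing R] [Algebra B R] {M : Type y} [AddCommGroup M]
    [Module R M] [Module B M] [IsScalarTower B R M] (t : R) (k : ℕ) :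
    (smulEnd (B := B) M t) ^ k = smulEnd (B := B) M (t ^ k) := by
  ext x
  rw [smulEnd_pow_apply, smulEnd_apply]

variable (B) in
/-- **The second term is finite**: `M1 ⧸ s ^ m M1` is a finite `B`-module. -/
theorem finite_quot (s : R1) {n1 : ℕ} (b1 : Fin n1 → R1)
    (hb1 : Function.Bijective (fun p : Fin n1 → B[X] => ∑ j, Polynomial.aeval s (p j) * b1 j))
    [Module.Finite R1 M1] [Module.Projective R1 M1] (m : ℕ) :
    Module.Finite B (M1 ⧸ LinearMap.range (smulEnd (B := B) M1 (s ^ m))) := by
  obtain ⟨m₁, ⟨C₁⟩⟩ := exists_natChart_of_finite_projective (B := B) (M := M1) s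
    (natChartOfBasis s b1 hb1)
  rw [← smulEnd_pow]
  exact finite_quot_of_natChart C₁ m

variable (B) in
/-- **The second term is projective**: `M1 ⧸ s ^ m M1` is a projective `B`-module. -/
theorem projective_quot (s : R1) {n1 : ℕ} (b1 : Fin n1 → R1)
    (hb1 : Function.Bijective (fun p : Fin n1 → B[X] => ∑ j, Polynomial.aeval s (p j) * b1 j))
    [Module.Finite R1 M1] [Module.Projective R1 M1] (m : ℕ) :
    Module.Projective B (M1 ⧸ LinearMap.range (smulEnd (B := B) M1 (s ^ m))) := by
  obtain ⟨m₁, ⟨C₁⟩⟩ := exists_natChart_of_finite_projective (B := B) (M := M1) s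
    (natChartOfBasis s b1 hb1)
  rw [← smulEnd_pow]
  exact projective_quot_of_natChart C₁ m

variable (B) in
/-- A finite projective module over a ring which is finite free over `B[s]` is projective over
`B`. -/
theorem projective_left (s : R1) {n1 : ℕ} (b1 : Fin n1 → R1)
    (hb1 : Function.Bijective (fun p : Fin n1 → B[X] => ∑ j, Polynomial.aeval s (p j) * b1 j))
    [Module.Finite R1 M1] [Module.Projective R1 M1] : Module.Projective B M1 := by
  obtain ⟨m₁, ⟨C₁⟩⟩ := exists_natChart_of_finite_projective (B := B) (M := M1) s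
    (natChartOfBasis s b1 hb1)
  exact projective_of_natChart C₁

variable (B) in
/-- Multiplication by `s ^ m` is injective on a finite projective module over a ring which is
finite free over `B[s]`. -/
theorem smulEnd_pow_injective (s : R1) {n1 : ℕ} (b1 : Fin n1 → R1)
    (hb1 : Function.Bijective (fun p : Fin n1 → B[X] => ∑ j, Polynomial.aeval s (p j) * b1 j))
    [Module.Finite R1 M1] [Module.Projective R1 M1] (m : ℕ) :
    Function.Injective (smulEnd (B := B) M1 (s ^ m)) := by
  obtain ⟨m₁, ⟨C₁⟩⟩ := exists_natChart_of_finite_projective (B := B) (M := M1) s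
    (natChartOfBasis s b1 hb1)
  rw [← smulEnd_pow, Module.End.coe_pow]
  exact (natChart_τ_injective C₁).iterate m

variable (B) in
/-- The module of sections over the overlap is projective over `B`. -/
theorem projective_overlap (t : R0) {n0 : ℕ} (b0 : Fin n0 → R0)
    (hb0 : Function.Bijective (fun p : Fin n0 → B[X] => ∑ j, Polynomial.aeval t (p j) * b0 j))
    (s : R1) (hts : algebraMap R0 R01 t * algebraMap R1 R01 s = 1)
    [Module.Finite R0 M0] [Module.Projective R0 M0] (rho0 : M0 →ₗ[R0] M01)
    [IsLocalizedModule (Submonoid.powers t) rho0] : Module.Projective B M01 := by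
  obtain ⟨m₀, ⟨C₀⟩⟩ := exists_natChart_of_finite_projective (B := B) (M := M0) t
    (natChartOfBasis t b0 hb0)
  have D₀ : ChartData (smulEquiv (B := B) M01 t s hts)
      (LinearMap.range (rho0.restrictScalars B)) (Fin m₀ → Fin n0 → B)
      ((lzFil B (Fin m₀ → Fin n0 → B)).gt (-1)) :=
    C₀.toChartData (T := smulEquiv (B := B) M01 t s hts) (ρ := rho0.restrictScalars B)
      (fun x => by simp) (injective_of_natChart t rho0 C₀)
      (fun z => by
        obtain ⟨⟨x, ⟨c, k, rfl⟩⟩, hx⟩ := IsLocalizedModule.surj (Submonoid.powers t) rho0 z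
        refine ⟨k, x, ?_⟩
        rw [smulEquiv_zpow_natCast]
        exact hx)
  exact projective_of_chartData D₀

/-- The twisted restriction map composed with multiplication by `s ^ m` is the restriction map:
`t ^ m • rho1 (s ^ m • y) = rho1 y`. -/
theorem twist_comp_smul (t : R0) (s : R1) (hts : algebraMap R0 R01 t * algebraMap R1 R01 s = 1)
    (rho1 : M1 →ₗ[R1] M01) (m : ℕ) :
    (smulEnd (B := B) M01 (t ^ m) ∘ₗ rho1.restrictScalars B) ∘ₗ smulEnd (B := B) M1 (s ^ m) =
      rho1.restrictScalars B := by
  ext y
  simp only [LinearMap.comp_apply, smulEnd_apply, LinearMap.restrictScalars_apply, map_smul]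
  rw [← algebraMap_smul R01 (t ^ m), ← algebraMap_smul R01 (s ^ m), smul_smul, map_pow, map_pow,
    ← mul_pow, hts, one_pow, one_smul]

end Diagram

end Fermat.Agent.JAC.Frame.TwoTerm65
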