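import Fermat.Agent.JAC.Cech.Basic
import Fermat.Agent.JAC.Frame.TwoTerm65

/-!
# Programme JAC, chapter Frame: cohomology and base change from a good twist

A *good twist* of a Cech pair `(ρ₀, ρ₁)` is a second pair `(ρ₀, ρ₁')` with `ρ₁' ∘ ι = ρ₁`, `ι`
injective, such that `H¹(ρ₀, ρ₁') = 0`, `P := H⁰(ρ₀, ρ₁')` and `Q := coker ι` are finite projective
and the target is flat.  Then `P → Q` is a two-term complex of finite projective modules computing
`H⁰(ρ₀, ρ₁)` and `H¹(ρ₀, ρ₁)` *universally* (after every base change).  Consequences: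

* `GoodTwist.finite_h1`: `H¹` is a finite module;
* `GoodTwist.finite_h0_of_surjective`, `GoodTwist.projective_h0_of_surjective`: if `H¹ = 0` then `H⁰`
  is finite projective (and commutes with base change by `Cech.h0BaseChangeMap_bijective`);
* `GoodTwist.baseChange`: good twists are stable under base change;
* `GoodTwist.finrank_add_eq`: over a field, `h⁰ + rk Q = rk P + h¹`;
* `GoodTwist.chi_baseChange`: for every field `K` over `B`,
  `χ(K) = rk (K ⊗ P) - rk (K ⊗ Q)`;
* `GoodTwist.isLocallyConstant_chi`: the Euler characteristic of the fibres is locally constant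
  on `Spec B`;
* `GoodTwist.isOpen_h1_vanishing`: the locus where `H¹` of the fibre vanishes is open.

`exists_goodTwist` produces good twists for two-chart diagrams (`Diagram65`, `TwoTerm65`).
-/

set_option autoImplicit false

namespace Fermat.Agent.JAC.Frame.GoodTwist65

open Fermat.Agent.JAC.Cech TensorProduct

universe u

variable {B : Type u} [CommRing B]
variable {M₀ M₁ M₁' N : Type u} [AddCommGroup M₀] [AddCommGroup M₁] [AddCommGroup M₁']
  [AddCommGroup N] [Module B M₀] [Module B M₁] [Module B M₁'] [Module B N]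

/-- A good twist of the Cech pair `(ρ₀, ρ₁)`. -/
structure GoodTwist (ρ₀ : M₀ →ₗ[B] N) (ρ₁ : M₁ →ₗ[B] N) (ι : M₁ →ₗ[B] M₁') (ρ₁' : M₁' →ₗ[B] N) :
    Prop where
  comp_eq : ρ₁' ∘ₗ ι = ρ₁
  inj : Function.Injective ι
  surj : Function.Surjective (cechD ρ₀ ρ₁')
  finite_h0 : Module.Finite B (H0 ρ₀ ρ₁')
  projective_h0 : Module.Projective B (H0 ρ₀ ρ₁')
  finite_quot : Module.Finite B (M₁' ⧸ LinearMap.range ι)
  projective_quot : Module.Projective B (M₁' ⧸ LinearMap.range ι)
  flat : Module.Flat B N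

namespace GoodTwist

variable {ρ₀ : M₀ →ₗ[B] N} {ρ₁ : M₁ →ₗ[B] N} {ι : M₁ →ₗ[B] M₁'} {ρ₁' : M₁' →ₗ[B] N}

theorem subsingleton_h1_of_surjective {ρ₀ : M₀ →ₗ[B] N} {ρ₁ : M₁ →ₗ[B] N}
    (h : Function.Surjective (cechD ρ₀ ρ₁)) : Subsingleton (H1 ρ₀ ρ₁) := by
  rw [Submodule.Quotient.subsingleton_iff, LinearMap.range_eq_top]
  exact h

theorem surjective_of_subsingleton_h1 {ρ₀ : M₀ →ₗ[B] N} {ρ₁ : M₁ →ₗ[B] N}
    (h : Subsingleton (H1 ρ₀ ρ₁)) : Function.Surjective (cechD ρ₀ ρ₁) := by
  rw [← LinearMap.range_eq_top, ← Submodule.Quotient.subsingleton_iff]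
  exact h

variable (h : GoodTwist ρ₀ ρ₁ ι ρ₁')

include h in
/-- `coker ι → H¹` is surjective. -/
theorem quotToH1_surjective : Function.Surjective (quotToH1 ρ₀ ρ₁ ι ρ₁' h.comp_eq) := by
  intro c
  have hs : Subsingleton (H1 ρ₀ ρ₁') := subsingleton_h1_of_surjective h.surj
  exact (exact_quotToH1_h1Map ρ₀ ρ₁ ι ρ₁' h.comp_eq c).1 (Subsingleton.elim _ _)

include h in
/-- **`H¹` is a finite module.** -/
theorem finite_h1 : Module.Finite B (H1 ρ₀ ρ₁) :=
  haveI := h.finite_quot
  Module.Finite.of_surjective _ h.quotToH1_surjective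

/-- `H⁰` is the kernel of the two-term complex. -/
noncomputable def h0EquivKer : H0 ρ₀ ρ₁ ≃ₗ[B] ↥(LinearMap.ker (h0ToQuot ρ₀ ι ρ₁')) :=
  (LinearEquiv.ofInjective (h0Map ρ₀ ρ₁ ι ρ₁' h.comp_eq)
    (h0Map_injective ρ₀ ρ₁ ι ρ₁' h.comp_eq h.inj)).trans
    (LinearEquiv.ofEq _ _
      (LinearMap.exact_iff.1 (exact_h0Map_h0ToQuot ρ₀ ρ₁ ι ρ₁' h.comp_eq h.inj)).symm)

/-- `H¹` is the cokernel of the two-term complex. -/
noncomputable def cokerEquivH1 :
    ((M₁' ⧸ LinearMap.range ι) ⧸ LinearMap.range (h0ToQuot ρ₀ ι ρ₁')) ≃ₗ[B] H1 ρ₀ ρ₁ :=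
  (exact_h0ToQuot_quotToH1 ρ₀ ρ₁ ι ρ₁' h.comp_eq).linearEquivOfSurjective h.quotToH1_surjective

include h in
/-- If `H¹ = 0` the two-term complex is surjective. -/
theorem h0ToQuot_surjective (h1 : Function.Surjective (cechD ρ₀ ρ₁)) :
    Function.Surjective (h0ToQuot ρ₀ ι ρ₁') := by
  intro q
  have hs : Subsingleton (H1 ρ₀ ρ₁) := subsingleton_h1_of_surjective h1
  exact (exact_h0ToQuot_quotToH1 ρ₀ ρ₁ ι ρ₁' h.comp_eq q).1 (Subsingleton.elim _ _)

include h in
/-- If `H¹ = 0` then `H⁰` is a retract of `H⁰` of the twist. -/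
theorem exists_retract_of_surjective (h1 : Function.Surjective (cechD ρ₀ ρ₁)) :
    ∃ (i : H0 ρ₀ ρ₁ →ₗ[B] H0 ρ₀ ρ₁') (r : H0 ρ₀ ρ₁' →ₗ[B] H0 ρ₀ ρ₁), r ∘ₗ i = LinearMap.id := by
  have := h.projective_quot
  obtain ⟨s, hs⟩ := Module.projective_lifting_property (h0ToQuot ρ₀ ι ρ₁') LinearMap.id
    (h.h0ToQuot_surjective h1)
  let e := kerProdEquivOfSection (h0ToQuot ρ₀ ι ρ₁') s hs
  refine ⟨(LinearMap.ker (h0ToQuot ρ₀ ι ρ₁')).subtype ∘ₗ h.h0EquivKer.toLinearMap,
    h.h0EquivKer.symm.toLinearMap ∘ₗ LinearMap.fst B _ _ ∘ₗ e.toLinearMap, ?_⟩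
  ext z : 1
  simp only [LinearMap.comp_apply, LinearEquiv.coe_coe, Submodule.subtype_apply,
    LinearMap.id_apply, LinearMap.fst_apply]
  have hz : e ((h.h0EquivKer z : ↥(LinearMap.ker (h0ToQuot ρ₀ ι ρ₁')))) = (h.h0EquivKer z, 0) := by
    rw [← LinearEquiv.eq_symm_apply]
    simp [e, kerProdEquivOfSection]
  rw [hz, LinearEquiv.symm_apply_apply]

include h in
/-- **Cohomology and base change, finiteness**: if `H¹ = 0` then `H⁰` is a finite module. -/
theorem finite_h0_of_surjective (h1 : Function.Surjective (cechD ρ₀ ρ₁)) :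
    Module.Finite B (H0 ρ₀ ρ₁) := by
  obtain ⟨i, r, hri⟩ := h.exists_retract_of_surjective h1
  have := h.finite_h0
  exact Module.Finite.of_surjective r fun y => ⟨i y, LinearMap.congr_fun hri y⟩

include h in
/-- **Cohomology and base change, projectivity**: if `H¹ = 0` then `H⁰` is projective. -/
theorem projective_h0_of_surjective (h1 : Function.Surjective (cechD ρ₀ ρ₁)) :
    Module.Projective B (H0 ρ₀ ρ₁) := by
  obtain ⟨i, r, hri⟩ := h.exists_retract_of_surjective h1
  have := h.projective_h0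
  exact Module.Projective.of_split i r hri

end GoodTwist

section BaseChange

variable (B' : Type u) [CommRing B'] [Algebra B B']

/-- The cokernel commutes with base change. -/
noncomputable def quotBaseChangeEquiv (ι : M₁ →ₗ[B] M₁') :
    ((B' ⊗[B] M₁') ⧸ LinearMap.range (ι.baseChange B')) ≃ₗ[B']
      B' ⊗[B] (M₁' ⧸ LinearMap.range ι) :=
  Function.Exact.linearEquivOfSurjective (f := ι.baseChange B')
    (g := (LinearMap.range ι).mkQ.baseChange B')
    (by
      rw [LinearMap.baseChange_eq_ltensor, LinearMap.baseChange_eq_ltensor]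
      exact lTensor_exact B' (LinearMap.exact_map_mkQ_range ι) (Submodule.mkQ_surjective _))
    (by
      rw [LinearMap.baseChange_eq_ltensor]
      exact LinearMap.lTensor_surjective _ (Submodule.mkQ_surjective _))

theorem subsingleton_tensor_of_subsingleton (Q : Type u) [AddCommGroup Q] [Module B Q]
    [Subsingleton Q] : Subsingleton (B' ⊗[B] Q) := by
  refine ⟨fun a b => ?_⟩
  have h0 : ∀ t : B' ⊗[B] Q, t = 0 := by
    intro t
    induction t using TensorProduct.induction_on with
    | zero => rfl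
    | tmul c q => rw [Subsingleton.elim q 0, TensorProduct.tmul_zero]
    | add x y hx hy => rw [hx, hy, add_zero]
  rw [h0 a, h0 b]

namespace GoodTwist

variable {ρ₀ : M₀ →ₗ[B] N} {ρ₁ : M₁ →ₗ[B] N} {ι : M₁ →ₗ[B] M₁'} {ρ₁' : M₁' →ₗ[B] N}
  (h : GoodTwist ρ₀ ρ₁ ι ρ₁')

/-- `H⁰` of the twist commutes with base change. -/
noncomputable def h0TwistBaseChangeEquiv :
    (B' ⊗[B] H0 ρ₀ ρ₁') ≃ₗ[B'] H0 (ρ₀.baseChange B') (ρ₁'.baseChange B') :=
  haveI := h.flat
  LinearEquiv.ofBijective (h0BaseChangeMap ρ₀ ρ₁' B') (h0BaseChangeMap_bijective ρ₀ ρ₁' B' h.surj)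

include h in
/-- **Good twists are stable under base change.** -/
theorem baseChange :
    GoodTwist (ρ₀.baseChange B') (ρ₁.baseChange B') (ι.baseChange B') (ρ₁'.baseChange B') where
  comp_eq := by rw [← LinearMap.baseChange_comp, h.comp_eq]
  inj := by
    have := h.projective_quot
    have hinj := LinearMap.lTensor_injective_of_exact_of_flat (LinearMap.range ι).mkQ
      (Submodule.mkQ_surjective _) ι h.inj (LinearMap.exact_map_mkQ_range ι) B'
    rw [LinearMap.baseChange_eq_ltensor]
    exact hinj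
  surj := by
    apply surjective_of_subsingleton_h1
    have : Subsingleton (H1 ρ₀ ρ₁') := subsingleton_h1_of_surjective h.surj
    have : Subsingleton (B' ⊗[B] H1 ρ₀ ρ₁') := subsingleton_tensor_of_subsingleton B' _
    exact (h1BaseChangeEquiv ρ₀ ρ₁' B').symm.toEquiv.subsingleton
  finite_h0 := by
    have := h.finite_h0
    exact Module.Finite.equiv (h.h0TwistBaseChangeEquiv B')
  projective_h0 := by
    have := h.projective_h0
    exact Module.Projective.of_equiv (h.h0TwistBaseChangeEquiv B')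
  finite_quot := by
    have := h.finite_quot
    exact Module.Finite.equiv (quotBaseChangeEquiv B' ι).symm
  projective_quot := by
    have := h.projective_quot
    exact Module.Projective.of_equiv (quotBaseChangeEquiv B' ι).symm
  flat := by
    have := h.flat
    infer_instance

end GoodTwist

end BaseChange

section Field

variable {K : Type u} [Field K] {V₀ V₁ V₁' W : Type u} [AddCommGroup V₀] [AddCommGroup V₁]
  [AddCommGroup V₁'] [AddCommGroup W] [Module K V₀] [Module K V₁] [Module K V₁'] [Module K W]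
  {ρ₀ : V₀ →ₗ[K] W} {ρ₁ : V₁ →ₗ[K] W} {ι : V₁ →ₗ[K] V₁'} {ρ₁' : V₁' →ₗ[K] W}

/-- Over a field, `H⁰` of a Cech pair with a good twist is finite-dimensional. -/
theorem GoodTwist.finite_h0_field (h : GoodTwist ρ₀ ρ₁ ι ρ₁') : Module.Finite K (H0 ρ₀ ρ₁) :=
  have := h.finite_h0
  Module.Finite.of_injective (h0Map ρ₀ ρ₁ ι ρ₁' h.comp_eq)
    (h0Map_injective ρ₀ ρ₁ ι ρ₁' h.comp_eq h.inj)

/-- Over a field: `h⁰ + dim Q = dim P + h¹`. -/
theorem GoodTwist.finrank_add_eq (h : GoodTwist ρ₀ ρ₁ ι ρ₁') :
    Module.finrank K (H0 ρ₀ ρ₁) + Module.finrank K (V₁' ⧸ LinearMap.range ι) =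
      Module.finrank K (H0 ρ₀ ρ₁') + Module.finrank K (H1 ρ₀ ρ₁) := by
  have := h.finite_h0
  have := h.finite_quot
  have e1 := h.h0EquivKer.finrank_eq
  have e2 := h.cokerEquivH1.finrank_eq
  have r1 := LinearMap.finrank_range_add_finrank_ker (h0ToQuot ρ₀ ι ρ₁')
  have r2 := Submodule.finrank_quotient_add_finrank (LinearMap.range (h0ToQuot ρ₀ ι ρ₁'))
  omega

end Field

section Chi

variable (ρ₀ : M₀ →ₗ[B] N) (ρ₁ : M₁ →ₗ[B] N)

/-- The Euler characteristic `h⁰ - h¹` of the fibre of a Cech pair over a field `K`. -/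
noncomputable def chi (K : Type u) [Field K] [Algebra B K] : ℤ :=
  (Module.finrank K (H0 (ρ₀.baseChange K) (ρ₁.baseChange K)) : ℤ) -
    Module.finrank K (H1 (ρ₀.baseChange K) (ρ₁.baseChange K))

variable {ρ₀ ρ₁} {ι : M₁ →ₗ[B] M₁'} {ρ₁' : M₁' →ₗ[B] N} (h : GoodTwist ρ₀ ρ₁ ι ρ₁')

include h in
/-- **The Euler characteristic of a fibre** is the difference of the ranks of the two terms of
the universal complex. -/
theorem GoodTwist.chi_baseChange (K : Type u) [Field K] [Algebra B K] :
    chi ρ₀ ρ₁ K = (Module.finrank K (K ⊗[B] H0 ρ₀ ρ₁') : ℤ) -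
      Module.finrank K (K ⊗[B] (M₁' ⧸ LinearMap.range ι)) := by
  have hK := (h.baseChange K).finrank_add_eq
  rw [← (h.h0TwistBaseChangeEquiv K).finrank_eq, (quotBaseChangeEquiv K ι).finrank_eq] at hK
  unfold chi
  omega

include h in
/-- The fibres over fields have finite-dimensional cohomology. -/
theorem GoodTwist.finite_h0_baseChange (K : Type u) [Field K] [Algebra B K] :
    Module.Finite K (H0 (ρ₀.baseChange K) (ρ₁.baseChange K)) :=
  (h.baseChange K).finite_h0_field

include h in
theorem GoodTwist.finite_h1_baseChange (B' : Type u) [CommRing B'] [Algebra B B'] :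
    Module.Finite B' (H1 (ρ₀.baseChange B') (ρ₁.baseChange B')) :=
  (h.baseChange B').finite_h1

include h in
/-- The Euler characteristic at a point of `Spec B` in terms of ranks at the stalk. -/
theorem GoodTwist.chi_residueField (p : PrimeSpectrum B) :
    chi ρ₀ ρ₁ p.asIdeal.ResidueField =
      (Module.rankAtStalk (H0 ρ₀ ρ₁') p : ℤ) -
        Module.rankAtStalk (M₁' ⧸ LinearMap.range ι) p := by
  have := h.finite_h0
  have := h.projective_h0
  have := h.finite_quot
  have := h.projective_quot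
  rw [h.chi_baseChange, Module.rankAtStalk_eq, Module.rankAtStalk_eq]

include h in
/-- **The Euler characteristic of the fibres is locally constant on `Spec B`.** -/
theorem GoodTwist.isLocallyConstant_chi :
    IsLocallyConstant (fun p : PrimeSpectrum B => chi ρ₀ ρ₁ p.asIdeal.ResidueField) := by
  have := h.finite_h0
  have := h.projective_h0
  have := h.finite_quot
  have := h.projective_quot
  have := Module.finitePresentation_of_projective B (H0 ρ₀ ρ₁')
  have := Module.finitePresentation_of_projective B (M₁' ⧸ LinearMap.range ι)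
  have h1 : IsLocallyConstant (Module.rankAtStalk (R := B) (H0 ρ₀ ρ₁')) :=
    Module.isLocallyConstant_rankAtStalk
  have h2 : IsLocallyConstant (Module.rankAtStalk (R := B) (M₁' ⧸ LinearMap.range ι)) :=
    Module.isLocallyConstant_rankAtStalk
  have h3 : IsLocallyConstant (fun p : PrimeSpectrum B =>
      ((Module.rankAtStalk (H0 ρ₀ ρ₁') p : ℤ) -
        Module.rankAtStalk (M₁' ⧸ LinearMap.range ι) p)) :=
    IsLocallyConstant.sub (h1.comp (fun n : ℕ => (n : ℤ))) (h2.comp (fun n : ℕ => (n : ℤ)))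
  have : (fun p : PrimeSpectrum B => chi ρ₀ ρ₁ p.asIdeal.ResidueField) =
      fun p : PrimeSpectrum B => ((Module.rankAtStalk (H0 ρ₀ ρ₁') p : ℤ) -
        Module.rankAtStalk (M₁' ⧸ LinearMap.range ι) p) := by
    funext p
    exact h.chi_residueField p
  rw [this]
  exact h3

include h in
/-- Fibrewise vanishing of `H¹` at a point in terms of the support of `H¹`. -/
theorem GoodTwist.surjective_residueField_iff (p : PrimeSpectrum B) :
    Function.Surjective (cechD (ρ₀.baseChange p.asIdeal.ResidueField)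
      (ρ₁.baseChange p.asIdeal.ResidueField)) ↔ p ∉ Module.support B (H1 ρ₀ ρ₁) := by
  have := h.finite_h1
  rw [Module.mem_support_iff_nontrivial_residueField_tensorProduct,
    not_nontrivial_iff_subsingleton]
  constructor
  · intro hs
    have := GoodTwist.subsingleton_h1_of_surjective hs
    exact (h1BaseChangeEquiv ρ₀ ρ₁ p.asIdeal.ResidueField).toEquiv.subsingleton
  · intro hs
    apply GoodTwist.surjective_of_subsingleton_h1
    exact (h1BaseChangeEquiv ρ₀ ρ₁ p.asIdeal.ResidueField).symm.toEquiv.subsingleton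

include h in
/-- **The locus where `H¹` of the fibre vanishes is open.** -/
theorem GoodTwist.isOpen_h1_vanishing :
    IsOpen {p : PrimeSpectrum B | Function.Surjective
      (cechD (ρ₀.baseChange p.asIdeal.ResidueField) (ρ₁.baseChange p.asIdeal.ResidueField))} := by
  have := h.finite_h1
  have : {p : PrimeSpectrum B | Function.Surjective
      (cechD (ρ₀.baseChange p.asIdeal.ResidueField) (ρ₁.baseChange p.asIdeal.ResidueField))} =
      (Module.support B (H1 ρ₀ ρ₁))ᶜ := by
    ext p
    exact h.surjective_residueField_iff p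
  rw [this]
  exact Module.isClosed_support.isOpen_compl

include h in
/-- Fibrewise vanishing of `H¹` at all maximal ideals gives `H¹ = 0`, hence (`H⁰` finite projective
and commuting with base change). -/
theorem GoodTwist.surjective_of_fibrewise
    (hf : ∀ (m : Ideal B) [m.IsMaximal],
      Function.Surjective (cechD (ρ₀.baseChange (B ⧸ m)) (ρ₁.baseChange (B ⧸ m)))) :
    Function.Surjective (cechD ρ₀ ρ₁) :=
  haveI := h.finite_h1
  cechD_surjective_of_fibrewise ρ₀ ρ₁ hf

end Chi

section Diagram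

open Fermat.Agent.JAC.Frame.PolyChart65 Fermat.Agent.JAC.Frame.Diagram65
  Fermat.Agent.JAC.Frame.TwoTerm65 Polynomial

variable {B : Type u} [CommRing B] {R0 R1 R01 : Type u}
  [CommRing R0] [CommRing R1] [CommRing R01] [Algebra B R0] [Algebra B R1]
  [Algebra R0 R01] [Algebra R1 R01]
  {M0 M1 M01 : Type u} [AddCommGroup M0] [AddCommGroup M1]
  [AddCommGroup M01] [Module R0 M0] [Module R1 M1] [Module R01 M01] [Module R0 M01] [Module R1 M01]
  [IsScalarTower R0 R01 M01] [IsScalarTower R1 R01 M01]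
  [Module B M0] [Module B M1] [Module B M01] [IsScalarTower B R0 M0] [IsScalarTower B R1 M1]
  [IsScalarTower B R0 M01] [IsScalarTower B R1 M01]

/-- **Two-chart diagrams have good twists**: for `m ≥ m0`, `ι = s ^ m • ·` and
`ρ₁' = t ^ m • rho1` form a good twist of the Cech pair `(rho0, rho1)`. -/
theorem exists_goodTwist (t : R0) (s : R1)
    (hts : algebraMap R0 R01 t * algebraMap R1 R01 s = 1)
    {n0 n1 : ℕ} (b0 : Fin n0 → R0)
    (hb0 : Function.Bijective (fun p : Fin n0 → B[X] => ∑ j, Polynomial.aeval t (p j) * b0 j))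
    (b1 : Fin n1 → R1)
    (hb1 : Function.Bijective (fun p : Fin n1 → B[X] => ∑ j, Polynomial.aeval s (p j) * b1 j))
    [Module.Finite R0 M0] [Module.Projective R0 M0] [Module.Finite R1 M1] [Module.Projective R1 M1]
    (rho0 : M0 →ₗ[R0] M01) (rho1 : M1 →ₗ[R1] M01)
    [IsLocalizedModule (Submonoid.powers t) rho0] [IsLocalizedModule (Submonoid.powers s) rho1] :
    ∃ m0 : ℕ, ∀ m : ℕ, m0 ≤ m →
      GoodTwist (rho0.restrictScalars B) (rho1.restrictScalars B) (smulEnd (B := B) M1 (s ^ m))
        (smulEnd (B := B) M01 (t ^ m) ∘ₗ rho1.restrictScalars B) := by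
  obtain ⟨m0, h⟩ := exists_forall_twist (B := B) t s hts b0 hb0 b1 hb1 rho0 rho1
  refine ⟨m0, fun m hm => ?_⟩
  obtain ⟨h1, h2, h3⟩ := h m hm
  exact
    { comp_eq := twist_comp_smul t s hts rho1 m
      inj := smulEnd_pow_injective B s b1 hb1 m
      surj := fun z => by
        obtain ⟨x, y, hxy⟩ := h1 z
        refine ⟨(x, -y), ?_⟩
        rw [cechD_apply, ← hxy]
        simp
      finite_h0 := h2
      projective_h0 := h3
      finite_quot := finite_quot B s b1 hb1 m
      projective_quot := projective_quot B s b1 hb1 m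
      flat := by
        have := projective_overlap B t b0 hb0 s hts rho0
        infer_instance }

variable (t : R0) (s : R1) (hts : algebraMap R0 R01 t * algebraMap R1 R01 s = 1)
  {n0 n1 : ℕ} (b0 : Fin n0 → R0)
  (hb0 : Function.Bijective (fun p : Fin n0 → B[X] => ∑ j, Polynomial.aeval t (p j) * b0 j))
  (b1 : Fin n1 → R1)
  (hb1 : Function.Bijective (fun p : Fin n1 → B[X] => ∑ j, Polynomial.aeval s (p j) * b1 j))
  [Module.Finite R0 M0] [Module.Projective R0 M0] [Module.Finite R1 M1] [Module.Projective R1 M1]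
  (rho0 : M0 →ₗ[R0] M01) (rho1 : M1 →ₗ[R1] M01)
  [IsLocalizedModule (Submonoid.powers t) rho0] [IsLocalizedModule (Submonoid.powers s) rho1]

include hts hb0 hb1 in
/-- `H¹` of a two-chart diagram is a finite `B`-module. -/
theorem finite_h1_diagram :
    Module.Finite B (H1 (rho0.restrictScalars B) (rho1.restrictScalars B)) := by
  obtain ⟨m0, h⟩ := exists_goodTwist (B := B) t s hts b0 hb0 b1 hb1 rho0 rho1
  exact (h m0 le_rfl).finite_h1

include hts hb0 hb1 in
/-- **Cohomology and base change**: if `H¹` of a two-chart diagram vanishes then `H⁰` is a finite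
projective `B`-module. -/
theorem finite_projective_h0_diagram
    (h1 : Function.Surjective (cechD (rho0.restrictScalars B) (rho1.restrictScalars B))) :
    Module.Finite B (H0 (rho0.restrictScalars B) (rho1.restrictScalars B)) ∧
      Module.Projective B (H0 (rho0.restrictScalars B) (rho1.restrictScalars B)) := by
  obtain ⟨m0, h⟩ := exists_goodTwist (B := B) t s hts b0 hb0 b1 hb1 rho0 rho1
  exact ⟨(h m0 le_rfl).finite_h0_of_surjective h1, (h m0 le_rfl).projective_h0_of_surjective h1⟩

include hts hb0 hb1 in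
/-- **The Euler characteristic of the fibres of a two-chart diagram is locally constant.** -/
theorem isLocallyConstant_chi_diagram :
    IsLocallyConstant (fun p : PrimeSpectrum B =>
      chi (rho0.restrictScalars B) (rho1.restrictScalars B) p.asIdeal.ResidueField) := by
  obtain ⟨m0, h⟩ := exists_goodTwist (B := B) t s hts b0 hb0 b1 hb1 rho0 rho1
  exact (h m0 le_rfl).isLocallyConstant_chi

include hts hb0 hb1 in
/-- **The locus where `H¹` of the fibre of a two-chart diagram vanishes is open.** -/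
theorem isOpen_h1_vanishing_diagram :
    IsOpen {p : PrimeSpectrum B | Function.Surjective
      (cechD ((rho0.restrictScalars B).baseChange p.asIdeal.ResidueField)
        ((rho1.restrictScalars B).baseChange p.asIdeal.ResidueField))} := by
  obtain ⟨m0, h⟩ := exists_goodTwist (B := B) t s hts b0 hb0 b1 hb1 rho0 rho1
  exact (h m0 le_rfl).isOpen_h1_vanishing

include hts hb0 hb1 in
/-- Fibrewise vanishing of `H¹` at all maximal ideals gives `H¹ = 0`. -/
theorem surjective_of_fibrewise_diagram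
    (hf : ∀ (m : Ideal B) [m.IsMaximal],
      Function.Surjective (cechD ((rho0.restrictScalars B).baseChange (B ⧸ m))
        ((rho1.restrictScalars B).baseChange (B ⧸ m)))) :
    Function.Surjective (cechD (rho0.restrictScalars B) (rho1.restrictScalars B)) := by
  obtain ⟨m0, h⟩ := exists_goodTwist (B := B) t s hts b0 hb0 b1 hb1 rho0 rho1
  exact (h m0 le_rfl).surjective_of_fibrewise hf

end Diagram

end Fermat.Agent.JAC.Frame.GoodTwist65
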