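import Fermat.Agent.JAC.Frame.NatChart65

/-!
# Programme JAC, chapter Frame: polynomial frames of finite projective modules

Construction of `NatChart`s (equivariant retractions into polynomial vectors):

* `polyNatChart`: the polynomial ring `B[X]` with multiplication by `X`;
* `piNatChart`, `retractNatChart`: finite powers and equivariant retracts;
* `natChartOfBasis`: a `B`-algebra `R` with an element `t` such that `R` is free with basis
  `b : Fin n → R` over `B[t]` (stated as bijectivity of `p ↦ ∑ j, p j (t) * b j`);
* `exists_natChart_of_finite_projective`: a finite projective module over such an `R`, with the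
  endomorphism `t • ·`.
-/

set_option autoImplicit false

namespace Fermat.Agent.JAC.Frame.PolyChart65

open Fermat.Agent.JAC.Frame.NatChart65 Polynomial

universe u v w x

variable {B : Type u} [CommRing B]

section NatShift

variable (B) (V : Type v) [AddCommGroup V] [Module B V]

theorem natShift_apply_zero (f : ℕ →₀ V) : natShift B V f 0 = 0 := by
  rw [natShift, Finsupp.lmapDomain_apply]
  apply Finsupp.mapDomain_of_notMem_range
  rintro ⟨k, hk⟩
  exact Nat.succ_ne_zero k hk

theorem natShift_apply_succ (f : ℕ →₀ V) (k : ℕ) : natShift B V f (k + 1) = f k := by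
  rw [natShift, Finsupp.lmapDomain_apply]
  exact Finsupp.mapDomain_apply (add_left_injective 1) f k

theorem natShift_injective : Function.Injective (natShift B V) :=
  Finsupp.mapDomain_injective (add_left_injective 1)

variable {V} {V' : Type w} [AddCommGroup V'] [Module B V']

theorem natShift_mapRange (g : V →ₗ[B] V') (f : ℕ →₀ V) :
    natShift B V' (Finsupp.mapRange.linearMap g f) =
      Finsupp.mapRange.linearMap g (natShift B V f) := by
  ext k
  cases k with
  | zero => simp [natShift_apply_zero]
  | succ k => simp [natShift_apply_succ]

end NatShift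

theorem repr_X_mul (B : Type u) [CommRing B] (p : B[X]) :
    (Polynomial.basisMonomials B).repr (X * p) =
      natShift B B ((Polynomial.basisMonomials B).repr p) := by
  ext k
  cases k with
  | zero =>
    rw [natShift_apply_zero]
    exact Polynomial.coeff_X_mul_zero p
  | succ k =>
    rw [natShift_apply_succ]
    exact Polynomial.coeff_X_mul p k

/-- The polynomial ring is its own polynomial frame. -/
noncomputable def polyNatChart (B : Type u) [CommRing B] :
    NatChart (LinearMap.mulLeft B (X : B[X])) B where
  i := (Polynomial.basisMonomials B).repr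
  r := (Polynomial.basisMonomials B).repr.symm
  r_i x := LinearEquiv.symm_apply_apply _ x
  i_τ p := repr_X_mul B p
  r_σ f := by
    have h := repr_X_mul B ((Polynomial.basisMonomials B).repr.symm f)
    rw [LinearEquiv.apply_symm_apply] at h
    change (Polynomial.basisMonomials B).repr.symm (natShift B B f) =
      X * (Polynomial.basisMonomials B).repr.symm f
    rw [← h, LinearEquiv.symm_apply_apply]

section Closure

variable {P : Type w} [AddCommGroup P] [Module B P] {τ : P →ₗ[B] P}
  {V : Type v} [AddCommGroup V] [Module B V]

/-- The endomorphism of a polynomial frame is injective. -/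
theorem natChart_τ_injective (C : NatChart τ V) : Function.Injective τ := by
  rw [← LinearMap.ker_eq_bot, LinearMap.ker_eq_bot']
  intro x hx
  have h : natShift B V (C.i x) = 0 := by rw [← C.i_τ, hx, map_zero]
  have h2 : C.i x = 0 := natShift_injective B V (by rw [h, map_zero])
  rw [← C.r_i x, h2, map_zero]

/-- An equivariant retract of a module with a polynomial frame has a polynomial frame. -/
noncomputable def retractNatChart (C : NatChart τ V) {P' : Type x} [AddCommGroup P'] [Module B P'] {τ' : P' →ₗ[B] P'}
    (f : P →ₗ[B] P') (g : P' →ₗ[B] P) (hfg : ∀ x, f (g x) = x) (hf : ∀ x, f (τ x) = τ' (f x))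
    (hg : ∀ x, g (τ' x) = τ (g x)) : NatChart τ' V where
  i := C.i ∘ₗ g
  r := f ∘ₗ C.r
  r_i x := by simp [C.r_i, hfg]
  i_τ x := by simp [hg, C.i_τ]
  r_σ h := by simp [C.r_σ, hf]

/-- A finite power of a module with a polynomial frame has a polynomial frame. -/
noncomputable def piNatChart (C : NatChart τ V) (I : Type) [Fintype I] [DecidableEq I] :
    NatChart (τ.compLeft I) (I → V) where
  i := ∑ j : I, (Finsupp.mapRange.linearMap (LinearMap.single B (fun _ : I => V) j)) ∘ₗ C.i ∘ₗ
    (LinearMap.proj j : (I → P) →ₗ[B] P)
  r := LinearMap.pi fun j => C.r ∘ₗ Finsupp.mapRange.linearMap (LinearMap.proj j)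
  r_i x := by
    funext j
    simp only [LinearMap.pi_apply, LinearMap.comp_apply]
    have : Finsupp.mapRange.linearMap (LinearMap.proj j : (I → V) →ₗ[B] V)
        ((∑ j : I, (Finsupp.mapRange.linearMap (LinearMap.single B (fun _ : I => V) j)) ∘ₗ C.i ∘ₗ
          (LinearMap.proj j : (I → P) →ₗ[B] P)) x) = C.i (x j) := by
      ext k
      simp [LinearMap.sum_apply, Finsupp.finsetSum_apply, Pi.single_apply]
    rw [this, C.r_i]
  i_τ x := by
    simp only [LinearMap.sum_apply, LinearMap.comp_apply, LinearMap.proj_apply,
      LinearMap.compLeft_apply, Function.comp_apply, C.i_τ, map_sum, natShift_mapRange]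
  r_σ f := by
    funext j
    simp only [LinearMap.pi_apply, LinearMap.comp_apply, LinearMap.compLeft_apply,
      Function.comp_apply, ← natShift_mapRange, C.r_σ]

end Closure

section Algebra

variable {R : Type w} [CommRing R] [Algebra B R] (t : R)

/-- The `B`-linear map `p ↦ ∑ j, p j (t) * b j`. -/
noncomputable def coordMap {n : ℕ} (b : Fin n → R) : (Fin n → B[X]) →ₗ[B] R :=
  ∑ j : Fin n, (LinearMap.mulRight B (b j)) ∘ₗ (Polynomial.aeval t).toLinearMap ∘ₗ
    (LinearMap.proj j : (Fin n → B[X]) →ₗ[B] B[X])

theorem coordMap_apply {n : ℕ} (b : Fin n → R) (p : Fin n → B[X]) :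
    coordMap t b p = ∑ j, Polynomial.aeval t (p j) * b j := by
  simp [coordMap, LinearMap.sum_apply]

theorem coordMap_X {n : ℕ} (b : Fin n → R) (p : Fin n → B[X]) :
    coordMap t b ((LinearMap.mulLeft B (X : B[X])).compLeft (Fin n) p) = t * coordMap t b p := by
  simp only [coordMap_apply, LinearMap.compLeft_apply, Function.comp_apply,
    LinearMap.mulLeft_apply, map_mul, Polynomial.aeval_X, Finset.mul_sum, mul_assoc]

/-- **Polynomial frame of a chart ring**: if `R` is free over `B[t]` with basis `b`, then `R` with
multiplication by `t` has a polynomial frame with coefficients `Fin n → B`. -/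
noncomputable def natChartOfBasis {n : ℕ} (b : Fin n → R)
    (hb : Function.Bijective (fun p : Fin n → B[X] => ∑ j, Polynomial.aeval t (p j) * b j)) :
    NatChart (LinearMap.mulLeft B t) (Fin n → B) :=
  have hb' : Function.Bijective (coordMap t b) := by
    have : (coordMap t b : (Fin n → B[X]) → R) =
        fun p : Fin n → B[X] => ∑ j, Polynomial.aeval t (p j) * b j := by
      funext p
      exact coordMap_apply t b p
    rw [this]
    exact hb
  retractNatChart (piNatChart (polyNatChart B) (Fin n)) (coordMap t b)
    ((LinearEquiv.ofBijective (coordMap t b) hb').symm : R →ₗ[B] (Fin n → B[X]))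
    (fun x => (LinearEquiv.ofBijective (coordMap t b) hb').apply_symm_apply x)
    (fun p => by rw [coordMap_X]; rfl)
    (fun x => by
      apply (LinearEquiv.ofBijective (coordMap t b) hb').injective
      simp only [LinearEquiv.coe_coe, LinearEquiv.apply_symm_apply, LinearEquiv.ofBijective_apply]
      rw [coordMap_X]
      change t * x = t * _
      congr 1
      exact ((LinearEquiv.ofBijective (coordMap t b) hb').apply_symm_apply x).symm)

variable {M : Type x} [AddCommGroup M] [Module R M] [Module B M] [IsScalarTower B R M]

/-- Multiplication by `t : R` on an `R`-module, as a `B`-linear map. -/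
def smulEnd (M : Type x) [AddCommGroup M] [Module R M] [Module B M] [IsScalarTower B R M]
    (t : R) : M →ₗ[B] M where
  toFun x := t • x
  map_add' := smul_add t
  map_smul' c x := smul_comm t c x

@[simp] theorem smulEnd_apply (x : M) : smulEnd (B := B) M t x = t • x := rfl

/-- **Polynomial frame of a finite projective module** over a ring with a polynomial frame. -/
theorem exists_natChart_of_finite_projective {V : Type v} [AddCommGroup V] [Module B V]
    (C : NatChart (LinearMap.mulLeft B t) V) [Module.Finite R M] [Module.Projective R M] :
    ∃ m : ℕ, Nonempty (NatChart (smulEnd (B := B) M t) (Fin m → V)) := by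
  obtain ⟨m, f, g, -, -, hfg⟩ := Module.Finite.exists_comp_eq_id_of_projective R M
  refine ⟨m, ⟨retractNatChart (piNatChart C (Fin m)) (f.restrictScalars B) (g.restrictScalars B) ?_ ?_ ?_⟩⟩
  · intro x
    exact LinearMap.congr_fun hfg x
  · intro x
    have : (LinearMap.mulLeft B t).compLeft (Fin m) x = t • x := by
      funext j
      simp
    rw [this]
    simp
  · intro x
    have : ∀ y : Fin m → R, (LinearMap.mulLeft B t).compLeft (Fin m) y = t • y := by
      intro y
      funext j
      simp
    rw [this]
    simp

end Algebra

end Fermat.Agent.JAC.Frame.PolyChart65
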