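import Mathlib
import Fermat.Agent.JAC.Frame.DegFamily65

/-!
# Programme JAC, chapter Frame: spreading out the degree

Consequences of the local constancy of the degree (`DegFamily65`) in the form used by the chart
construction: the degree at a point of `Spec B` spreads out to a basic open neighbourhood
`D(f)`, and degree zero at a point gives `IsDegZero` over `Localization.Away f`.
-/

set_option autoImplicit false
set_option linter.unusedSectionVars false

namespace Fermat.Agent.JAC.Frame.DegSpread65

open scoped Fermat.Agent.JAC.Core.ConstFamily36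
open Fermat.Agent.JAC.Core.Defs36 Fermat.Agent.JAC.Core.ConstFamily36
  Fermat.Agent.JAC.Core.AlgAtlas36 Fermat.Agent.JAC.Core.Degree36
  Fermat.Agent.JAC.Frame.DegFamily65 Polynomial TensorProduct

universe u

variable {k : Type u} [Field k] {A0 A1 A01 : Type u} [CommRing A0] [CommRing A1] [CommRing A01]
  [Algebra k A0] [Algebra k A1] [Algebra k A01] [Algebra A0 A01] [Algebra A1 A01]
  [IsScalarTower k A0 A01] [IsScalarTower k A1 A01] {t : A0} {s : A1}
  [IsLocalization.Away t A01] [IsLocalization.Away s A01]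
  (hts : algebraMap A0 A01 t * algebraMap A1 A01 s = 1)
  {n0 n1 : ℕ} (a0 : Fin n0 → A0)
  (ha0 : Function.Bijective (fun p : Fin n0 → k[X] => ∑ j, Polynomial.aeval t (p j) * a0 j))
  (a1 : Fin n1 → A1)
  (ha1 : Function.Bijective (fun p : Fin n1 → k[X] => ∑ j, Polynomial.aeval s (p j) * a1 j))

include hts ha0 ha1 in
/-- The degree at a point spreads out to a basic open neighbourhood. -/
theorem exists_away_degFun_eq {B : Type u} [CommRing B] [Algebra k B]
    (ξ : Cl k A0 A1 A01 t s B) (p : PrimeSpectrum B) :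
    ∃ f : B, f ∉ p.asIdeal ∧
      ∀ q : PrimeSpectrum B, f ∉ q.asIdeal → degFun ξ q = degFun ξ p := by
  obtain ⟨U, hU, hpU, hconst⟩ :=
    (IsLocallyConstant.iff_exists_open _).1 (isLocallyConstant_degFun hts a0 ha0 a1 ha1 ξ) p
  obtain ⟨_, ⟨_, ⟨f, rfl⟩, rfl⟩, hpf, hfU⟩ :=
    PrimeSpectrum.isBasis_basic_opens.exists_subset_of_mem_open hpU hU
  exact ⟨f, hpf, fun q hq => hconst q (hfU hq)⟩

include hts ha0 ha1 in
/-- The degree of all fibres of the restriction to `D(f)`, for any field-valued point. -/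
theorem exists_away_degClass_eq {B : Type u} [CommRing B] [Algebra k B]
    (ξ : Cl k A0 A1 A01 t s B) (p : PrimeSpectrum B) :
    ∃ f : B, f ∉ p.asIdeal ∧
      ∀ (K : Type u) [Field K] [Algebra k K] (ψ : Localization.Away f →ₐ[k] K),
        degClass K (bc ψ (bc (IsScalarTower.toAlgHom k B (Localization.Away f)) ξ)) =
          degFun ξ p := by
  obtain ⟨f, hf, h⟩ := exists_away_degFun_eq hts a0 ha0 a1 ha1 ξ p
  refine ⟨f, hf, fun K _ _ ψ => ?_⟩
  rw [← Zar.BcFunct39.bc_comp_apply, degClass_bc_eq_degFun hts a0 ha0 a1 ha1]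
  apply h
  change ¬ (ψ.comp (IsScalarTower.toAlgHom k B (Localization.Away f))) f = 0
  change ¬ ψ (algebraMap B (Localization.Away f) f) = 0
  exact ((IsLocalization.Away.algebraMap_isUnit (S := Localization.Away f) f).map ψ).ne_zero

include hts ha0 ha1 in
/-- **Degree zero spreads out**: if the degree vanishes at `p` then the restriction to a basic open
neighbourhood `D(f)` of `p` has degree zero. -/
theorem exists_away_isDegZero {B : Type u} [CommRing B] [Algebra k B]
    (ξ : Cl k A0 A1 A01 t s B) (p : PrimeSpectrum B) (hp : degFun ξ p = 0) :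
    ∃ f : B, f ∉ p.asIdeal ∧
      IsDegZero (Localization.Away f)
        (bc (IsScalarTower.toAlgHom k B (Localization.Away f)) ξ) := by
  obtain ⟨f, hf, h⟩ := exists_away_degClass_eq hts a0 ha0 a1 ha1 ξ p
  exact ⟨f, hf, fun K _ _ _ ψ => (h K ψ).trans hp⟩

include hts ha0 ha1 in
/-- Variant: degree zero at one geometric point above `p` spreads out. -/
theorem exists_away_isDegZero_of_point {B : Type u} [CommRing B] [Algebra k B]
    (ξ : Cl k A0 A1 A01 t s B) (K : Type u) [Field K] [Algebra k K] (ψ : B →ₐ[k] K)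
    (h : degClass K (bc ψ ξ) = 0) :
    ∃ f : B, ψ f ≠ 0 ∧
      IsDegZero (Localization.Away f)
        (bc (IsScalarTower.toAlgHom k B (Localization.Away f)) ξ) := by
  rw [degClass_bc_eq_degFun hts a0 ha0 a1 ha1] at h
  obtain ⟨f, hf, hz⟩ := exists_away_isDegZero hts a0 ha0 a1 ha1 ξ _ h
  exact ⟨f, hf, hz⟩

end Fermat.Agent.JAC.Frame.DegSpread65
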