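import Fermat.Agent.JAC.Frame.ChiRank65

/-!
# Programme JAC, chapter Frame: shrinking the base

Tools for the local arguments of the chart theorem.

* `baseChangeTransEquiv`, `cechD_surjective_trans`, `h0BaseChangeTrans`, `h1BaseChangeTrans`:
  transitivity of base change of Cech pairs along `B → B' → B''`
  (`(ρ.baseChange B').baseChange B''` is isomorphic to `ρ.baseChange B''`).
* `GoodTwist.exists_away_surjective`: if `H¹` of the fibre at a prime `p` vanishes, then `H¹`
  vanishes over `Localization.Away f` for some `f ∉ p`.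
* `GoodTwist.finrank_tensor_h0_of_surjective`: if `H¹ = 0` then the rank of the (finite
  projective) module `H⁰` at every field-valued point is the Euler characteristic of the fibre.
-/

set_option autoImplicit false

namespace Fermat.Agent.JAC.Frame.Shrink65

open Fermat.Agent.JAC.Cech Fermat.Agent.JAC.Frame.GoodTwist65 Fermat.Agent.JAC.Frame.ChiCongr65
  TensorProduct

universe u

variable {B : Type u} [CommRing B]
variable {M₀ M₁ M₁' N : Type u} [AddCommGroup M₀] [AddCommGroup M₁] [AddCommGroup M₁']
  [AddCommGroup N] [Module B M₀] [Module B M₁] [Module B M₁'] [Module B N]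

section Trans

variable (B' B'' : Type u) [CommRing B'] [CommRing B''] [Algebra B B'] [Algebra B' B'']
  [Algebra B B''] [IsScalarTower B B' B'']

/-- Transitivity of base change of modules. -/
noncomputable def baseChangeTransEquiv (M : Type u) [AddCommGroup M] [Module B M] :
    B'' ⊗[B'] (B' ⊗[B] M) ≃ₗ[B''] B'' ⊗[B] M :=
  TensorProduct.AlgebraTensorModule.cancelBaseChange B B' B'' B'' M

theorem baseChangeTransEquiv_tmul {M : Type u} [AddCommGroup M] [Module B M] (c : B'') (b : B')
    (x : M) : baseChangeTransEquiv B' B'' M (c ⊗ₜ[B'] (b ⊗ₜ[B] x)) = (b • c) ⊗ₜ[B] x := by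
  simp [baseChangeTransEquiv]

theorem baseChangeTransEquiv_baseChange {M M' : Type u} [AddCommGroup M] [Module B M]
    [AddCommGroup M'] [Module B M'] (ρ : M →ₗ[B] M') (z : B'' ⊗[B'] (B' ⊗[B] M)) :
    baseChangeTransEquiv B' B'' M' ((ρ.baseChange B').baseChange B'' z) =
      ρ.baseChange B'' (baseChangeTransEquiv B' B'' M z) := by
  induction z using TensorProduct.induction_on with
  | zero => simp
  | tmul c y =>
    induction y using TensorProduct.induction_on with
    | zero => simp
    | tmul b x =>
      rw [LinearMap.baseChange_tmul, LinearMap.baseChange_tmul, baseChangeTransEquiv_tmul,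
        baseChangeTransEquiv_tmul, LinearMap.baseChange_tmul]
    | add y y' hy hy' =>
      rw [TensorProduct.tmul_add, map_add, map_add, hy, hy', map_add, map_add]
  | add z z' hz hz' => rw [map_add, map_add, hz, hz', map_add, map_add]

variable (ρ₀ : M₀ →ₗ[B] N) (ρ₁ : M₁ →ₗ[B] N)

/-- `H⁰` of the iterated base change is `H⁰` of the base change. -/
noncomputable def h0BaseChangeTrans :
    H0 ((ρ₀.baseChange B').baseChange B'') ((ρ₁.baseChange B').baseChange B'') ≃ₗ[B'']
      H0 (ρ₀.baseChange B'') (ρ₁.baseChange B'') :=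
  h0Congr (baseChangeTransEquiv B' B'' M₀) (baseChangeTransEquiv B' B'' M₁)
    (baseChangeTransEquiv B' B'' N) (baseChangeTransEquiv_baseChange B' B'' ρ₀)
    (baseChangeTransEquiv_baseChange B' B'' ρ₁)

/-- `H¹` of the iterated base change is `H¹` of the base change. -/
noncomputable def h1BaseChangeTrans :
    H1 ((ρ₀.baseChange B').baseChange B'') ((ρ₁.baseChange B').baseChange B'') ≃ₗ[B'']
      H1 (ρ₀.baseChange B'') (ρ₁.baseChange B'') :=
  h1Congr (baseChangeTransEquiv B' B'' M₀) (baseChangeTransEquiv B' B'' M₁)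
    (baseChangeTransEquiv B' B'' N) (baseChangeTransEquiv_baseChange B' B'' ρ₀)
    (baseChangeTransEquiv_baseChange B' B'' ρ₁)

/-- Vanishing of `H¹` for the iterated base change and for the base change are equivalent. -/
theorem cechD_surjective_trans :
    Function.Surjective (cechD ((ρ₀.baseChange B').baseChange B'')
      ((ρ₁.baseChange B').baseChange B'')) ↔
      Function.Surjective (cechD (ρ₀.baseChange B'') (ρ₁.baseChange B'')) := by
  constructor
  · intro h
    apply GoodTwist.surjective_of_subsingleton_h1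
    have := GoodTwist.subsingleton_h1_of_surjective h
    exact (h1BaseChangeTrans B' B'' ρ₀ ρ₁).symm.toEquiv.subsingleton
  · intro h
    apply GoodTwist.surjective_of_subsingleton_h1
    have := GoodTwist.subsingleton_h1_of_surjective h
    exact (h1BaseChangeTrans B' B'' ρ₀ ρ₁).toEquiv.subsingleton

/-- Vanishing of `H¹` is stable under base change. -/
theorem cechD_surjective_baseChange (h : Function.Surjective (cechD ρ₀ ρ₁)) :
    Function.Surjective (cechD (ρ₀.baseChange B') (ρ₁.baseChange B')) := by
  apply GoodTwist.surjective_of_subsingleton_h1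
  have : Subsingleton (H1 ρ₀ ρ₁) := GoodTwist.subsingleton_h1_of_surjective h
  have : Subsingleton (B' ⊗[B] H1 ρ₀ ρ₁) := subsingleton_tensor_of_subsingleton B' _
  exact (h1BaseChangeEquiv ρ₀ ρ₁ B').symm.toEquiv.subsingleton

end Trans

section Away

variable {ρ₀ : M₀ →ₗ[B] N} {ρ₁ : M₁ →ₗ[B] N} {ι : M₁ →ₗ[B] M₁'} {ρ₁' : M₁' →ₗ[B] N}
  (h : GoodTwist ρ₀ ρ₁ ι ρ₁')

include h in
/-- **Spreading out the vanishing of `H¹`**: if `H¹` of the fibre at `p` vanishes then `H¹`
vanishes over a basic open neighbourhood of `p`. -/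
theorem GoodTwist.exists_away_surjective (p : PrimeSpectrum B)
    (hp : Function.Surjective (cechD (ρ₀.baseChange p.asIdeal.ResidueField)
      (ρ₁.baseChange p.asIdeal.ResidueField))) :
    ∃ f : B, f ∉ p.asIdeal ∧
      Function.Surjective (cechD (ρ₀.baseChange (Localization.Away f))
        (ρ₁.baseChange (Localization.Away f))) := by
  have := h.finite_h1
  have hsupp := (h.surjective_residueField_iff p).1 hp
  rw [Module.support_eq_zeroLocus, PrimeSpectrum.mem_zeroLocus, SetLike.coe_subset_coe,
    SetLike.not_le_iff_exists] at hsupp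
  obtain ⟨f, hfann, hfp⟩ := hsupp
  refine ⟨f, hfp, ?_⟩
  rw [Module.mem_annihilator] at hfann
  apply GoodTwist.surjective_of_subsingleton_h1
  have hzero : ∀ t : Localization.Away f ⊗[B] H1 ρ₀ ρ₁, t = 0 := by
    intro t
    induction t using TensorProduct.induction_on with
    | zero => rfl
    | tmul a c =>
      obtain ⟨u, hu⟩ : IsUnit (algebraMap B (Localization.Away f) f) :=
        IsLocalization.Away.algebraMap_isUnit f
      have h1 : a = (a * ↑u⁻¹) * algebraMap B (Localization.Away f) f := by
        rw [← hu, mul_assoc, Units.inv_mul, mul_one]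
      have h2 : a * ↑u⁻¹ * algebraMap B (Localization.Away f) f = f • (a * ↑u⁻¹) := by
        rw [Algebra.smul_def, mul_comm]
      rw [h1, h2, TensorProduct.smul_tmul, hfann c, TensorProduct.tmul_zero]
    | add x y hx hy => rw [hx, hy, add_zero]
  have : Subsingleton (Localization.Away f ⊗[B] H1 ρ₀ ρ₁) :=
    ⟨fun a b => by rw [hzero a, hzero b]⟩
  exact (h1BaseChangeEquiv ρ₀ ρ₁ (Localization.Away f)).symm.toEquiv.subsingleton

include h in
/-- **Rank of `H⁰` when `H¹ = 0`**: at every field-valued point it is the Euler characteristic of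
the fibre. -/
theorem GoodTwist.finrank_tensor_h0_of_surjective (h1 : Function.Surjective (cechD ρ₀ ρ₁))
    (K : Type u) [Field K] [Algebra B K] :
    (Module.finrank K (K ⊗[B] H0 ρ₀ ρ₁) : ℤ) = chi ρ₀ ρ₁ K := by
  have := h.flat
  have e : (K ⊗[B] H0 ρ₀ ρ₁) ≃ₗ[K] H0 (ρ₀.baseChange K) (ρ₁.baseChange K) :=
    LinearEquiv.ofBijective (h0BaseChangeMap ρ₀ ρ₁ K) (h0BaseChangeMap_bijective ρ₀ ρ₁ K h1)
  have hs : Subsingleton (H1 (ρ₀.baseChange K) (ρ₁.baseChange K)) :=
    GoodTwist.subsingleton_h1_of_surjective (cechD_surjective_baseChange K ρ₀ ρ₁ h1)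
  have h0 : Module.finrank K (H1 (ρ₀.baseChange K) (ρ₁.baseChange K)) = 0 :=
    Module.finrank_zero_of_subsingleton
  unfold chi
  rw [e.finrank_eq, h0]
  simp

end Away

end Fermat.Agent.JAC.Frame.Shrink65
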