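import Mathlib

/-!
# Programme JAC, chapter Frame: bifiltered modules and transition automorphisms

A *bifiltration* on a `B`-module `F` is a pair of families of submodules `le j`, `gt j`
(`j : ℤ`), increasing resp. decreasing, with `le j` and `gt j` complementary for every `j`.
The model is the module of Laurent vectors `V[T, T⁻¹]` with `le j` the vectors of degree `≤ j`
and `gt j` the vectors all of whose terms have degree `> j`.

The main result (`BiFil.exists_retract_window`) is the elementary heart of cohomology and base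
change for vector bundles on the projective line over an arbitrary ring: for an automorphism `g`
of `F` such that `g` and `g⁻¹` have degree `≤ d`, and `m ≥ d - 1`,

* `gt (-1) ⊔ g (le m) = ⊤`          (vanishing of `H¹` of the `m`-th twist), and
* `gt (-1) ⊓ g (le m)` is a retract (direct summand) of the window `gt (-1) ⊓ le (m + d)`
  (finiteness and projectivity of `H⁰` of the `m`-th twist).
-/

set_option autoImplicit false

namespace Fermat.Agent.JAC.Frame.BiFil65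

universe u v w

/-- A pair of complementary filtrations indexed by `ℤ` on a module. -/
structure BiFil (B : Type u) [CommRing B] (F : Type v) [AddCommGroup F] [Module B F] where
  /-- the increasing filtration ("degree `≤ j`") -/
  le : ℤ → Submodule B F
  /-- the decreasing filtration ("all terms of degree `> j`") -/
  gt : ℤ → Submodule B F
  le_mono : Monotone le
  gt_anti : Antitone gt
  isCompl : ∀ j, IsCompl (le j) (gt j)

namespace BiFil

variable {B : Type u} [CommRing B] {F : Type v} [AddCommGroup F] [Module B F] (Φ : BiFil B F)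

/-- The projection onto `le j` along `gt j`, as an endomorphism of `F`. -/
noncomputable def projLe (j : ℤ) : F →ₗ[B] F :=
  (Φ.le j).projection (Φ.gt j) (Φ.isCompl j)

theorem projLe_mem (j : ℤ) (x : F) : Φ.projLe j x ∈ Φ.le j :=
  Submodule.projection_apply_mem (Φ.isCompl j) x

theorem sub_projLe_mem (j : ℤ) (x : F) : x - Φ.projLe j x ∈ Φ.gt j := by
  have h := Submodule.projection_eq_self_sub_projection (Φ.isCompl j) x
  unfold projLe
  rw [← h]
  exact Submodule.projection_apply_mem (Φ.isCompl j).symm x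

theorem projLe_of_mem_le {j : ℤ} {x : F} (hx : x ∈ Φ.le j) : Φ.projLe j x = x :=
  Submodule.projection_apply_of_mem_left (Φ.isCompl j) hx

theorem projLe_of_mem_gt {j : ℤ} {x : F} (hx : x ∈ Φ.gt j) : Φ.projLe j x = 0 :=
  Submodule.projection_apply_of_mem_right (Φ.isCompl j) hx

/-- `g` has degree at most `d` with respect to the bifiltrations `Φ` (source) and `Ψ` (target):
it raises degrees by at most `d` and lowers them by at most `d`. -/
def HasDeg {F' : Type w} [AddCommGroup F'] [Module B F'] (Ψ : BiFil B F')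
    (g : F →ₗ[B] F') (d : ℤ) : Prop :=
  (∀ j, (Φ.le j).map g ≤ Ψ.le (j + d)) ∧ (∀ j, (Φ.gt j).map g ≤ Ψ.gt (j - d))

variable {Φ}

theorem HasDeg.le_apply {F' : Type w} [AddCommGroup F'] [Module B F'] {Ψ : BiFil B F'}
    {g : F →ₗ[B] F'} {d : ℤ} (h : Φ.HasDeg Ψ g d) {j : ℤ} {x : F} (hx : x ∈ Φ.le j) :
    g x ∈ Ψ.le (j + d) :=
  h.1 j (Submodule.mem_map_of_mem hx)

theorem HasDeg.gt_apply {F' : Type w} [AddCommGroup F'] [Module B F'] {Ψ : BiFil B F'}
    {g : F →ₗ[B] F'} {d : ℤ} (h : Φ.HasDeg Ψ g d) {j : ℤ} {x : F} (hx : x ∈ Φ.gt j) :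
    g x ∈ Ψ.gt (j - d) :=
  h.2 j (Submodule.mem_map_of_mem hx)

theorem HasDeg.mono {F' : Type w} [AddCommGroup F'] [Module B F'] {Ψ : BiFil B F'}
    {g : F →ₗ[B] F'} {d d' : ℤ} (h : Φ.HasDeg Ψ g d) (hd : d ≤ d') : Φ.HasDeg Ψ g d' :=
  ⟨fun j => (h.1 j).trans (Ψ.le_mono (by omega)),
    fun j => (h.2 j).trans (Ψ.gt_anti (by omega))⟩

variable (Φ)

/-- **Vanishing of `H¹` of a large twist.**  For an automorphism `g` whose inverse has degree
`≤ d`, and `m ≥ d - 1`, the lattices `gt (-1)` and `g (le m)` together span `F`. -/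
theorem sup_map_le_eq_top (g : F ≃ₗ[B] F) (d m : ℤ)
    (hg' : Φ.HasDeg Φ (g.symm : F →ₗ[B] F) d) (hm : d - 1 ≤ m) :
    Φ.gt (-1) ⊔ (Φ.le m).map (g : F →ₗ[B] F) = ⊤ := by
  rw [eq_top_iff]
  intro x _
  have hx : x = (x - Φ.projLe (-1) x) + Φ.projLe (-1) x := by abel
  rw [hx]
  refine Submodule.add_mem_sup (Φ.sub_projLe_mem (-1) x) ?_
  refine ⟨g.symm (Φ.projLe (-1) x), ?_, by simp⟩
  have h1 : g.symm (Φ.projLe (-1) x) ∈ Φ.le (-1 + d) :=
    hg'.le_apply (Φ.projLe_mem (-1) x)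
  exact Φ.le_mono (by omega) h1

/-- The projection onto `g (le m)` along `g (gt m)`. -/
noncomputable def projMap (g : F ≃ₗ[B] F) (m : ℤ) : F →ₗ[B] F :=
  (g : F →ₗ[B] F) ∘ₗ Φ.projLe m ∘ₗ (g.symm : F →ₗ[B] F)

theorem projMap_mem (g : F ≃ₗ[B] F) (m : ℤ) (x : F) :
    Φ.projMap g m x ∈ (Φ.le m).map (g : F →ₗ[B] F) :=
  ⟨Φ.projLe m (g.symm x), Φ.projLe_mem m _, rfl⟩

theorem sub_projMap_mem (g : F ≃ₗ[B] F) (m : ℤ) (x : F) :
    x - Φ.projMap g m x ∈ (Φ.gt m).map (g : F →ₗ[B] F) := by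
  refine ⟨g.symm x - Φ.projLe m (g.symm x), Φ.sub_projLe_mem m _, ?_⟩
  simp [projMap]

theorem projMap_of_mem (g : F ≃ₗ[B] F) (m : ℤ) {x : F}
    (hx : x ∈ (Φ.le m).map (g : F →ₗ[B] F)) : Φ.projMap g m x = x := by
  obtain ⟨y, hy, rfl⟩ := hx
  simp [projMap, Φ.projLe_of_mem_le hy]

/-- The projection `projMap g m` preserves the window `gt (-1) ⊓ le (m + d)` and lands in
`gt (-1) ⊓ g (le m)`. -/
theorem projMap_mem_window (g : F ≃ₗ[B] F) (d m : ℤ)
    (hg : Φ.HasDeg Φ (g : F →ₗ[B] F) d) (hm : d - 1 ≤ m) {x : F} (hx : x ∈ Φ.gt (-1)) :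
    Φ.projMap g m x ∈ Φ.gt (-1) ⊓ (Φ.le m).map (g : F →ₗ[B] F) := by
  refine ⟨?_, Φ.projMap_mem g m x⟩
  have h1 : x - Φ.projMap g m x ∈ Φ.gt (-1) := by
    obtain ⟨y, hy, hyx⟩ := Φ.sub_projMap_mem g m x
    rw [← hyx]
    exact Φ.gt_anti (by omega) (hg.gt_apply hy)
  have : Φ.projMap g m x = x - (x - Φ.projMap g m x) := by abel
  rw [this]
  exact Submodule.sub_mem _ hx h1

theorem map_le_le (g : F ≃ₗ[B] F) (d m : ℤ) (hg : Φ.HasDeg Φ (g : F →ₗ[B] F) d) :
    (Φ.le m).map (g : F →ₗ[B] F) ≤ Φ.le (m + d) := hg.1 m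

/-- **Finiteness and projectivity of `H⁰` of a large twist.**  For an automorphism `g` of degree
`≤ d` and `m ≥ d - 1`, the module `gt (-1) ⊓ g (le m)` is a retract of the window
`gt (-1) ⊓ le (m + d)`. -/
theorem exists_retract_window (g : F ≃ₗ[B] F) (d m : ℤ)
    (hg : Φ.HasDeg Φ (g : F →ₗ[B] F) d) (hm : d - 1 ≤ m) :
    ∃ (i : ↥(Φ.gt (-1) ⊓ (Φ.le m).map (g : F →ₗ[B] F)) →ₗ[B] ↥(Φ.gt (-1) ⊓ Φ.le (m + d)))
      (r : ↥(Φ.gt (-1) ⊓ Φ.le (m + d)) →ₗ[B] ↥(Φ.gt (-1) ⊓ (Φ.le m).map (g : F →ₗ[B] F))),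
      r ∘ₗ i = LinearMap.id := by
  have hle : Φ.gt (-1) ⊓ (Φ.le m).map (g : F →ₗ[B] F) ≤ Φ.gt (-1) ⊓ Φ.le (m + d) :=
    inf_le_inf_left _ (Φ.map_le_le g d m hg)
  refine ⟨Submodule.inclusion hle,
    ((Φ.projMap g m).domRestrict (Φ.gt (-1) ⊓ Φ.le (m + d))).codRestrict _ ?_, ?_⟩
  · rintro ⟨x, hx⟩
    exact Φ.projMap_mem_window g d m hg hm hx.1
  · ext ⟨x, hx⟩
    exact Φ.projMap_of_mem g m hx.2

end BiFil

end Fermat.Agent.JAC.Frame.BiFil65
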