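import Fermat.Agent.JAC.Frame.Pair65

/-!
# Programme JAC, chapter Frame: the frame of Laurent vectors

For a `B`-module `V` the module `ℤ →₀ V` of Laurent vectors `V[T, T⁻¹]` carries the standard
bifiltration (`le j` = vectors of degree `≤ j`, `gt j` = vectors with all terms of degree `> j`)
and the shift automorphisms `lzShift m` ("multiplication by `T ^ m`").

* `lzFil`, `lzShift`, `lzShift_map_le`, `lzShift_map_gt`;
* `exists_hasDeg_of_equivariant`: a shift-equivariant linear map out of `ℤ →₀ V`, `V` finitely
  generated, has bounded degree;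
* `finite_window`, `projective_window`: windows are finite and projective when `V` is finite free.
-/

set_option autoImplicit false

namespace Fermat.Agent.JAC.Frame.Lz65

open Fermat.Agent.JAC.Frame.BiFil65 Fermat.Agent.JAC.Frame.Pair65

universe u v w x

variable (B : Type u) [CommRing B] (V : Type v) [AddCommGroup V] [Module B V]

/-- The standard bifiltration on the module `ℤ →₀ V` of Laurent vectors. -/
def lzFil : BiFil B (ℤ →₀ V) where
  le j := Finsupp.supported V B {k | k ≤ j}
  gt j := Finsupp.supported V B {k | j < k}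
  le_mono := fun _ _ h => Finsupp.supported_mono (fun _ hk => le_trans hk h)
  gt_anti := fun _ _ h => Finsupp.supported_mono (fun _ hk => lt_of_le_of_lt h hk)
  isCompl j := by
    constructor
    · exact Finsupp.disjoint_supported_supported
        (Set.disjoint_left.mpr fun k (hk : k ≤ j) (hk' : j < k) => absurd hk' (not_lt.mpr hk))
    · rw [codisjoint_iff, ← Finsupp.supported_union]
      have : {k : ℤ | k ≤ j} ∪ {k | j < k} = Set.univ := by
        ext k
        simp [le_or_gt]
      rw [this, Finsupp.supported_univ]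

@[simp] theorem lzFil_le (j : ℤ) : (lzFil B V).le j = Finsupp.supported V B {k | k ≤ j} := rfl

@[simp] theorem lzFil_gt (j : ℤ) : (lzFil B V).gt j = Finsupp.supported V B {k | j < k} := rfl

/-- The shift by `m` on Laurent vectors ("multiplication by `T ^ m`"). -/
noncomputable def lzShift (m : ℤ) : (ℤ →₀ V) ≃ₗ[B] (ℤ →₀ V) :=
  Finsupp.domLCongr (Equiv.addRight m)

@[simp] theorem lzShift_single (m k : ℤ) (v : V) :
    lzShift B V m (Finsupp.single k v) = Finsupp.single (k + m) v := by
  simp [lzShift]

theorem lzShift_apply (m : ℤ) (f : ℤ →₀ V) (k : ℤ) : lzShift B V m f k = f (k - m) := by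
  simp [lzShift, Finsupp.domLCongr_apply, Finsupp.domCongr_apply,
    Finsupp.equivMapDomain_apply, sub_eq_add_neg]

theorem lzShift_zero : lzShift B V 0 = LinearEquiv.refl B (ℤ →₀ V) := by
  ext f k
  simp [lzShift_apply]

theorem lzShift_add_apply (a b : ℤ) (f : ℤ →₀ V) :
    lzShift B V (a + b) f = lzShift B V a (lzShift B V b f) := by
  ext k
  simp only [lzShift_apply]
  congr 1
  ring

theorem lzShift_neg_apply (a : ℤ) (f : ℤ →₀ V) :
    lzShift B V (-a) (lzShift B V a f) = f := by
  rw [← lzShift_add_apply]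
  simp [lzShift_zero]

theorem lzShift_apply_neg (a : ℤ) (f : ℤ →₀ V) :
    lzShift B V a (lzShift B V (-a) f) = f := by
  rw [← lzShift_add_apply]
  simp [lzShift_zero]

theorem lzShift_mem_supported {S : Set ℤ} {f : ℤ →₀ V} (m : ℤ) (hf : f ∈ Finsupp.supported V B S) :
    lzShift B V m f ∈ Finsupp.supported V B {k | k - m ∈ S} := by
  rw [Finsupp.mem_supported'] at hf ⊢
  intro k hk
  rw [lzShift_apply]
  exact hf _ hk

theorem lzShift_mem_le {j : ℤ} {f : ℤ →₀ V} (m : ℤ) (hf : f ∈ (lzFil B V).le j) :
    lzShift B V m f ∈ (lzFil B V).le (j + m) := by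
  have := lzShift_mem_supported B V m hf
  refine Finsupp.supported_mono ?_ this
  intro k hk
  simp only [Set.mem_ofPred_eq] at hk ⊢
  omega

theorem lzShift_mem_gt {j : ℤ} {f : ℤ →₀ V} (m : ℤ) (hf : f ∈ (lzFil B V).gt j) :
    lzShift B V m f ∈ (lzFil B V).gt (j + m) := by
  have := lzShift_mem_supported B V m hf
  refine Finsupp.supported_mono ?_ this
  intro k hk
  simp only [Set.mem_ofPred_eq] at hk ⊢
  omega

theorem lzShift_map_le (m j : ℤ) :
    ((lzFil B V).le j).map (lzShift B V m : (ℤ →₀ V) →ₗ[B] (ℤ →₀ V)) = (lzFil B V).le (j + m) := by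
  apply le_antisymm
  · rintro _ ⟨f, hf, rfl⟩
    exact lzShift_mem_le B V m hf
  · intro f hf
    refine ⟨lzShift B V (-m) f, ?_, lzShift_apply_neg B V m f⟩
    have := lzShift_mem_le B V (-m) hf
    simpa using this

theorem lzShift_map_gt (m j : ℤ) :
    ((lzFil B V).gt j).map (lzShift B V m : (ℤ →₀ V) →ₗ[B] (ℤ →₀ V)) = (lzFil B V).gt (j + m) := by
  apply le_antisymm
  · rintro _ ⟨f, hf, rfl⟩
    exact lzShift_mem_gt B V m hf
  · intro f hf
    refine ⟨lzShift B V (-m) f, ?_, lzShift_apply_neg B V m f⟩
    have := lzShift_mem_gt B V (-m) hf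
    simpa using this

variable {B V}

/-- A map which commutes with the shift by `1` commutes with all shifts. -/
theorem equivariant_of_one {V' : Type w} [AddCommGroup V'] [Module B V']
    (g : (ℤ →₀ V) →ₗ[B] (ℤ →₀ V'))
    (hg : ∀ f, g (lzShift B V 1 f) = lzShift B V' 1 (g f)) (m : ℤ) (f : ℤ →₀ V) :
    g (lzShift B V m f) = lzShift B V' m (g f) := by
  have hneg : ∀ f, g (lzShift B V (-1) f) = lzShift B V' (-1) (g f) := by
    intro f
    have h1 := hg (lzShift B V (-1) f)
    rw [lzShift_apply_neg] at h1
    rw [h1, lzShift_neg_apply]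
  induction m using Int.induction_on generalizing f with
  | zero => simp [lzShift_zero]
  | succ n ih =>
    rw [lzShift_add_apply, ih, hg, ← lzShift_add_apply]
  | pred n ih =>
    rw [sub_eq_add_neg, lzShift_add_apply, ih, hneg, ← lzShift_add_apply]

/-- A shift-equivariant linear map out of `ℤ →₀ V`, with `V` finitely generated, has bounded
degree. -/
theorem exists_hasDeg_of_equivariant [Module.Finite B V] {V' : Type w} [AddCommGroup V']
    [Module B V'] (g : (ℤ →₀ V) →ₗ[B] (ℤ →₀ V'))
    (hg : ∀ f, g (lzShift B V 1 f) = lzShift B V' 1 (g f)) :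
    ∃ d : ℤ, 0 ≤ d ∧ (lzFil B V).HasDeg (lzFil B V') g d := by
  classical
  obtain ⟨S, hS⟩ := (Module.finite_def (R := B) (M := V)).mp inferInstance
  -- a bound for the supports of the images of the generators
  let d : ℕ := S.sup fun s => (g (Finsupp.single 0 s)).support.sup Int.natAbs
  have hgen : ∀ s ∈ S, g (Finsupp.single 0 s) ∈
      Finsupp.supported V' B {k : ℤ | -(d : ℤ) ≤ k ∧ k ≤ d} := by
    intro s hs
    rw [Finsupp.mem_supported]
    intro k hk
    have h1 : k.natAbs ≤ (g (Finsupp.single 0 s)).support.sup Int.natAbs :=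
      Finset.le_sup (f := Int.natAbs) hk
    have h2 : (g (Finsupp.single 0 s)).support.sup Int.natAbs ≤ d :=
      Finset.le_sup (f := fun s => (g (Finsupp.single 0 s)).support.sup Int.natAbs) hs
    have h3 : k.natAbs ≤ d := h1.trans h2
    simp only [Set.mem_ofPred_eq]
    omega
  -- hence for all vectors in degree `0`
  have hzero : ∀ v : V, g (Finsupp.single 0 v) ∈
      Finsupp.supported V' B {k : ℤ | -(d : ℤ) ≤ k ∧ k ≤ d} := by
    intro v
    have hv : v ∈ Submodule.span B (S : Set V) := by rw [hS]; trivial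
    have : Submodule.span B (S : Set V) ≤
        (Finsupp.supported V' B {k : ℤ | -(d : ℤ) ≤ k ∧ k ≤ d}).comap
          (g ∘ₗ Finsupp.lsingle (0 : ℤ)) := by
      rw [Submodule.span_le]
      intro s hs
      exact hgen s hs
    exact this hv
  -- hence for all vectors in degree `k`
  have hall : ∀ (k : ℤ) (v : V), g (Finsupp.single k v) ∈
      Finsupp.supported V' B {l : ℤ | k - d ≤ l ∧ l ≤ k + d} := by
    intro k v
    have h1 : Finsupp.single k v = lzShift B V k (Finsupp.single 0 v) := by simp
    rw [h1, equivariant_of_one g hg]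
    refine Finsupp.supported_mono ?_ (lzShift_mem_supported B V' k (hzero v))
    intro l hl
    simp only [Set.mem_ofPred_eq] at hl ⊢
    omega
  refine ⟨d, Int.natCast_nonneg d, ?_, ?_⟩
  · rintro j _ ⟨f, hf, rfl⟩
    simp only [SetLike.mem_coe] at hf
    rw [← Finsupp.sum_single f, Finsupp.sum, map_sum]
    refine Submodule.sum_mem _ fun k hk => ?_
    have hkj : k ≤ j := by
      have := (Finsupp.mem_supported _ _).mp hf
      exact this hk
    refine Finsupp.supported_mono ?_ (hall k (f k))
    intro l hl
    simp only [Set.mem_ofPred_eq] at hl ⊢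
    omega
  · rintro j _ ⟨f, hf, rfl⟩
    simp only [SetLike.mem_coe] at hf
    rw [← Finsupp.sum_single f, Finsupp.sum, map_sum]
    refine Submodule.sum_mem _ fun k hk => ?_
    have hkj : j < k := by
      have := (Finsupp.mem_supported _ _).mp hf
      exact this hk
    refine Finsupp.supported_mono ?_ (hall k (f k))
    intro l hl
    simp only [Set.mem_ofPred_eq] at hl ⊢
    omega

variable (B V)

/-- The window `gt a ⊓ le b` of Laurent vectors. -/
theorem window_eq (a b : ℤ) :
    (lzFil B V).gt a ⊓ (lzFil B V).le b = Finsupp.supported V B (Set.Ioc a b) := by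
  rw [lzFil_gt, lzFil_le, ← Finsupp.supported_inter]
  rfl

instance finite_window [Module.Finite B V] (a b : ℤ) :
    Module.Finite B ↥((lzFil B V).gt a ⊓ (lzFil B V).le b) := by
  rw [window_eq]
  have : Finite ↥(Set.Ioc a b) := (Set.finite_Ioc a b).to_subtype
  exact Module.Finite.equiv (Finsupp.supportedEquivFinsupp (M := V) (R := B) (Set.Ioc a b)).symm

instance projective_window [Module.Free B V] (a b : ℤ) :
    Module.Projective B ↥((lzFil B V).gt a ⊓ (lzFil B V).le b) := by
  rw [window_eq]
  exact Module.Projective.of_equiv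
    (Finsupp.supportedEquivFinsupp (M := V) (R := B) (Set.Ioc a b)).symm

end Fermat.Agent.JAC.Frame.Lz65
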