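import Fermat.Agent.JAC.Frame.Lz65

/-!
# Programme JAC, chapter Frame: cohomology of large twists of a lattice pair

`M` is a `B`-module with an automorphism `T` ("multiplication by the coordinate `t`"), and
`L₀ L₁ : Submodule B M` are the two lattices of a vector bundle on the projective line over `B`
(sections over the chart `t ≠ ∞`, resp. `t ≠ 0`).  The coordinate form of "`L₀` is finite
projective over `B[T]`, `L₁` is finite projective over `B[T⁻¹]`, and both localise to `M`" is a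
pair of `ChartData`: shift-equivariant retractions of `M` into Laurent vectors, compatible with
the lattices.

Main results, for chart data with finitely generated coefficient modules: there is `d ≥ 0` such
that for all `m ≥ d - 1`

* `exists_forall_sup_eq_top`: `L₀ ⊔ T ^ m L₁ = ⊤`  (`H¹` of the `m`-th twist vanishes);
* `exists_forall_retract`: `L₀ ⊓ T ^ m L₁` is a retract of a window of Laurent vectors, hence
  (`exists_forall_finite_projective`) a finite projective `B`-module when the coefficient modules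
  are finite free  (`H⁰` of the `m`-th twist is finite projective).

The bound `d` depends only on the degrees of the four transition maps, so the same bound works
after any base change of the chart data.
-/

set_option autoImplicit false

namespace Fermat.Agent.JAC.Frame.Main65

open Fermat.Agent.JAC.Frame.BiFil65 Fermat.Agent.JAC.Frame.Pair65 Fermat.Agent.JAC.Frame.Lz65

universe u v w x

variable {B : Type u} [CommRing B] {M : Type x} [AddCommGroup M] [Module B M]

/-- Coordinate data for one chart: a shift-equivariant retraction of `M` into Laurent vectors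
`ℤ →₀ V`, under which the lattice `L` corresponds to the standard lattice `S`. -/
structure ChartData (T : M ≃ₗ[B] M) (L : Submodule B M) (V : Type v) [AddCommGroup V] [Module B V]
    (S : Submodule B (ℤ →₀ V)) where
  ι : M →ₗ[B] (ℤ →₀ V)
  ρ : (ℤ →₀ V) →ₗ[B] M
  ρ_ι : ∀ x, ρ (ι x) = x
  ι_T : ∀ x, ι (T x) = lzShift B V 1 (ι x)
  ρ_T : ∀ f, ρ (lzShift B V 1 f) = T (ρ f)
  ι_mem : ∀ x ∈ L, ι x ∈ S
  ρ_mem : ∀ f ∈ S, ρ f ∈ L

namespace ChartData

variable {T : M ≃ₗ[B] M} {L : Submodule B M} {V : Type v} [AddCommGroup V] [Module B V]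
  {S : Submodule B (ℤ →₀ V)} (C : ChartData T L V S)

theorem ι_zpow (m : ℤ) (x : M) : C.ι ((T ^ m) x) = lzShift B V m (C.ι x) := by
  have hneg : ∀ y, C.ι (T.symm y) = lzShift B V (-1) (C.ι y) := by
    intro y
    have h1 := C.ι_T (T.symm y)
    rw [LinearEquiv.apply_symm_apply] at h1
    rw [h1, lzShift_neg_apply]
  induction m using Int.induction_on generalizing x with
  | zero => simp [lzShift_zero]
  | succ n ih =>
    rw [zpow_add_one, LinearEquiv.mul_apply, ih, C.ι_T, lzShift_add_apply]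
  | pred n ih =>
    rw [zpow_sub_one, LinearEquiv.mul_apply, ih, LinearEquiv.coe_inv, hneg, sub_eq_add_neg,
      lzShift_add_apply]

theorem ρ_zpow (m : ℤ) (f : ℤ →₀ V) : C.ρ (lzShift B V m f) = (T ^ m) (C.ρ f) := by
  have hneg : ∀ f, C.ρ (lzShift B V (-1) f) = T.symm (C.ρ f) := by
    intro f
    have h1 := C.ρ_T (lzShift B V (-1) f)
    rw [lzShift_apply_neg] at h1
    rw [h1, LinearEquiv.symm_apply_apply]
  induction m using Int.induction_on generalizing f with
  | zero => simp [lzShift_zero]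
  | succ n ih =>
    rw [zpow_add_one, LinearEquiv.mul_apply, ← C.ρ_T, ← ih, ← lzShift_add_apply]
  | pred n ih =>
    rw [zpow_sub_one, LinearEquiv.mul_apply, LinearEquiv.coe_inv, ← hneg, ← ih,
      ← lzShift_add_apply, sub_eq_add_neg]

end ChartData

section Main

variable {T : M ≃ₗ[B] M} {L₀ L₁ : Submodule B M}
  {V₀ : Type v} [AddCommGroup V₀] [Module B V₀] {V₁ : Type w} [AddCommGroup V₁] [Module B V₁]
  (C₀ : ChartData T L₀ V₀ ((lzFil B V₀).gt (-1))) (C₁ : ChartData T L₁ V₁ ((lzFil B V₁).le 0))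

/-- The `m`-th twist of the lattice at infinity. -/
def twist (T : M ≃ₗ[B] M) (L₁ : Submodule B M) (m : ℤ) : Submodule B M :=
  L₁.map ((T ^ m : M ≃ₗ[B] M) : M →ₗ[B] M)

include C₀ C₁ in
/-- Two charts with finitely generated coefficients give pair data at every twist level, with a
degree bound independent of the level. -/
theorem exists_pairData [Module.Finite B V₀] [Module.Finite B V₁] :
    ∃ d : ℤ, 0 ≤ d ∧
      ∀ m : ℤ, Nonempty (PairData L₀ (twist T L₁ m) (lzFil B V₀) (lzFil B V₁) m d) := by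
  have e₀₀ : ∀ f, (C₀.ι ∘ₗ C₀.ρ) (lzShift B V₀ 1 f) = lzShift B V₀ 1 ((C₀.ι ∘ₗ C₀.ρ) f) := by
    intro f; simp [C₀.ρ_T, C₀.ι_T]
  have e₁₁ : ∀ f, (C₁.ι ∘ₗ C₁.ρ) (lzShift B V₁ 1 f) = lzShift B V₁ 1 ((C₁.ι ∘ₗ C₁.ρ) f) := by
    intro f; simp [C₁.ρ_T, C₁.ι_T]
  have e₁₀ : ∀ f, (C₀.ι ∘ₗ C₁.ρ) (lzShift B V₁ 1 f) = lzShift B V₀ 1 ((C₀.ι ∘ₗ C₁.ρ) f) := by
    intro f; simp [C₁.ρ_T, C₀.ι_T]
  have e₀₁ : ∀ f, (C₁.ι ∘ₗ C₀.ρ) (lzShift B V₀ 1 f) = lzShift B V₁ 1 ((C₁.ι ∘ₗ C₀.ρ) f) := by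
    intro f; simp [C₀.ρ_T, C₁.ι_T]
  obtain ⟨d₁, hd₁, h₁⟩ := exists_hasDeg_of_equivariant _ e₀₀
  obtain ⟨d₂, hd₂, h₂⟩ := exists_hasDeg_of_equivariant _ e₁₁
  obtain ⟨d₃, hd₃, h₃⟩ := exists_hasDeg_of_equivariant _ e₁₀
  obtain ⟨d₄, hd₄, h₄⟩ := exists_hasDeg_of_equivariant _ e₀₁
  refine ⟨max (max d₁ d₂) (max d₃ d₄), by positivity, fun m => ⟨?_⟩⟩
  exact
    { ι₀ := C₀.ι
      ρ₀ := C₀.ρ
      ι₁ := C₁.ι
      ρ₁ := C₁.ρ
      ρ₀_ι₀ := C₀.ρ_ι
      ρ₁_ι₁ := C₁.ρ_ι
      ι₀_mem := C₀.ι_mem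
      ρ₀_mem := C₀.ρ_mem
      ι₁_mem := by
        rintro _ ⟨y, hy, rfl⟩
        have h := lzShift_mem_le B V₁ m (C₁.ι_mem y hy)
        rw [zero_add] at h
        simpa [C₁.ι_zpow] using h
      ρ₁_mem := by
        intro f hf
        refine ⟨C₁.ρ (lzShift B V₁ (-m) f), C₁.ρ_mem _ ?_, ?_⟩
        · have h := lzShift_mem_le B V₁ (-m) hf
          rwa [add_neg_cancel] at h
        · simp only [LinearEquiv.coe_coe]
          rw [← C₁.ρ_zpow, lzShift_apply_neg]
      d_nonneg := by positivity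
      deg₀₀ := h₁.mono (le_trans (le_max_left _ _) (le_max_left _ _))
      deg₁₁ := h₂.mono (le_trans (le_max_right _ _) (le_max_left _ _))
      deg₁₀ := h₃.mono (le_trans (le_max_left _ _) (le_max_right _ _))
      deg₀₁ := h₄.mono (le_trans (le_max_right _ _) (le_max_right _ _)) }

include C₀ C₁ in
/-- **Vanishing of `H¹` of large twists.** -/
theorem exists_forall_sup_eq_top [Module.Finite B V₀] [Module.Finite B V₁] :
    ∃ d : ℤ, 0 ≤ d ∧ ∀ m : ℤ, d - 1 ≤ m → L₀ ⊔ twist T L₁ m = ⊤ := by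
  obtain ⟨d, hd, h⟩ := exists_pairData C₀ C₁
  exact ⟨d, hd, fun m hm => (h m).some.sup_eq_top hm⟩

include C₀ C₁ in
/-- **`H⁰` of large twists is a retract of a window of Laurent vectors.** -/
theorem exists_forall_retract [Module.Finite B V₀] [Module.Finite B V₁] :
    ∃ d : ℤ, 0 ≤ d ∧ ∀ m : ℤ, d - 1 ≤ m →
      L₀ ⊔ twist T L₁ m = ⊤ ∧
      ∃ (i : ↥(L₀ ⊓ twist T L₁ m) →ₗ[B]
            ↥((prodFil (lzFil B V₀) (lzFil B V₁)).gt (-1) ⊓
              (prodFil (lzFil B V₀) (lzFil B V₁)).le (m + d)))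
        (r : ↥((prodFil (lzFil B V₀) (lzFil B V₁)).gt (-1) ⊓
              (prodFil (lzFil B V₀) (lzFil B V₁)).le (m + d)) →ₗ[B] ↥(L₀ ⊓ twist T L₁ m)),
        r ∘ₗ i = LinearMap.id := by
  obtain ⟨d, hd, h⟩ := exists_pairData C₀ C₁
  exact ⟨d, hd, fun m hm => ⟨(h m).some.sup_eq_top hm, (h m).some.exists_retract_window hm⟩⟩

/-- The window of a product bifiltration is the product of the windows. -/
theorem prod_window_eq (a b : ℤ) :
    (prodFil (lzFil B V₀) (lzFil B V₁)).gt a ⊓ (prodFil (lzFil B V₀) (lzFil B V₁)).le b =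
      ((lzFil B V₀).gt a ⊓ (lzFil B V₀).le b).prod ((lzFil B V₁).gt a ⊓ (lzFil B V₁).le b) := by
  simp only [prodFil_gt, prodFil_le, Submodule.prod_inf_prod]

/-- The product of two submodules, as a module, is the product of the two modules. -/
def prodSubmoduleEquiv {N₁ : Type v} {N₂ : Type w} [AddCommGroup N₁] [Module B N₁]
    [AddCommGroup N₂] [Module B N₂] (p : Submodule B N₁) (q : Submodule B N₂) :
    ↥(p.prod q) ≃ₗ[B] (↥p × ↥q) where
  toFun z := (⟨z.1.1, z.2.1⟩, ⟨z.1.2, z.2.2⟩)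
  invFun z := ⟨(z.1.1, z.2.1), ⟨z.1.2, z.2.2⟩⟩
  map_add' _ _ := rfl
  map_smul' _ _ := rfl
  left_inv _ := rfl
  right_inv _ := rfl

theorem finite_prod_window [Module.Finite B V₀] [Module.Finite B V₁] (a b : ℤ) :
    Module.Finite B ↥((prodFil (lzFil B V₀) (lzFil B V₁)).gt a ⊓
      (prodFil (lzFil B V₀) (lzFil B V₁)).le b) := by
  rw [prod_window_eq]
  exact Module.Finite.equiv (prodSubmoduleEquiv _ _).symm

theorem projective_prod_window [Module.Free B V₀] [Module.Free B V₁] (a b : ℤ) :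
    Module.Projective B ↥((prodFil (lzFil B V₀) (lzFil B V₁)).gt a ⊓
      (prodFil (lzFil B V₀) (lzFil B V₁)).le b) := by
  rw [prod_window_eq]
  exact Module.Projective.of_equiv (prodSubmoduleEquiv _ _).symm

include C₀ C₁ in
/-- **Cohomology of large twists**: there is `d ≥ 0` such that for all `m ≥ d - 1` the `m`-th
twist has vanishing `H¹` (`L₀ ⊔ T ^ m L₁ = ⊤`) and finite projective `H⁰`
(`L₀ ⊓ T ^ m L₁`). -/
theorem exists_forall_finite_projective [Module.Finite B V₀] [Module.Finite B V₁]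
    [Module.Free B V₀] [Module.Free B V₁] :
    ∃ d : ℤ, 0 ≤ d ∧ ∀ m : ℤ, d - 1 ≤ m →
      L₀ ⊔ twist T L₁ m = ⊤ ∧
      Module.Finite B ↥(L₀ ⊓ twist T L₁ m) ∧ Module.Projective B ↥(L₀ ⊓ twist T L₁ m) := by
  obtain ⟨d, hd, h⟩ := exists_forall_retract C₀ C₁
  refine ⟨d, hd, fun m hm => ?_⟩
  obtain ⟨h1, i, r, hri⟩ := h m hm
  have hfin := finite_prod_window (B := B) (V₀ := V₀) (V₁ := V₁) (-1) (m + d)
  have hproj := projective_prod_window (B := B) (V₀ := V₀) (V₁ := V₁) (-1) (m + d)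
  have hsurj : Function.Surjective r := fun y => ⟨i y, by
    have := LinearMap.congr_fun hri y
    simpa only [LinearMap.comp_apply, LinearMap.id_apply] using this⟩
  exact ⟨h1, Module.Finite.of_surjective r hsurj, Module.Projective.of_split i r hri⟩

end Main

end Fermat.Agent.JAC.Frame.Main65
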