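import Fermat.Agent.JAC.Frame.Main65

/-!
# Programme JAC, chapter Frame: from polynomial frames to chart data

`P` is a `B`-module with an endomorphism `τ` ("a `B[t]`-module"), `N` a `B`-module with an
automorphism `T` and `ρ : P → N` an injective equivariant map such that every element of `N` is
moved into the image of `ρ` by a power of `T` ("`N = P[1/t]`").  A `NatChart τ V` is the coordinate
form of "`P` is a direct summand of `V[t]` as a `B[t]`-module": an equivariant retraction of `P`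
into polynomial vectors `ℕ →₀ V`.

* `NatChart.toChartData`: a `NatChart` of `P` gives `ChartData T (range ρ) V (gt (-1))`, the
  chart data at `0` required by `Main65.exists_forall_finite_projective`.
* `ChartData.reflect`: chart data for `T⁻¹` with standard lattice `gt (-1)` is chart data for `T`
  with standard lattice `le 0` (the chart at infinity).
-/

set_option autoImplicit false

namespace Fermat.Agent.JAC.Frame.NatChart65

open Fermat.Agent.JAC.Frame.BiFil65 Fermat.Agent.JAC.Frame.Pair65 Fermat.Agent.JAC.Frame.Lz65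
  Fermat.Agent.JAC.Frame.Main65

universe u v w x

section Basic

variable (B : Type u) [CommRing B] (V : Type v) [AddCommGroup V] [Module B V]

/-- The shift on polynomial vectors ("multiplication by `t`"). -/
noncomputable def natShift : (ℕ →₀ V) →ₗ[B] (ℕ →₀ V) := Finsupp.lmapDomain V B (· + 1)

@[simp] theorem natShift_single (k : ℕ) (v : V) :
    natShift B V (Finsupp.single k v) = Finsupp.single (k + 1) v := by
  simp [natShift, Finsupp.lmapDomain_apply]

/-- Polynomial vectors inside Laurent vectors. -/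
noncomputable def natEmb : (ℕ →₀ V) →ₗ[B] (ℤ →₀ V) := Finsupp.lmapDomain V B Nat.cast

@[simp] theorem natEmb_single (k : ℕ) (v : V) :
    natEmb B V (Finsupp.single k v) = Finsupp.single (k : ℤ) v := by
  simp [natEmb, Finsupp.lmapDomain_apply]

theorem natEmb_injective : Function.Injective (natEmb B V) :=
  Finsupp.mapDomain_injective Nat.cast_injective

theorem natEmb_natShift (f : ℕ →₀ V) :
    natEmb B V (natShift B V f) = lzShift B V 1 (natEmb B V f) := by
  induction f using Finsupp.induction_linear with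
  | zero => simp
  | add f g hf hg => simp [map_add, hf, hg]
  | single k v => simp

theorem natEmb_mem_gt (f : ℕ →₀ V) : natEmb B V f ∈ (lzFil B V).gt (-1) := by
  induction f using Finsupp.induction_linear with
  | zero => exact Submodule.zero_mem _
  | add f g hf hg => rw [map_add]; exact Submodule.add_mem _ hf hg
  | single k v =>
    rw [natEmb_single, lzFil_gt]
    apply Finsupp.single_mem_supported
    simp only [Set.mem_ofPred_eq]
    omega

theorem exists_natEmb_eq {f : ℤ →₀ V} (hf : f ∈ (lzFil B V).gt (-1)) :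
    ∃ g : ℕ →₀ V, natEmb B V g = f := by
  refine ⟨f.comapDomain Nat.cast Nat.cast_injective.injOn, ?_⟩
  apply Finsupp.mapDomain_comapDomain _ Nat.cast_injective
  intro k hk
  rw [lzFil_gt, Finsupp.mem_supported] at hf
  have h := hf hk
  simp only [Set.mem_ofPred_eq] at h
  exact ⟨k.toNat, by simp; omega⟩

theorem lzShift_one_zpow (m : ℤ) : (lzShift B V 1) ^ m = lzShift B V m := by
  have hsymm : ∀ f, (lzShift B V 1).symm f = lzShift B V (-1) f := by
    intro f
    rw [LinearEquiv.symm_apply_eq, lzShift_apply_neg]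
  induction m using Int.induction_on with
  | zero =>
    rw [zpow_zero, lzShift_zero]; rfl
  | succ n ih =>
    rw [zpow_add_one, ih]
    ext f : 1
    rw [LinearEquiv.mul_apply, ← lzShift_add_apply]
  | pred n ih =>
    rw [zpow_sub_one, ih]
    ext f : 1
    rw [LinearEquiv.mul_apply, LinearEquiv.coe_inv, hsymm, ← lzShift_add_apply, sub_eq_add_neg]

/-- There is a shift moving any Laurent vector into the polynomial vectors. -/
theorem exists_shift_mem_gt (f : ℤ →₀ V) : ∃ k : ℕ, lzShift B V k f ∈ (lzFil B V).gt (-1) := by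
  induction f using Finsupp.induction_linear with
  | zero => exact ⟨0, Submodule.zero_mem _⟩
  | add f g hf hg =>
    obtain ⟨a, ha⟩ := hf
    obtain ⟨b, hb⟩ := hg
    refine ⟨a + b, ?_⟩
    rw [map_add]
    refine Submodule.add_mem _ ?_ ?_
    · have h := lzShift_mem_gt B V (b : ℤ) ha
      rw [← lzShift_add_apply] at h
      have h2 := (lzFil B V).gt_anti (show (-1 : ℤ) ≤ -1 + b by omega) h
      simpa [add_comm] using h2
    · have h := lzShift_mem_gt B V (a : ℤ) hb
      rw [← lzShift_add_apply] at h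
      have h2 := (lzFil B V).gt_anti (show (-1 : ℤ) ≤ -1 + a by omega) h
      simpa using h2
  | single k v =>
    refine ⟨k.natAbs, ?_⟩
    rw [lzShift_single, lzFil_gt]
    apply Finsupp.single_mem_supported
    simp only [Set.mem_ofPred_eq]
    omega

end Basic

variable {B : Type u} [CommRing B]

/-- Coordinate form of "`P` is a direct summand of `V[t]` as a `B[t]`-module". -/
structure NatChart {P : Type w} [AddCommGroup P] [Module B P] (τ : P →ₗ[B] P)
    (V : Type v) [AddCommGroup V] [Module B V] where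
  i : P →ₗ[B] (ℕ →₀ V)
  r : (ℕ →₀ V) →ₗ[B] P
  r_i : ∀ x, r (i x) = x
  i_τ : ∀ x, i (τ x) = natShift B V (i x)
  r_σ : ∀ f, r (natShift B V f) = τ (r f)

section Ext

variable {V : Type v} [AddCommGroup V] [Module B V] {Z : Type x} [AddCommGroup Z] [Module B Z]

/-- The equivariant extension to Laurent vectors of a map on polynomial vectors. -/
noncomputable def extZ (S : Z ≃ₗ[B] Z) (φ : (ℕ →₀ V) →ₗ[B] Z) : (ℤ →₀ V) →ₗ[B] Z :=
  Finsupp.lsum ℕ (fun k : ℤ => ((S ^ k : Z ≃ₗ[B] Z) : Z →ₗ[B] Z) ∘ₗ φ ∘ₗ Finsupp.lsingle 0)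

@[simp] theorem extZ_single (S : Z ≃ₗ[B] Z) (φ : (ℕ →₀ V) →ₗ[B] Z) (k : ℤ) (v : V) :
    extZ S φ (Finsupp.single k v) = (S ^ k) (φ (Finsupp.single 0 v)) := by
  simp [extZ]

theorem extZ_shift (S : Z ≃ₗ[B] Z) (φ : (ℕ →₀ V) →ₗ[B] Z) (m : ℤ) (f : ℤ →₀ V) :
    extZ S φ (lzShift B V m f) = (S ^ m) (extZ S φ f) := by
  induction f using Finsupp.induction_linear with
  | zero => simp
  | add f g hf hg => simp [map_add, hf, hg]
  | single k v =>
    rw [lzShift_single, extZ_single, extZ_single, add_comm, zpow_add, LinearEquiv.mul_apply]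

theorem extZ_natEmb (S : Z ≃ₗ[B] Z) (φ : (ℕ →₀ V) →ₗ[B] Z)
    (hφ : ∀ f, φ (natShift B V f) = S (φ f)) (g : ℕ →₀ V) :
    extZ S φ (natEmb B V g) = φ g := by
  induction g using Finsupp.induction_linear with
  | zero => simp
  | add f g hf hg => simp [map_add, hf, hg]
  | single k v =>
    induction k with
    | zero => simp
    | succ k ih =>
      rw [← natShift_single B V, natEmb_natShift, extZ_shift, ih, hφ, zpow_one]

end Ext

namespace NatChart

variable {P : Type w} [AddCommGroup P] [Module B P] {τ : P →ₗ[B] P}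
  {V : Type v} [AddCommGroup V] [Module B V] (C : NatChart τ V)
  {N : Type x} [AddCommGroup N] [Module B N] (T : N ≃ₗ[B] N) (ρ : P →ₗ[B] N)

/-- The chart retraction `Laurent vectors → N`. -/
noncomputable def rhoC : (ℤ →₀ V) →ₗ[B] N := extZ T (ρ ∘ₗ C.r)

/-- The idempotent of Laurent vectors cutting out `N`. -/
noncomputable def eHat : (ℤ →₀ V) →ₗ[B] (ℤ →₀ V) :=
  extZ (lzShift B V 1) (natEmb B V ∘ₗ C.i ∘ₗ C.r)

theorem rhoC_shift (m : ℤ) (f : ℤ →₀ V) :
    C.rhoC T ρ (lzShift B V m f) = (T ^ m) (C.rhoC T ρ f) :=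
  extZ_shift _ _ _ _

theorem eHat_shift (m : ℤ) (f : ℤ →₀ V) :
    C.eHat (lzShift B V m f) = lzShift B V m (C.eHat f) := by
  rw [eHat, extZ_shift, lzShift_one_zpow]

variable {T ρ}

theorem rhoC_natEmb (hρτ : ∀ x, ρ (τ x) = T (ρ x)) (g : ℕ →₀ V) :
    C.rhoC T ρ (natEmb B V g) = ρ (C.r g) := by
  rw [rhoC, extZ_natEmb]
  · rfl
  · intro f
    simp [C.r_σ, hρτ]

theorem eHat_natEmb (g : ℕ →₀ V) : C.eHat (natEmb B V g) = natEmb B V (C.i (C.r g)) := by
  rw [eHat, extZ_natEmb]
  · rfl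
  · intro f
    simp [C.r_σ, C.i_τ, natEmb_natShift]

/-- The submodule of Laurent vectors fixed by the idempotent. -/
noncomputable def fixed : Submodule B (ℤ →₀ V) := LinearMap.eqLocus C.eHat LinearMap.id

theorem mem_fixed {w : ℤ →₀ V} : w ∈ C.fixed ↔ C.eHat w = w := Iff.rfl

theorem shift_mem_fixed (m : ℤ) {w : ℤ →₀ V} (hw : w ∈ C.fixed) : lzShift B V m w ∈ C.fixed := by
  rw [mem_fixed] at hw ⊢
  rw [eHat_shift, hw]

theorem natEmb_i_mem_fixed (x : P) : natEmb B V (C.i x) ∈ C.fixed := by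
  rw [mem_fixed, eHat_natEmb, C.r_i]

variable (hρτ : ∀ x, ρ (τ x) = T (ρ x)) (hinj : Function.Injective ρ)
  (hsurj : ∀ z : N, ∃ (k : ℕ) (x : P), (T ^ (k : ℤ)) z = ρ x)

include hρτ hinj in
theorem eq_zero_of_mem_fixed {w : ℤ →₀ V} (hw : w ∈ C.fixed) (h0 : C.rhoC T ρ w = 0) : w = 0 := by
  obtain ⟨k, hk⟩ := exists_shift_mem_gt B V w
  obtain ⟨g, hg⟩ := exists_natEmb_eq B V hk
  have h1 : C.i (C.r g) = g := by
    apply natEmb_injective B V
    rw [← eHat_natEmb, hg]
    exact (C.mem_fixed).1 (C.shift_mem_fixed k hw)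
  have h2 : ρ (C.r g) = 0 := by
    rw [← C.rhoC_natEmb hρτ, hg, rhoC_shift, h0, map_zero]
  have h3 : C.r g = 0 := hinj (by rw [h2, map_zero])
  have h4 : g = 0 := by rw [← h1, h3, map_zero]
  have h5 : lzShift B V k w = 0 := by rw [← hg, h4, map_zero]
  exact (LinearEquiv.map_eq_zero_iff _).1 h5

include hρτ hsurj in
theorem exists_mem_fixed_rhoC_eq (z : N) : ∃ w ∈ C.fixed, C.rhoC T ρ w = z := by
  obtain ⟨k, x, hx⟩ := hsurj z
  refine ⟨lzShift B V (-(k : ℤ)) (natEmb B V (C.i x)), C.shift_mem_fixed _ (C.natEmb_i_mem_fixed x),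
    ?_⟩
  rw [rhoC_shift, C.rhoC_natEmb hρτ, C.r_i, ← hx, ← LinearEquiv.mul_apply, ← zpow_add]
  simp

/-- The restriction of the chart retraction to the fixed submodule is an isomorphism. -/
noncomputable def fixedEquiv : ↥C.fixed ≃ₗ[B] N :=
  LinearEquiv.ofBijective ((C.rhoC T ρ).domRestrict C.fixed)
    ⟨by
      rw [← LinearMap.ker_eq_bot, LinearMap.ker_eq_bot']
      intro w hw
      exact Subtype.ext (C.eq_zero_of_mem_fixed hρτ hinj w.2 hw),
     fun z => by
      obtain ⟨w, hw, hz⟩ := C.exists_mem_fixed_rhoC_eq hρτ hsurj z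
      exact ⟨⟨w, hw⟩, hz⟩⟩

theorem rhoC_fixedEquiv_symm (z : N) :
    C.rhoC T ρ ((C.fixedEquiv hρτ hinj hsurj).symm z : ℤ →₀ V) = z :=
  (C.fixedEquiv hρτ hinj hsurj).apply_symm_apply z

theorem fixedEquiv_symm_eq {z : N} {w : ℤ →₀ V} (hw : w ∈ C.fixed) (hz : C.rhoC T ρ w = z) :
    ((C.fixedEquiv hρτ hinj hsurj).symm z : ℤ →₀ V) = w := by
  have : (C.fixedEquiv hρτ hinj hsurj).symm z = ⟨w, hw⟩ := by
    rw [LinearEquiv.symm_apply_eq]
    exact hz.symm
  rw [this]

/-- **Chart data at `0` from a polynomial frame.** -/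
noncomputable def toChartData :
    ChartData T (LinearMap.range ρ) V ((lzFil B V).gt (-1)) where
  ι := C.fixed.subtype ∘ₗ ((C.fixedEquiv hρτ hinj hsurj).symm : N →ₗ[B] ↥C.fixed)
  ρ := C.rhoC T ρ
  ρ_ι z := C.rhoC_fixedEquiv_symm hρτ hinj hsurj z
  ι_T z := by
    simp only [LinearMap.comp_apply, LinearEquiv.coe_coe, Submodule.subtype_apply]
    apply C.fixedEquiv_symm_eq hρτ hinj hsurj (C.shift_mem_fixed 1 (Subtype.property _))
    rw [rhoC_shift, C.rhoC_fixedEquiv_symm hρτ hinj hsurj, zpow_one]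
  ρ_T f := by rw [rhoC_shift, zpow_one]
  ι_mem := by
    rintro _ ⟨x, rfl⟩
    simp only [LinearMap.comp_apply, LinearEquiv.coe_coe, Submodule.subtype_apply]
    rw [C.fixedEquiv_symm_eq hρτ hinj hsurj (C.natEmb_i_mem_fixed x)
      (by rw [C.rhoC_natEmb hρτ, C.r_i])]
    exact natEmb_mem_gt B V _
  ρ_mem := by
    intro f hf
    obtain ⟨g, rfl⟩ := exists_natEmb_eq B V hf
    exact ⟨C.r g, (C.rhoC_natEmb hρτ g).symm⟩

end NatChart

section Reflect

variable (B : Type u) [CommRing B] (V : Type v) [AddCommGroup V] [Module B V]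

/-- The reflection `k ↦ -k` of Laurent vectors (the substitution `T ↦ T⁻¹`). -/
noncomputable def lzNeg : (ℤ →₀ V) ≃ₗ[B] (ℤ →₀ V) := Finsupp.domLCongr (Equiv.neg ℤ)

@[simp] theorem lzNeg_single (k : ℤ) (v : V) :
    lzNeg B V (Finsupp.single k v) = Finsupp.single (-k) v := by
  simp [lzNeg]

theorem lzNeg_apply (f : ℤ →₀ V) (k : ℤ) : lzNeg B V f k = f (-k) := by
  simp [lzNeg, Finsupp.domLCongr_apply, Finsupp.domCongr_apply, Finsupp.equivMapDomain_apply]

@[simp] theorem lzNeg_lzNeg (f : ℤ →₀ V) : lzNeg B V (lzNeg B V f) = f := by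
  ext k
  simp [lzNeg_apply]

theorem lzNeg_shift (m : ℤ) (f : ℤ →₀ V) :
    lzNeg B V (lzShift B V m f) = lzShift B V (-m) (lzNeg B V f) := by
  ext k
  simp only [lzNeg_apply, lzShift_apply]
  congr 1
  ring

theorem lzNeg_mem_le {f : ℤ →₀ V} (hf : f ∈ (lzFil B V).gt (-1)) :
    lzNeg B V f ∈ (lzFil B V).le 0 := by
  rw [lzFil_gt, Finsupp.mem_supported'] at hf
  rw [lzFil_le, Finsupp.mem_supported']
  intro k hk
  rw [lzNeg_apply]
  apply hf
  simp only [Set.mem_ofPred_eq] at hk ⊢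
  omega

theorem lzNeg_mem_gt {f : ℤ →₀ V} (hf : f ∈ (lzFil B V).le 0) :
    lzNeg B V f ∈ (lzFil B V).gt (-1) := by
  rw [lzFil_le, Finsupp.mem_supported'] at hf
  rw [lzFil_gt, Finsupp.mem_supported']
  intro k hk
  rw [lzNeg_apply]
  apply hf
  simp only [Set.mem_ofPred_eq] at hk ⊢
  omega

variable {B V} {M : Type x} [AddCommGroup M] [Module B M]

/-- **The chart at infinity**: chart data for the inverse automorphism with standard lattice
`gt (-1)` is chart data for `T` with standard lattice `le 0`. -/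
noncomputable def reflectChartData {T T' : M ≃ₗ[B] M} (hT : ∀ x, T' (T x) = x) {L : Submodule B M}
    (C : ChartData T' L V ((lzFil B V).gt (-1))) : ChartData T L V ((lzFil B V).le 0) where
  ι := (lzNeg B V : (ℤ →₀ V) →ₗ[B] (ℤ →₀ V)) ∘ₗ C.ι
  ρ := C.ρ ∘ₗ (lzNeg B V : (ℤ →₀ V) →ₗ[B] (ℤ →₀ V))
  ρ_ι x := by simp [C.ρ_ι]
  ι_T x := by
    have h := C.ι_T (T x)
    rw [hT] at h
    simp only [LinearMap.comp_apply, LinearEquiv.coe_coe]
    rw [h, lzNeg_shift, lzShift_apply_neg]
  ρ_T f := by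
    have hT' : ∀ x, T (T' x) = x := by
      intro x
      obtain ⟨y, rfl⟩ := T.surjective x
      rw [hT]
    simp only [LinearMap.comp_apply, LinearEquiv.coe_coe]
    have h := C.ρ_T (lzShift B V (-1) (lzNeg B V f))
    rw [lzShift_apply_neg] at h
    rw [lzNeg_shift, h, hT']
  ι_mem x hx := lzNeg_mem_le B V (C.ι_mem x hx)
  ρ_mem f hf := C.ρ_mem _ (lzNeg_mem_gt B V hf)

end Reflect

end Fermat.Agent.JAC.Frame.NatChart65
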