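import Fermat.Agent.JAC.Frame.BiFil65

/-!
# Programme JAC, chapter Frame: lattice pairs

A *lattice pair* is a `B`-module `M` with two submodules `L₀`, `L₁` ("sections over the chart at
`0`", "sections over the chart at `∞`, twisted `m` times").  The standing hypothesis, in
coordinate form, is that `M` is a retract of two bifiltered modules `F₀`, `F∞` ("`L₀` is finite
projective over `B[T]`, `L₁` is finite projective over `B[T⁻¹]`, and both localise to `M`"):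

* `ρ₀ ∘ ι₀ = id`, `ι₀ L₀ ≤ Φ₀.gt (-1)`, `ρ₀ (Φ₀.gt (-1)) ≤ L₀`;
* `ρ∞ ∘ ι∞ = id`, `ι∞ L₁ ≤ Φ∞.le m`, `ρ∞ (Φ∞.le m) ≤ L₁`;
* the four transition maps `ι₀ρ₀`, `ι∞ρ∞`, `ι₀ρ∞`, `ι∞ρ₀` have degree `≤ d`.

Then for `m ≥ d - 1`:

* `PairData.sup_eq_top`: `L₀ ⊔ L₁ = ⊤` (vanishing of `H¹`);
* `PairData.exists_retract_window`: `L₀ ⊓ L₁` is a retract of a window of `F₀ × F∞`.

The proof embeds the pair as a retract of the pair `(gt (-1), θ (le m))` in `F₀ × F∞`, where `θ`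
is an explicit involution of `F₀ × F∞` exchanging the two copies of `M`.
-/

set_option autoImplicit false

namespace Fermat.Agent.JAC.Frame.Pair65

open Fermat.Agent.JAC.Frame.BiFil65

universe u v w x

variable {B : Type u} [CommRing B]

section Prod

variable {F : Type v} [AddCommGroup F] [Module B F] {F' : Type w} [AddCommGroup F'] [Module B F']

/-- The product of two bifiltrations. -/
def prodFil (Φ : BiFil B F) (Ψ : BiFil B F') : BiFil B (F × F') where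
  le j := (Φ.le j).prod (Ψ.le j)
  gt j := (Φ.gt j).prod (Ψ.gt j)
  le_mono := fun _ _ h => Submodule.prod_mono (Φ.le_mono h) (Ψ.le_mono h)
  gt_anti := fun _ _ h => Submodule.prod_mono (Φ.gt_anti h) (Ψ.gt_anti h)
  isCompl j := by
    constructor
    · rw [disjoint_iff, Submodule.prod_inf_prod, (Φ.isCompl j).inf_eq_bot,
        (Ψ.isCompl j).inf_eq_bot, Submodule.prod_bot]
    · rw [codisjoint_iff, Submodule.prod_sup_prod, (Φ.isCompl j).sup_eq_top,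
        (Ψ.isCompl j).sup_eq_top, Submodule.prod_top]

@[simp] theorem prodFil_le (Φ : BiFil B F) (Ψ : BiFil B F') (j : ℤ) :
    (prodFil Φ Ψ).le j = (Φ.le j).prod (Ψ.le j) := rfl

@[simp] theorem prodFil_gt (Φ : BiFil B F) (Ψ : BiFil B F') (j : ℤ) :
    (prodFil Φ Ψ).gt j = (Φ.gt j).prod (Ψ.gt j) := rfl

end Prod

/-- The coordinate data of a lattice pair `(M; L₀, L₁)` at twist level `m`, with degree bound
`d`. -/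
structure PairData {M : Type x} [AddCommGroup M] [Module B M] (L₀ L₁ : Submodule B M)
    {F₀ : Type v} [AddCommGroup F₀] [Module B F₀] (Φ₀ : BiFil B F₀)
    {F₁ : Type w} [AddCommGroup F₁] [Module B F₁] (Φ₁ : BiFil B F₁) (m d : ℤ) where
  ι₀ : M →ₗ[B] F₀
  ρ₀ : F₀ →ₗ[B] M
  ι₁ : M →ₗ[B] F₁
  ρ₁ : F₁ →ₗ[B] M
  ρ₀_ι₀ : ∀ x, ρ₀ (ι₀ x) = x
  ρ₁_ι₁ : ∀ x, ρ₁ (ι₁ x) = x
  ι₀_mem : ∀ x ∈ L₀, ι₀ x ∈ Φ₀.gt (-1)
  ρ₀_mem : ∀ y ∈ Φ₀.gt (-1), ρ₀ y ∈ L₀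
  ι₁_mem : ∀ x ∈ L₁, ι₁ x ∈ Φ₁.le m
  ρ₁_mem : ∀ y ∈ Φ₁.le m, ρ₁ y ∈ L₁
  d_nonneg : 0 ≤ d
  deg₀₀ : Φ₀.HasDeg Φ₀ (ι₀ ∘ₗ ρ₀) d
  deg₁₁ : Φ₁.HasDeg Φ₁ (ι₁ ∘ₗ ρ₁) d
  deg₁₀ : Φ₁.HasDeg Φ₀ (ι₀ ∘ₗ ρ₁) d
  deg₀₁ : Φ₀.HasDeg Φ₁ (ι₁ ∘ₗ ρ₀) d

namespace PairData

variable {M : Type x} [AddCommGroup M] [Module B M] {L₀ L₁ : Submodule B M}
  {F₀ : Type v} [AddCommGroup F₀] [Module B F₀] {Φ₀ : BiFil B F₀}
  {F₁ : Type w} [AddCommGroup F₁] [Module B F₁] {Φ₁ : BiFil B F₁} {m d : ℤ}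
  (D : PairData L₀ L₁ Φ₀ Φ₁ m d)

/-- The transition involution of `F₀ × F₁`, as a linear map. -/
def thetaLin : (F₀ × F₁) →ₗ[B] (F₀ × F₁) :=
  LinearMap.prod
    (LinearMap.coprod (LinearMap.id - D.ι₀ ∘ₗ D.ρ₀) (D.ι₀ ∘ₗ D.ρ₁))
    (LinearMap.coprod (D.ι₁ ∘ₗ D.ρ₀) (LinearMap.id - D.ι₁ ∘ₗ D.ρ₁))

theorem thetaLin_apply (u : F₀) (v : F₁) :
    D.thetaLin (u, v) =
      (u - D.ι₀ (D.ρ₀ u) + D.ι₀ (D.ρ₁ v), D.ι₁ (D.ρ₀ u) + (v - D.ι₁ (D.ρ₁ v))) := by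
  simp [thetaLin]

theorem thetaLin_involutive : Function.Involutive D.thetaLin := by
  rintro ⟨u, v⟩
  rw [thetaLin_apply, thetaLin_apply]
  simp only [map_add, map_sub, D.ρ₀_ι₀, D.ρ₁_ι₁]
  refine Prod.ext ?_ ?_ <;> simp only <;> abel

/-- The transition involution of `F₀ × F₁`. -/
def theta : (F₀ × F₁) ≃ₗ[B] (F₀ × F₁) :=
  LinearEquiv.ofInvolutive D.thetaLin D.thetaLin_involutive

@[simp] theorem theta_apply (z : F₀ × F₁) : D.theta z = D.thetaLin z := rfl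

@[simp] theorem theta_symm_apply (z : F₀ × F₁) : D.theta.symm z = D.thetaLin z := rfl

theorem hasDeg_thetaLin : (prodFil Φ₀ Φ₁).HasDeg (prodFil Φ₀ Φ₁) D.thetaLin d := by
  constructor
  · rintro j _ ⟨⟨u, v⟩, ⟨hu, hv⟩, rfl⟩
    simp only [SetLike.mem_coe] at hu hv
    rw [thetaLin_apply]
    have hu' : u ∈ Φ₀.le (j + d) := Φ₀.le_mono (by have := D.d_nonneg; omega) hu
    have hv' : v ∈ Φ₁.le (j + d) := Φ₁.le_mono (by have := D.d_nonneg; omega) hv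
    refine ⟨?_, ?_⟩
    · exact Submodule.add_mem _ (Submodule.sub_mem _ hu' (D.deg₀₀.le_apply hu))
        (D.deg₁₀.le_apply hv)
    · exact Submodule.add_mem _ (D.deg₀₁.le_apply hu)
        (Submodule.sub_mem _ hv' (D.deg₁₁.le_apply hv))
  · rintro j _ ⟨⟨u, v⟩, ⟨hu, hv⟩, rfl⟩
    simp only [SetLike.mem_coe] at hu hv
    rw [thetaLin_apply]
    have hu' : u ∈ Φ₀.gt (j - d) := Φ₀.gt_anti (by have := D.d_nonneg; omega) hu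
    have hv' : v ∈ Φ₁.gt (j - d) := Φ₁.gt_anti (by have := D.d_nonneg; omega) hv
    refine ⟨?_, ?_⟩
    · exact Submodule.add_mem _ (Submodule.sub_mem _ hu' (D.deg₀₀.gt_apply hu))
        (D.deg₁₀.gt_apply hv)
    · exact Submodule.add_mem _ (D.deg₀₁.gt_apply hu)
        (Submodule.sub_mem _ hv' (D.deg₁₁.gt_apply hv))

theorem hasDeg_theta : (prodFil Φ₀ Φ₁).HasDeg (prodFil Φ₀ Φ₁) (D.theta : (F₀ × F₁) →ₗ[B] (F₀ × F₁)) d :=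
  D.hasDeg_thetaLin

theorem hasDeg_theta_symm :
    (prodFil Φ₀ Φ₁).HasDeg (prodFil Φ₀ Φ₁) (D.theta.symm : (F₀ × F₁) →ₗ[B] (F₀ × F₁)) d :=
  D.hasDeg_thetaLin

/-- The embedding of `M` into `F₀ × F₁` through the chart at `0`. -/
def emb : M →ₗ[B] (F₀ × F₁) := LinearMap.inl B F₀ F₁ ∘ₗ D.ι₀

/-- The retraction of `F₀ × F₁` onto `M` through the chart at `0`. -/
def retr : (F₀ × F₁) →ₗ[B] M := D.ρ₀ ∘ₗ LinearMap.fst B F₀ F₁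

@[simp] theorem emb_apply (x : M) : D.emb x = (D.ι₀ x, 0) := rfl

@[simp] theorem retr_apply (z : F₀ × F₁) : D.retr z = D.ρ₀ z.1 := rfl

theorem retr_emb (x : M) : D.retr (D.emb x) = x := by simp [D.ρ₀_ι₀]

theorem emb_eq_theta (x : M) : D.emb x = D.thetaLin (0, D.ι₁ x) := by
  rw [thetaLin_apply]
  simp [D.ρ₁_ι₁]

theorem retr_theta (u : F₀) (v : F₁) : D.retr (D.thetaLin (u, v)) = D.ρ₁ v := by
  rw [thetaLin_apply]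
  simp [D.ρ₀_ι₀]

theorem emb_mem_gt {x : M} (hx : x ∈ L₀) : D.emb x ∈ (prodFil Φ₀ Φ₁).gt (-1) :=
  ⟨D.ι₀_mem x hx, Submodule.zero_mem _⟩

theorem emb_mem_map {x : M} (hx : x ∈ L₁) :
    D.emb x ∈ ((prodFil Φ₀ Φ₁).le m).map (D.theta : (F₀ × F₁) →ₗ[B] (F₀ × F₁)) :=
  ⟨(0, D.ι₁ x), ⟨Submodule.zero_mem _, D.ι₁_mem x hx⟩, (D.emb_eq_theta x).symm⟩

theorem retr_mem_of_gt {z : F₀ × F₁} (hz : z ∈ (prodFil Φ₀ Φ₁).gt (-1)) : D.retr z ∈ L₀ :=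
  D.ρ₀_mem _ hz.1

theorem retr_mem_of_map {z : F₀ × F₁}
    (hz : z ∈ ((prodFil Φ₀ Φ₁).le m).map (D.theta : (F₀ × F₁) →ₗ[B] (F₀ × F₁))) :
    D.retr z ∈ L₁ := by
  obtain ⟨⟨u, v⟩, ⟨_, hv⟩, rfl⟩ := hz
  have : D.retr (D.thetaLin (u, v)) = D.ρ₁ v := D.retr_theta u v
  simp only [LinearEquiv.coe_coe, theta_apply]
  rw [this]
  exact D.ρ₁_mem _ hv

include D in
/-- **Vanishing of `H¹`**: for `m ≥ d - 1` the two lattices span `M`. -/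
theorem sup_eq_top (hm : d - 1 ≤ m) : L₀ ⊔ L₁ = ⊤ := by
  rw [eq_top_iff]
  intro x _
  have htop := (prodFil Φ₀ Φ₁).sup_map_le_eq_top D.theta d m D.hasDeg_theta_symm hm
  have hx : D.emb x ∈ (prodFil Φ₀ Φ₁).gt (-1) ⊔
      ((prodFil Φ₀ Φ₁).le m).map (D.theta : (F₀ × F₁) →ₗ[B] (F₀ × F₁)) := by
    rw [htop]; trivial
  obtain ⟨s, hs, t, ht, hst⟩ := Submodule.mem_sup.mp hx
  have : x = D.retr s + D.retr t := by
    rw [← map_add, hst, D.retr_emb]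
  rw [this]
  exact Submodule.add_mem_sup (D.retr_mem_of_gt hs) (D.retr_mem_of_map ht)

/-- `L₀ ⊓ L₁` is a retract of `gt (-1) ⊓ θ (le m)` in `F₀ × F₁`. -/
theorem exists_retract_theta :
    ∃ (i : ↥(L₀ ⊓ L₁) →ₗ[B] ↥((prodFil Φ₀ Φ₁).gt (-1) ⊓
          ((prodFil Φ₀ Φ₁).le m).map (D.theta : (F₀ × F₁) →ₗ[B] (F₀ × F₁))))
      (r : ↥((prodFil Φ₀ Φ₁).gt (-1) ⊓
          ((prodFil Φ₀ Φ₁).le m).map (D.theta : (F₀ × F₁) →ₗ[B] (F₀ × F₁))) →ₗ[B] ↥(L₀ ⊓ L₁)),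
      r ∘ₗ i = LinearMap.id := by
  refine ⟨(D.emb.domRestrict (L₀ ⊓ L₁)).codRestrict _ ?_,
    (D.retr.domRestrict _).codRestrict _ ?_, ?_⟩
  · rintro ⟨x, hx⟩
    exact ⟨D.emb_mem_gt hx.1, D.emb_mem_map hx.2⟩
  · rintro ⟨z, hz⟩
    exact ⟨D.retr_mem_of_gt hz.1, D.retr_mem_of_map hz.2⟩
  · ext ⟨x, hx⟩
    exact D.retr_emb x

include D in
/-- **Finiteness and projectivity of `H⁰`**: for `m ≥ d - 1`, `L₀ ⊓ L₁` is a retract of the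
window `gt (-1) ⊓ le (m + d)` of `F₀ × F₁`. -/
theorem exists_retract_window (hm : d - 1 ≤ m) :
    ∃ (i : ↥(L₀ ⊓ L₁) →ₗ[B] ↥((prodFil Φ₀ Φ₁).gt (-1) ⊓ (prodFil Φ₀ Φ₁).le (m + d)))
      (r : ↥((prodFil Φ₀ Φ₁).gt (-1) ⊓ (prodFil Φ₀ Φ₁).le (m + d)) →ₗ[B] ↥(L₀ ⊓ L₁)),
      r ∘ₗ i = LinearMap.id := by
  obtain ⟨i₁, r₁, h₁⟩ := D.exists_retract_theta
  obtain ⟨i₂, r₂, h₂⟩ := (prodFil Φ₀ Φ₁).exists_retract_window D.theta d m D.hasDeg_theta hm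
  refine ⟨i₂ ∘ₗ i₁, r₁ ∘ₗ r₂, ?_⟩
  calc (r₁ ∘ₗ r₂) ∘ₗ (i₂ ∘ₗ i₁) = r₁ ∘ₗ (r₂ ∘ₗ i₂) ∘ₗ i₁ := by
        simp only [LinearMap.comp_assoc]
    _ = LinearMap.id := by rw [h₂, LinearMap.id_comp, h₁]

end PairData

end Fermat.Agent.JAC.Frame.Pair65
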